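import Fermat.Agent.LT.Spectral.RowOperator

/-!
# The trace of a product of two integral operators on a subspace of `L²`

`E` is a closed subspace (the cusp space). The first kernel only has to give bounded point
functionals on `E`; the second one has in addition its columns in `E` (cuspidal image). Then
the trace on `E` of the product is the integral over the diagonal of the composed kernel.
-/

set_option autoImplicit false

noncomputable section

open MeasureTheory Filter Topology
open scoped ENNReal InnerProductSpace ComplexConjugate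

namespace Fermat.Agent.LT.Spectral

variable {X : Type*} [MeasurableSpace X] {ν : Measure X}

/-- `|∫ K x y e y| ≤ C x ‖e‖` on `E`, with square integrable `C`. -/
structure HasPointBound (E : Submodule ℂ (Lp ℂ 2 ν)) (K : X → X → ℂ) (C : X → ℝ) : Prop where
  measurable : Measurable (Function.uncurry K)
  memLp : MemLp C 2 ν
  integrable : ∀ᵐ x ∂ν, ∀ e ∈ E, Integrable (fun y => K x y * e y) ν
  bound : ∀ᵐ x ∂ν, ∀ e ∈ E, ‖∫ y, K x y * e y ∂ν‖ ≤ C x * ‖e‖

variable [SFinite ν] {E : Submodule ℂ (Lp ℂ 2 ν)}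

theorem measurable_integral_kernel_mul {K : X → X → ℂ} (hK : Measurable (Function.uncurry K))
    (e : Lp ℂ 2 ν) : Measurable fun x => ∫ y, K x y * e y ∂ν := by
  have h : StronglyMeasurable fun p : X × X => K p.1 p.2 * e p.2 :=
    hK.stronglyMeasurable.mul ((Lp.stronglyMeasurable e).comp_measurable measurable_snd)
  exact (h.integral_prod_right').measurable

variable [CompleteSpace E] [TopologicalSpace.SeparableSpace E]

/-- The rows on `E` of a kernel with bounded point functionals. -/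
theorem exists_kernel_rows {K : X → X → ℂ} {C : X → ℝ} (h : HasPointBound E K C) :
    ∃ r : Lp E 2 ν, ∀ e : E, rowOp r e =ᵐ[ν] fun x => ∫ y, K x y * (e : Lp ℂ 2 ν) y ∂ν := by
  classical
  obtain ⟨A, hA, hAm, hA0⟩ := exists_measurable_superset_of_null
    (ae_iff.mp (h.integrable.and h.bound))
  have good : ∀ x ∉ A, (∀ e ∈ E, Integrable (fun y => K x y * e y) ν) ∧
      ∀ e ∈ E, ‖∫ y, K x y * e y ∂ν‖ ≤ C x * ‖e‖ := fun x hx => by
    by_contra hc
    exact hx (hA hc)
  let ev : X → E →L[ℂ] ℂ := fun x =>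
    if hx : x ∈ A then 0 else
      LinearMap.mkContinuous
        { toFun := fun e : E => ∫ y, K x y * (e : Lp ℂ 2 ν) y ∂ν
          map_add' := fun e e' => by
            rw [← integral_add ((good x hx).1 e e.2) ((good x hx).1 e' e'.2)]
            refine integral_congr_ae ?_
            filter_upwards [Lp.coeFn_add (e : Lp ℂ 2 ν) (e' : Lp ℂ 2 ν)] with y hy
            rw [Submodule.coe_add, hy, Pi.add_apply, mul_add]
          map_smul' := fun c e => by
            rw [RingHom.id_apply, ← integral_smul]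
            refine integral_congr_ae ?_
            filter_upwards [Lp.coeFn_smul c (e : Lp ℂ 2 ν)] with y hy
            rw [Submodule.coe_smul, hy, Pi.smul_apply, smul_eq_mul, smul_eq_mul]
            ring }
        (C x) fun e => (good x hx).2 e e.2
  have hev : ∀ x ∉ A, ∀ e : E, ev x e = ∫ y, K x y * (e : Lp ℂ 2 ν) y ∂ν := fun x hx e => by
    simp only [ev, dif_neg hx]
    rfl
  have hAae : ∀ᵐ x ∂ν, x ∉ A := measure_eq_zero_iff_ae_notMem.mp hA0
  have hmeas : ∀ e, Measurable fun x => ev x e := by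
    intro e
    have : (fun x => ev x e)
        = A.piecewise (fun _ => 0) fun x => ∫ y, K x y * (e : Lp ℂ 2 ν) y ∂ν := by
      funext x
      by_cases hx : x ∈ A
      · simp [ev, hx]
      · rw [hev x hx, Set.piecewise_eq_of_notMem _ _ _ hx]
    rw [this]
    exact Measurable.piecewise hAm measurable_const
      (measurable_integral_kernel_mul h.measurable _)
  have hbound : ∀ᵐ x ∂ν, ‖ev x‖ ≤ |C x| := hAae.mono fun x hx => by
    refine ContinuousLinearMap.opNorm_le_bound _ (abs_nonneg _) fun e => ?_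
    rw [hev x hx]
    exact ((good x hx).2 e e.2).trans
      (mul_le_mul_of_nonneg_right (le_abs_self _) (norm_nonneg _))
  obtain ⟨r, hr⟩ := exists_rows ev hmeas h.memLp.abs hbound
  refine ⟨r, fun e => (hr e).trans (hAae.mono fun x hx => ?_)⟩
  exact hev x hx e

omit [SFinite ν] in
/-- The rows of the adjoint kernel are the columns, when these lie in `E`. -/
theorem rows_eq_columns {K : X → X → ℂ} {r : Lp E 2 ν} {col : X → E}
    (hr : ∀ e : E, rowOp r e =ᵐ[ν] fun x => ∫ y, conj (K y x) * (e : Lp ℂ 2 ν) y ∂ν)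
    (hcol : ∀ᵐ x ∂ν, (col x : Lp ℂ 2 ν) =ᵐ[ν] fun y => K y x) :
    ∀ᵐ x ∂ν, r x = col x := by
  obtain ⟨w, b, hw, -⟩ := exists_countable_hilbertBasis E
  have h : ∀ᵐ x ∂ν, ∀ i : w, ⟪r x, b i⟫_ℂ = ∫ y, conj (K y x) * (b i : Lp ℂ 2 ν) y ∂ν :=
    ae_all_iff.mpr fun i => (coeFn_rowOp r (b i)).symm.trans (hr (b i))
  filter_upwards [h, hcol] with x hx hc
  have hinner : ∀ i : w, ⟪b i, r x⟫_ℂ = ⟪b i, col x⟫_ℂ := by
    intro i
    rw [← inner_conj_symm (b i) (r x), ← inner_conj_symm (b i) (col x), hx i,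
      Submodule.coe_inner (W := E), L2.inner_def]
    congr 1
    refine integral_congr_ae ?_
    filter_upwards [hc] with y hy
    rw [RCLike.inner_apply, hy]
    ring
  have h1 := b.hasSum_repr (r x)
  have h2 := b.hasSum_repr (col x)
  simp only [b.repr_apply_apply, hinner] at h1 h2
  exact h1.unique h2

/-- The trace formula on `E`. -/
theorem exists_rows_trace {ι : Type*} [Countable ι] (b : HilbertBasis ι ℂ E) {K₁ K₂ : X → X → ℂ}
    {C₁ C₂ : X → ℝ} (h₁ : HasPointBound E K₁ C₁)
    (h₂ : HasPointBound E (fun x y => conj (K₂ y x)) C₂) {col : X → E}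
    (hcol : ∀ᵐ x ∂ν, (col x : Lp ℂ 2 ν) =ᵐ[ν] fun y => K₂ y x) :
    ∃ s r : Lp E 2 ν,
      (∀ e : E, rowOp s e =ᵐ[ν] fun x => ∫ y, K₁ x y * (e : Lp ℂ 2 ν) y ∂ν) ∧
      (∀ e : E, rowOp r e =ᵐ[ν] fun x => ∫ y, conj (K₂ y x) * (e : Lp ℂ 2 ν) y ∂ν) ∧
      HasSum (fun i => ⟪b i, ((rowOp r).adjoint.comp (rowOp s)) (b i)⟫_ℂ)
        (∫ x, ∫ y, K₁ x y * K₂ y x ∂ν ∂ν) := by
  obtain ⟨s, hs⟩ := exists_kernel_rows h₁
  obtain ⟨r, hr⟩ := exists_kernel_rows h₂
  refine ⟨s, r, hs, hr, ?_⟩
  convert hasSum_inner_adjoint_rowOp b r s using 1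
  obtain ⟨w, b', hw, -⟩ := exists_countable_hilbertBasis E
  have hsb : ∀ᵐ x ∂ν, ∀ i : w, ⟪s x, b' i⟫_ℂ = ∫ y, K₁ x y * (b' i : Lp ℂ 2 ν) y ∂ν :=
    ae_all_iff.mpr fun i => (coeFn_rowOp s (b' i)).symm.trans (hs (b' i))
  refine integral_congr_ae ?_
  filter_upwards [hsb, h₁.integrable, h₁.bound, rows_eq_columns hr hcol, hcol]
    with x hx hint hbd hrc hc
  rw [hrc]
  let F : E →L[ℂ] ℂ := LinearMap.mkContinuous
    { toFun := fun e : E => ∫ y, K₁ x y * (e : Lp ℂ 2 ν) y ∂ν
      map_add' := fun e e' => by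
        rw [← integral_add (hint e e.2) (hint e' e'.2)]
        refine integral_congr_ae ?_
        filter_upwards [Lp.coeFn_add (e : Lp ℂ 2 ν) (e' : Lp ℂ 2 ν)] with y hy
        rw [Submodule.coe_add, hy, Pi.add_apply, mul_add]
      map_smul' := fun c e => by
        rw [RingHom.id_apply, ← integral_smul]
        refine integral_congr_ae ?_
        filter_upwards [Lp.coeFn_smul c (e : Lp ℂ 2 ν)] with y hy
        rw [Submodule.coe_smul, hy, Pi.smul_apply, smul_eq_mul, smul_eq_mul]
        ring }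
    (C₁ x) fun e => hbd e e.2
  have hF : ∀ e : E, F e = ⟪s x, e⟫_ℂ := by
    intro e
    have h1 := (b'.hasSum_repr e).mapL F
    have h2 := (b'.hasSum_repr e).mapL (innerSL ℂ (s x))
    simp only [map_smul, b'.repr_apply_apply, innerSL_apply_apply] at h1 h2
    have : ∀ i : w, F (b' i) = ⟪s x, b' i⟫_ℂ := fun i => (hx i).symm
    simp only [this] at h1
    exact h1.unique h2
  rw [← hF (col x)]
  show ∫ y, K₁ x y * K₂ y x ∂ν = ∫ y, K₁ x y * (col x : Lp ℂ 2 ν) y ∂ν
  refine integral_congr_ae ?_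
  filter_upwards [hc] with y hy
  rw [hy]

/-- The meaning of `(rowOp r)†`: it is the integral operator of `K₂` seen on `E`. -/
theorem inner_adjoint_rowOp_eq {K : X → X → ℂ} {r : Lp E 2 ν} {col : X → E}
    (hK : Measurable (Function.uncurry K))
    (hr : ∀ e : E, rowOp r e =ᵐ[ν] fun x => ∫ y, conj (K y x) * (e : Lp ℂ 2 ν) y ∂ν)
    (hcol : ∀ᵐ x ∂ν, (col x : Lp ℂ 2 ν) =ᵐ[ν] fun y => K y x) (f : Lp ℂ 2 ν) (e : E) :
    ⟪e, (rowOp r).adjoint f⟫_ℂ = ∫ y, conj ((e : Lp ℂ 2 ν) y) * ∫ x, K y x * f x ∂ν ∂ν := by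
  rw [ContinuousLinearMap.adjoint_inner_right, L2.inner_def]
  set u : X → ℂ := fun y => (e : Lp ℂ 2 ν) y with hu
  have hum : StronglyMeasurable u := Lp.stronglyMeasurable _
  have hsm : StronglyMeasurable fun p : X × X => conj (u p.1) * (K p.1 p.2 * f p.2) :=
    (Complex.continuous_conj.comp_stronglyMeasurable (hum.comp_measurable measurable_fst)).mul
      (hK.stronglyMeasurable.mul ((Lp.stronglyMeasurable f).comp_measurable measurable_snd))
  have hint : Integrable (fun p : X × X => conj (u p.1) * (K p.1 p.2 * f p.2)) (ν.prod ν) := by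
    refine (integrable_prod_iff' hsm.aestronglyMeasurable).mpr ⟨?_, ?_⟩
    · filter_upwards [hcol] with x hx
      have h2 : MemLp (fun y => K y x) 2 ν := (Lp.memLp (col x : Lp ℂ 2 ν)).ae_eq hx
      have hu2 : MemLp (fun y => conj (u y)) 2 ν := (Lp.memLp (e : Lp ℂ 2 ν)).star
      have h3 : Integrable (fun y => conj (u y) * K y x) ν := hu2.integrable_mul h2
      simpa [mul_assoc] using h3.mul_const (f x)
    · have hdom : Integrable (fun x => ‖e‖ * (‖r x‖ * ‖f x‖)) ν :=
        ((Lp.memLp r).norm.integrable_mul (Lp.memLp f).norm).const_mul _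
      refine hdom.mono' hsm.norm.integral_prod_left'.aestronglyMeasurable ?_
      filter_upwards [hcol, rows_eq_columns hr hcol] with x hx hrx
      rw [Real.norm_of_nonneg (integral_nonneg fun y => norm_nonneg _)]
      have hA : MemLp (fun y => ‖u y‖) 2 ν := (Lp.memLp (e : Lp ℂ 2 ν)).norm
      have hB : MemLp (fun y => ‖(col x : Lp ℂ 2 ν) y‖) 2 ν := (Lp.memLp _).norm
      calc ∫ y, ‖conj (u y) * (K y x * f x)‖ ∂ν
          = (∫ y, ‖u y‖ * ‖(col x : Lp ℂ 2 ν) y‖ ∂ν) * ‖f x‖ := by
            rw [← integral_mul_const]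
            refine integral_congr_ae ?_
            filter_upwards [hx] with y hy
            rw [norm_mul, norm_mul, RCLike.norm_conj, hy, mul_assoc]
        _ ≤ ‖e‖ * ‖col x‖ * ‖f x‖ := by
            gcongr
            refine le_trans (le_of_eq ?_)
              ((le_abs_self _).trans (abs_real_inner_le_norm (hA.toLp _) (hB.toLp _))) |>.trans_eq ?_
            · rw [L2.inner_def]
              refine integral_congr_ae ?_
              filter_upwards [hA.coeFn_toLp, hB.coeFn_toLp] with y h1 h2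
              rw [h1, h2, RCLike.inner_apply, RCLike.conj_to_real, mul_comm]
            · rw [Lp.norm_toLp, Lp.norm_toLp, eLpNorm_norm, eLpNorm_norm, ← Lp.norm_def,
                ← Lp.norm_def]
              rfl
        _ = ‖e‖ * (‖r x‖ * ‖f x‖) := by rw [hrx, mul_assoc]
  calc ∫ x, ⟪rowOp r e x, f x⟫_ℂ ∂ν
      = ∫ x, ∫ y, conj (u y) * (K y x * f x) ∂ν ∂ν := by
        refine integral_congr_ae ?_
        filter_upwards [hr e] with x hx
        rw [RCLike.inner_apply, hx, ← integral_conj, mul_comm (f x), ← integral_mul_const]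
        refine integral_congr_ae (Eventually.of_forall fun y => ?_)
        simp only [map_mul, RCLike.conj_conj, hu]
        ring
    _ = ∫ y, ∫ x, conj (u y) * (K y x * f x) ∂ν ∂ν := (integral_integral_swap hint).symm
    _ = _ := by simp_rw [integral_const_mul]; rfl

end Fermat.Agent.LT.Spectral
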