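import Fermat.Agent.LT.Spectral.RowOperator

/-!
# Operators with square integrable rows are compact

Consequently the spectral theorem for compact self-adjoint operators applies to them.
-/

set_option autoImplicit false

noncomputable section

open MeasureTheory Filter Topology
open scoped ENNReal InnerProductSpace

namespace Fermat.Agent.LT.Spectral

variable {X : Type*} [MeasurableSpace X] {μ : Measure X}
variable {E : Type*} [NormedAddCommGroup E] [InnerProductSpace ℂ E]

theorem norm_rowOp_le (r : Lp E 2 μ) : ‖rowOp r‖ ≤ ‖r‖ :=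
  LinearMap.mkContinuous_norm_le _ (norm_nonneg _) _

theorem rowOp_add (r s : Lp E 2 μ) : rowOp (r + s) = rowOp r + rowOp s := by
  refine ContinuousLinearMap.ext fun e => Lp.ext ?_
  rw [add_apply]
  filter_upwards [coeFn_rowOp (r + s) e, coeFn_rowOp r e, coeFn_rowOp s e, Lp.coeFn_add r s,
    Lp.coeFn_add (rowOp r e) (rowOp s e)] with x h1 h2 h3 h4 h5
  rw [h1, h5, Pi.add_apply, h2, h3, h4, Pi.add_apply, inner_add_left]

theorem rowOp_sub (r s : Lp E 2 μ) : rowOp (r - s) = rowOp r - rowOp s := by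
  rw [eq_sub_iff_add_eq, ← rowOp_add, sub_add_cancel]

theorem continuous_rowOp : Continuous (rowOp : Lp E 2 μ → E →L[ℂ] Lp ℂ 2 μ) :=
  (LipschitzWith.of_dist_le_mul (K := 1) fun r s => by
    rw [dist_eq_norm, dist_eq_norm, NNReal.coe_one, one_mul, ← rowOp_sub]
    exact norm_rowOp_le _).continuous

theorem isCompactOperator_rowOp (r : Lp E 2 μ) : IsCompactOperator (rowOp r) := by
  induction r using Lp.induction (by norm_num : (2 : ℝ≥0∞) ≠ ⊤) with
  | @indicatorConst c s hs hμs =>
    rw [Lp.simpleFunc.coe_indicatorConst]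
    set v : Lp ℂ 2 μ := indicatorConstLp 2 hs hμs.ne (1 : ℂ) with hv
    have heq : rowOp (indicatorConstLp 2 hs hμs.ne c)
        = ((ContinuousLinearMap.id ℂ ℂ).smulRight v).comp (innerSL ℂ c) := by
      refine ContinuousLinearMap.ext fun e => Lp.ext ?_
      show _ =ᵐ[μ] ⇑(⟪c, e⟫_ℂ • v)
      filter_upwards [coeFn_rowOp (indicatorConstLp 2 hs hμs.ne c) e,
        indicatorConstLp_coeFn (p := 2) (hs := hs) (hμs := hμs.ne) (c := c),
        indicatorConstLp_coeFn (p := 2) (hs := hs) (hμs := hμs.ne) (c := (1 : ℂ)),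
        Lp.coeFn_smul ⟪c, e⟫_ℂ v] with x h1 h2 h3 h4
      rw [h1, h4, h2, Pi.smul_apply, h3]
      by_cases hx : x ∈ s <;> simp [hx]
    rw [heq]
    exact (isCompactOperator_of_locallyCompactSpace_dom (innerSL ℂ c)).clm_comp
      ((ContinuousLinearMap.id ℂ ℂ).smulRight v)
  | @add f g hf hg _ ihf ihg =>
    rw [rowOp_add]
    exact ihf.add ihg
  | isClosed =>
    exact (isClosed_setOfPred_isCompactOperator
      (M₁ := E) (M₂ := Lp ℂ 2 μ)).preimage continuous_rowOp

end Fermat.Agent.LT.Spectral
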