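import Mathlib

/-!
# Means of periodic functions over large balls

For a function periodic under a group with bounded fundamental domain `B`, the mean over
`closedBall 0 R` tends to the mean over `B`.
-/

set_option autoImplicit false

noncomputable section

open MeasureTheory Metric Set Filter
open scoped Pointwise Topology ENNReal

namespace Fermat.Agent.LT.Spectral

variable {V : Type*} [NormedAddCommGroup V] [NormedSpace ℝ V] [FiniteDimensional ℝ V]
  [MeasurableSpace V] [BorelSpace V] {μ : Measure V} [μ.IsAddHaarMeasure]
  {L : AddSubgroup V} [Countable L] {B : Set V} {D : ℝ}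

section Generic

variable {E : Type*} [NormedAddCommGroup E] [NormedSpace ℝ E]

omit [FiniteDimensional ℝ V] [NormedSpace ℝ V] in
/-- The integral over any translate of a fundamental domain. -/
theorem setIntegral_translate_eq (hfd : IsAddFundamentalDomain L B μ) {f : V → E}
    (hper : ∀ (g : L) (x : V), f ((g : V) + x) = f x) (u : V) :
    ∫ z in B, f (u + z) ∂μ = ∫ z in B, f z ∂μ := by
  have h := (hfd.vadd_of_comm u).setIntegral_eq hfd (f := f) fun g x => hper g x
  rw [← h, ← Set.image_vadd,
    (measurePreserving_vadd u μ).setIntegral_image_emb (measurableEmbedding_const_vadd u)]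
  simp only [vadd_eq_add]

omit [FiniteDimensional ℝ V] [NormedSpace ℝ V] in
/-- A translate of a ball, as a set integral. -/
theorem setIntegral_ball_add {f : V → E} (u : V) (R : ℝ) :
    ∫ z in closedBall 0 R, f (u + z) ∂μ = ∫ z in closedBall u R, f z ∂μ := by
  have h : closedBall u R = (fun z => u + z) '' closedBall 0 R := by
    have h1 : (fun z => u + z) '' closedBall 0 R = u +ᵥ closedBall (0 : V) R := rfl
    rw [h1, vadd_closedBall, vadd_eq_add, add_zero]
  rw [h, (measurePreserving_add_left μ u).setIntegral_image_emb (measurableEmbedding_addLeft u)]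

variable [MeasurableSpace E] [BorelSpace E] [SecondCountableTopology E] [CompleteSpace E]

omit [CompleteSpace E] in
/-- Periodic functions integrable over `B` are integrable on `B × ball`. -/
theorem integrable_translate_prod (hfd : IsAddFundamentalDomain L B μ) {f : V → E}
    (hf : Measurable f) (hper : ∀ (g : L) (x : V), f ((g : V) + x) = f x)
    (hint : IntegrableOn f B μ) (hBfin : μ B ≠ ⊤) (R : ℝ) :
    Integrable (fun p : V × V => f (p.1 + p.2))
      ((μ.restrict B).prod (μ.restrict (closedBall 0 R))) := by
  have : Fact (μ B < ⊤) := ⟨hBfin.lt_top⟩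
  have : Fact (μ (closedBall (0 : V) R) < ⊤) := ⟨measure_closedBall_lt_top⟩
  have hm : AEStronglyMeasurable (fun p : V × V => f (p.1 + p.2))
      ((μ.restrict B).prod (μ.restrict (closedBall 0 R))) :=
    (hf.comp (measurable_fst.add measurable_snd)).stronglyMeasurable.aestronglyMeasurable
  refine (integrable_prod_iff' hm).mpr ⟨Eventually.of_forall fun z => ?_, ?_⟩
  · have h1 : IntegrableOn f (z +ᵥ B) μ :=
      (IsAddFundamentalDomain.integrableOn_iff (hfd.vadd_of_comm z) hfd
        (fun g x => hper g x)).mpr hint
    rw [← Set.image_vadd, (measurePreserving_vadd z μ).integrableOn_image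
      (measurableEmbedding_const_vadd z)] at h1
    simp only [Function.comp_def, vadd_eq_add] at h1
    simp only [add_comm _ z]
    exact h1
  · have hc : ∀ z : V, ∫ x in B, ‖f (x + z)‖ ∂μ = ∫ x in B, ‖f x‖ ∂μ := fun z => by
      simp only [add_comm _ z]
      exact setIntegral_translate_eq hfd (f := fun x => ‖f x‖) (fun g x => by rw [hper]) z
    simp only [hc]
    exact integrable_const _

/-- Averaging balls over a fundamental domain. -/
theorem integral_balls_eq (hfd : IsAddFundamentalDomain L B μ) {f : V → E} (hf : Measurable f)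
    (hper : ∀ (g : L) (x : V), f ((g : V) + x) = f x) (hint : IntegrableOn f B μ)
    (hBfin : μ B ≠ ⊤) (R : ℝ) :
    ∫ u in B, ∫ z in closedBall u R, f z ∂μ ∂μ
      = μ.real (closedBall 0 R) • ∫ z in B, f z ∂μ := by
  simp only [fun u => (setIntegral_ball_add (f := f) (μ := μ) u R).symm]
  rw [integral_integral_swap (f := fun u z => f (u + z))
    (integrable_translate_prod hfd hf hper hint hBfin R)]
  simp only [fun z : V => (show ∫ u in B, f (u + z) ∂μ = ∫ u in B, f u ∂μ by
    simp only [add_comm _ z]; exact setIntegral_translate_eq hfd hper z)]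
  rw [integral_const, measureReal_restrict_apply_univ]

omit [CompleteSpace E] in
/-- Periodic functions integrable over `B` are integrable on every ball. -/
theorem integrableOn_closedBall_of_periodic (hfd : IsAddFundamentalDomain L B μ)
    (hB : B ⊆ closedBall 0 D) {f : V → E} (hf : Measurable f)
    (hper : ∀ (g : L) (x : V), f ((g : V) + x) = f x) (hint : IntegrableOn f B μ) (R : ℝ) :
    IntegrableOn f (closedBall 0 R) μ := by
  have hBfin : μ B ≠ ⊤ := ((measure_mono hB).trans_lt measure_closedBall_lt_top).ne
  have hB0 : μ B ≠ 0 := hfd.measure_ne_zero (NeZero.ne μ)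
  have : NeBot (ae (μ.restrict B)) := ae_neBot.mpr (by rwa [Ne, Measure.restrict_eq_zero])
  obtain ⟨u, hu, huB⟩ :=
    ((integrable_translate_prod hfd hf hper hint hBfin (R + D)).prod_right_ae.and
      (ae_restrict_mem₀ hfd.nullMeasurableSet)).exists
  have h1 : IntegrableOn (fun z => f (u + z)) (closedBall 0 (R + D)) μ := hu
  have h2 : IntegrableOn f (closedBall u (R + D)) μ := by
    rw [show closedBall u (R + D) = (fun z => u + z) '' closedBall 0 (R + D) by
      rw [show (fun z => u + z) '' closedBall 0 (R + D) = u +ᵥ closedBall (0 : V) (R + D) from rfl,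
        vadd_closedBall, vadd_eq_add, add_zero],
      (measurePreserving_add_left μ u).integrableOn_image (measurableEmbedding_addLeft u)]
    exact h1
  refine h2.mono_set (closedBall_subset_closedBall' ?_)
  have := hB huB
  rw [mem_closedBall, dist_comm] at this
  linarith

end Generic

/-- The error term in comparing a ball with the periods it contains. -/
theorem norm_setIntegral_ball_sub_le (hfd : IsAddFundamentalDomain L B μ)
    (hB : B ⊆ closedBall 0 D) {f : V → ℂ} (hf : Measurable f)
    (hper : ∀ (g : L) (x : V), f ((g : V) + x) = f x) (hint : IntegrableOn f B μ) (R : ℝ) :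
    ‖(μ.real B : ℂ) * ∫ z in closedBall 0 R, f z ∂μ
        - (μ.real (closedBall (0 : V) R) : ℂ) * ∫ z in B, f z ∂μ‖
      ≤ (μ.real (closedBall (0 : V) (R + D + D)) - μ.real (closedBall (0 : V) (R - D - D)))
          * ∫ z in B, ‖f z‖ ∂μ := by
  have hBfin : μ B ≠ ⊤ := ((measure_mono hB).trans_lt measure_closedBall_lt_top).ne
  have : Fact (μ B < ⊤) := ⟨hBfin.lt_top⟩
  set g : V → ℝ := fun z => ‖f z‖ with hg
  have hgm : Measurable g := hf.norm
  have hgper : ∀ (l : L) (x : V), g ((l : V) + x) = g x := fun l x => by simp only [hg, hper]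
  have hgint : IntegrableOn g B μ := hint.norm
  have hball : ∀ S, IntegrableOn f (closedBall 0 S) μ :=
    integrableOn_closedBall_of_periodic hfd hB hf hper hint
  set h : ℝ → ℝ := fun S => ∫ z in closedBall 0 S, g z ∂μ with hh
  have hmemD : ∀ u ∈ B, dist u 0 ≤ D := fun u hu => mem_closedBall.mp (hB hu)
  -- comparison of one translated ball with the centred one
  have hdiff : ∀ u ∈ B, ‖∫ z in closedBall u R, f z ∂μ - ∫ z in closedBall 0 R, f z ∂μ‖
      ≤ h (R + D) - h (R - D) := by
    intro u hu
    have hu' := hmemD u hu
    have hu'' : dist (0 : V) u ≤ D := by rwa [dist_comm]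
    set I := closedBall (0 : V) (R - D) with hI
    set O := closedBall (0 : V) (R + D) with hO
    have h1 : I ⊆ closedBall u R := closedBall_subset_closedBall' (by linarith)
    have h2 : I ⊆ closedBall 0 R := closedBall_subset_closedBall (by linarith [dist_nonneg.trans hu'])
    have h3 : closedBall u R ⊆ O := closedBall_subset_closedBall' (by linarith)
    have h4 : closedBall 0 R ⊆ O :=
      closedBall_subset_closedBall (by linarith [dist_nonneg.trans hu'])
    have hiO : IntegrableOn f O μ := hball _
    have key : ‖∫ z, (closedBall u R).indicator f z - (closedBall 0 R).indicator f z ∂μ‖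
        ≤ ∫ z, O.indicator g z - I.indicator g z ∂μ := by
      refine norm_integral_le_of_norm_le
        (((show IntegrableOn g O μ from hiO.norm).integrable_indicator measurableSet_closedBall).sub
          (((show IntegrableOn g O μ from hiO.norm).mono_set (h2.trans h4)).integrable_indicator measurableSet_closedBall))
        (Eventually.of_forall fun z => ?_)
      by_cases hzI : z ∈ I
      · simp [Set.indicator_of_mem (h1 hzI), Set.indicator_of_mem (h2 hzI),
          Set.indicator_of_mem hzI, Set.indicator_of_mem (h4 (h2 hzI))]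
      by_cases hzO : z ∈ O
      · rw [Set.indicator_of_mem hzO, Set.indicator_of_notMem hzI, sub_zero]
        by_cases ha : z ∈ closedBall u R <;> by_cases hb : z ∈ closedBall 0 R <;>
          simp [hg, Set.indicator, ha, hb]
      · simp [Set.indicator_of_notMem hzI, Set.indicator_of_notMem hzO,
          Set.indicator_of_notMem (fun hz => hzO (h3 hz)),
          Set.indicator_of_notMem (fun hz => hzO (h4 hz))]
    rw [integral_sub ((hiO.mono_set h3).integrable_indicator measurableSet_closedBall)
      ((hiO.mono_set h4).integrable_indicator measurableSet_closedBall),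
      integral_sub ((show IntegrableOn g O μ from hiO.norm).integrable_indicator measurableSet_closedBall)
      (((show IntegrableOn g O μ from hiO.norm).mono_set (h2.trans h4)).integrable_indicator measurableSet_closedBall),
      integral_indicator measurableSet_closedBall, integral_indicator measurableSet_closedBall,
      integral_indicator measurableSet_closedBall, integral_indicator measurableSet_closedBall]
      at key
    exact key
  -- masses of centred balls
  have hgball : ∀ S, IntegrableOn g (closedBall 0 S) μ := fun S => (hball S).norm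
  have hmono : ∀ (S T : ℝ) (u v : V), IntegrableOn g (closedBall v T) μ → S + dist u v ≤ T →
      ∫ z in closedBall u S, g z ∂μ ≤ ∫ z in closedBall v T, g z ∂μ := fun S T u v hi hle =>
    setIntegral_mono_set hi (Eventually.of_forall fun z => norm_nonneg _)
      (closedBall_subset_closedBall' hle).eventuallyLE
  have hgballu : ∀ (S : ℝ), ∀ u ∈ B, IntegrableOn g (closedBall u S) μ := fun S u hu =>
    (hgball (S + D)).mono_set (closedBall_subset_closedBall' (by linarith [hmemD u hu]))
  have hprodi : ∀ S, Integrable (fun u => ∫ z in closedBall u S, g z ∂μ) (μ.restrict B) := by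
    intro S
    simp only [fun u => (setIntegral_ball_add (f := g) (μ := μ) u S).symm]
    exact (integrable_translate_prod hfd hgm hgper hgint hBfin S).integral_prod_left
  have hup : μ.real B * h (R + D) ≤ μ.real (closedBall (0 : V) (R + D + D)) * ∫ z in B, g z ∂μ := by
    calc μ.real B * h (R + D) = ∫ _u in B, h (R + D) ∂μ := by
          rw [integral_const, measureReal_restrict_apply_univ, smul_eq_mul]
      _ ≤ ∫ u in B, ∫ z in closedBall u (R + D + D), g z ∂μ ∂μ :=
          setIntegral_mono_on₀ (integrable_const _) (hprodi _) hfd.nullMeasurableSet fun u hu =>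
            hmono _ _ _ _ (hgballu _ u hu) (by rw [dist_comm]; linarith [hmemD u hu])
      _ = _ := by rw [integral_balls_eq hfd hgm hgper hgint hBfin, smul_eq_mul]
  have hlow : μ.real (closedBall (0 : V) (R - D - D)) * ∫ z in B, g z ∂μ ≤ μ.real B * h (R - D) := by
    calc μ.real (closedBall (0 : V) (R - D - D)) * ∫ z in B, g z ∂μ
        = ∫ u in B, ∫ z in closedBall u (R - D - D), g z ∂μ ∂μ := by
          rw [integral_balls_eq hfd hgm hgper hgint hBfin, smul_eq_mul]
      _ ≤ ∫ _u in B, h (R - D) ∂μ :=
          setIntegral_mono_on₀ (hprodi _) (integrable_const _) hfd.nullMeasurableSet fun u hu =>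
            hmono _ _ _ _ (hgball _) (by linarith [hmemD u hu])
      _ = _ := by rw [integral_const, measureReal_restrict_apply_univ, smul_eq_mul]
  -- assemble
  have hfprod : Integrable (fun u => ∫ z in closedBall u R, f z ∂μ) (μ.restrict B) := by
    simp only [fun u => (setIntegral_ball_add (f := f) (μ := μ) u R).symm]
    exact (integrable_translate_prod hfd hf hper hint hBfin R).integral_prod_left
  have heq : (μ.real B : ℂ) * ∫ z in closedBall 0 R, f z ∂μ
      - (μ.real (closedBall (0 : V) R) : ℂ) * ∫ z in B, f z ∂μ
      = ∫ u in B, (∫ z in closedBall 0 R, f z ∂μ - ∫ z in closedBall u R, f z ∂μ) ∂μ := by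
    rw [integral_sub (integrable_const _) hfprod, integral_balls_eq hfd hf hper hint hBfin,
      integral_const, measureReal_restrict_apply_univ, Complex.real_smul, Complex.real_smul]
  rw [heq]
  refine (norm_setIntegral_le_of_norm_le_const_ae' (C := h (R + D) - h (R - D)) hBfin.lt_top
    (Eventually.of_forall fun u hu => ?_)).trans ?_
  · rw [norm_sub_rev]
    exact hdiff u hu
  · simp only [sub_mul]
    linarith [hup, hlow]

/-- The mean over large balls is the mean over a period. -/
theorem tendsto_mean_ball [Nontrivial V] (hfd : IsAddFundamentalDomain L B μ)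
    (hB : B ⊆ closedBall 0 D) {f : V → ℂ} (hf : Measurable f)
    (hper : ∀ (g : L) (x : V), f ((g : V) + x) = f x) (hint : IntegrableOn f B μ) :
    Tendsto (fun R : ℝ => ⨍ z in closedBall 0 R, f z ∂μ) atTop
      (𝓝 ((μ.real B : ℂ)⁻¹ * ∫ z in B, f z ∂μ)) := by
  set n := Module.finrank ℝ V with hn
  set v₁ := μ.real (closedBall (0 : V) 1) with hv₁
  have hv₁pos : 0 < v₁ := ENNReal.toReal_pos (measure_closedBall_pos μ _ one_pos).ne'
    measure_closedBall_lt_top.ne
  have hvol : ∀ S, 0 ≤ S → μ.real (closedBall (0 : V) S) = S ^ n * v₁ := fun S hS => by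
    rw [hv₁, measureReal_def, measureReal_def, Measure.addHaar_closedBall' μ (0 : V) hS,
      ENNReal.toReal_mul, ENNReal.toReal_ofReal (pow_nonneg hS _)]
  have hBpos : 0 < μ.real B := ENNReal.toReal_pos (hfd.measure_ne_zero (NeZero.ne μ))
    ((measure_mono hB).trans_lt measure_closedBall_lt_top).ne
  set J := ∫ z in B, ‖f z‖ ∂μ with hJ
  have hbound : ∀ᶠ R : ℝ in atTop,
      ‖(⨍ z in closedBall 0 R, f z ∂μ) - (μ.real B : ℂ)⁻¹ * ∫ z in B, f z ∂μ‖
        ≤ ((1 + (D + D) / R) ^ n - (1 - (D + D) / R) ^ n) * (J / μ.real B) := by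
    filter_upwards [eventually_gt_atTop 0, eventually_ge_atTop (D + D), eventually_ge_atTop (-(D + D))]
      with R hR hR2 hR3
    have h := norm_setIntegral_ball_sub_le hfd hB hf hper hint R
    rw [hvol R hR.le, hvol _ (show (0 : ℝ) ≤ R + D + D by linarith),
      hvol _ (show (0 : ℝ) ≤ R - D - D by linarith)] at h
    have hRn : 0 < R ^ n * v₁ := by positivity
    rw [setAverage_eq, hvol R hR.le, Complex.real_smul]
    have hval : ((R ^ n * v₁)⁻¹ : ℝ) * ∫ z in closedBall 0 R, f z ∂μ
        - (μ.real B : ℂ)⁻¹ * ∫ z in B, f z ∂μ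
        = (((R ^ n * v₁ * μ.real B)⁻¹ : ℝ) : ℂ) *
          ((μ.real B : ℂ) * ∫ z in closedBall 0 R, f z ∂μ
            - ((R ^ n * v₁ : ℝ) : ℂ) * ∫ z in B, f z ∂μ) := by
      have h1 : (R : ℂ) ≠ 0 := by simpa using hR.ne'
      have h2 : (v₁ : ℂ) ≠ 0 := by simpa using hv₁pos.ne'
      have h3 : (μ.real B : ℂ) ≠ 0 := by simpa using hBpos.ne'
      push_cast
      field_simp
    rw [hval, norm_mul, Complex.norm_real, Real.norm_of_nonneg (by positivity)]
    refine (mul_le_mul_of_nonneg_left h (by positivity)).trans (le_of_eq ?_)
    rw [show (1 + (D + D) / R) = (R + D + D) / R by field_simp; ring,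
      show (1 - (D + D) / R) = (R - D - D) / R by field_simp; ring, div_pow, div_pow]
    field_simp
    rw [hJ]
  have hlim : Tendsto (fun R : ℝ => ((1 + (D + D) / R) ^ n - (1 - (D + D) / R) ^ n)
      * (J / μ.real B)) atTop (𝓝 0) := by
    have h0 : Tendsto (fun R : ℝ => (D + D) / R) atTop (𝓝 0) :=
      tendsto_const_nhds.div_atTop tendsto_id
    simpa using (((h0.const_add 1).pow n).sub ((h0.const_sub 1).pow n)).mul_const (J / μ.real B)
  exact tendsto_iff_norm_sub_tendsto_zero.mpr
    (squeeze_zero' (Eventually.of_forall fun R => norm_nonneg _) hbound hlim)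

end Fermat.Agent.LT.Spectral

end
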