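import Fermat.Agent.LT.Spectral.CuspSpace
import Fermat.Agent.LT.Spectral.PeriodicMean
import Fermat.Agent.LT.Boundary.Defs

/-!
# The cusp condition: one period suffices, and comparison with `HasZeroMean`
-/

set_option autoImplicit false

noncomputable section

open MeasureTheory Set Filter Matrix NumberField IsDedekindDomain
open scoped ENNReal MatrixGroups Topology

namespace Fermat.Agent.LT.Spectral

open Fermat.Agent.LT.Adelic Fermat.Agent.LT.Reduction

variable {K : Type*} [Field K] [NumberField K] {ι : Type*} [Fintype ι] {Φ : Frame K ι}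
  {U : Subgroup (GfK K)}

omit [Fintype ι] in
theorem nontrivial_horizontal (Φ : Frame K ι) : Nontrivial (ι → ℂ) :=
  haveI : Nonempty ι := (isFrame_of_frame Φ).placeEquiv.nonempty
  inferInstance

/-- The mean over large balls of a periodic slice. -/
theorem tendsto_mean_slice {φ : Space Φ U → ℂ} (hφ : Measurable φ)
    (hinv : ∀ (g : PGL(2, K)) x, φ (g • x) = φ x) {y : Yf U} {d : 𝓞 K} (h : IsPeriod U d y)
    {r : ι → ℝ} (hint : IntegrableOn (fun z => slice φ y (z, r)) (fundDom Φ d h.ne_zero)) :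
    Tendsto (fun R : ℝ => ⨍ z in Metric.closedBall (0 : ι → ℂ) R, slice φ y (z, r)) atTop
      (𝓝 (((volume.real (fundDom Φ d h.ne_zero) : ℝ) : ℂ)⁻¹ *
        ∫ z in fundDom Φ d h.ne_zero, slice φ y (z, r))) := by
  have := nontrivial_horizontal Φ
  obtain ⟨D, hD⟩ := exists_fundDom_subset_closedBall (Φ := Φ) h.ne_zero
  refine tendsto_mean_ball (isAddFundamentalDomain_fundDom (Φ := Φ) h.ne_zero) hD
    ((measurable_slice hφ y).comp (measurable_id.prodMk measurable_const)) (fun v z => ?_) hint
  exact slice_periodic (fun g x => (isInvariant_iff_pgl φ).mpr hinv g x) h v z r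

theorem setIntegral_eq_zero_iff_tendsto_mean {φ : Space Φ U → ℂ} (hφ : Measurable φ)
    (hinv : ∀ (g : PGL(2, K)) x, φ (g • x) = φ x) {y : Yf U} {d : 𝓞 K} (h : IsPeriod U d y)
    {r : ι → ℝ} (hint : IntegrableOn (fun z => slice φ y (z, r)) (fundDom Φ d h.ne_zero)) :
    (∫ z in fundDom Φ d h.ne_zero, slice φ y (z, r)) = 0 ↔
      Tendsto (fun R : ℝ => ⨍ z in Metric.closedBall (0 : ι → ℂ) R, slice φ y (z, r)) atTop
        (𝓝 0) := by
  have hlim := tendsto_mean_slice hφ hinv h hint
  refine ⟨fun h0 => by simpa [h0] using hlim, fun h0 => ?_⟩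
  have hvol : ((volume.real (fundDom Φ d h.ne_zero) : ℝ) : ℂ) ≠ 0 := by
    obtain ⟨D, hD⟩ := exists_fundDom_subset_closedBall (Φ := Φ) h.ne_zero
    simp only [ne_eq, Complex.ofReal_eq_zero, measureReal_eq_zero_iff
      ((measure_mono hD).trans_lt measure_closedBall_lt_top).ne]
    exact volume_fundDom_ne_zero h.ne_zero
  exact (mul_eq_zero.mp (tendsto_nhds_unique hlim h0)).resolve_left (inv_ne_zero hvol)

variable [Countable (Yf U)] {D : QuotData Φ U}

/-- One period at each finite coordinate suffices. -/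
theorem isCuspidalFn_of_exists_period {φ : Space Φ U → ℂ} (hφ : Measurable φ)
    (hinv : ∀ (g : PGL(2, K)) x, φ (g • x) = φ x) (h2 : MemLp φ 2 D.ν)
    (h : ∀ y : Yf U, ∃ (d : 𝓞 K) (hd : IsPeriod U d y), ∀ᵐ r : ι → ℝ, (∀ i, 0 < r i) →
      ∫ z in fundDom Φ d hd.ne_zero, slice φ y (z, r) = 0) : IsCuspidalFn φ := by
  intro y d hd
  obtain ⟨d₀, hd₀, h0⟩ := h y
  filter_upwards [h0, ae_integrableOn_slice hφ hinv h2 y hd₀.ne_zero,
    ae_integrableOn_slice hφ hinv h2 y hd.ne_zero] with r hr hi₀ hi hpos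
  exact (setIntegral_eq_zero_iff_tendsto_mean hφ hinv hd (hi hpos)).mpr
    ((setIntegral_eq_zero_iff_tendsto_mean hφ hinv hd₀ (hi₀ hpos)).mp (hr hpos))

theorem pi_closedBall_eventuallyEq :
    ∀ᶠ R : ℝ in atTop, Set.univ.pi (fun _ : ι => Metric.closedBall (0 : ℂ) R)
      = Metric.closedBall (0 : ι → ℂ) R :=
  (eventually_ge_atTop 0).mono fun _ hR => (closedBall_pi (0 : ι → ℂ) hR).symm

/-- Zero means over growing boxes imply the cusp condition. -/
theorem isCuspidalFn_of_hasZeroMean {φ : Space Φ U → ℂ} (hφ : Measurable φ)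
    (hinv : ∀ (g : PGL(2, K)) x, φ (g • x) = φ x) (h2 : MemLp φ 2 D.ν) (h : HasZeroMean φ) :
    IsCuspidalFn φ := by
  intro y d hd
  filter_upwards [ae_integrableOn_slice hφ hinv h2 y hd.ne_zero] with r hi hpos
  refine (setIntegral_eq_zero_iff_tendsto_mean hφ hinv hd (hi hpos)).mpr ?_
  refine Tendsto.congr' ((pi_closedBall_eventuallyEq (ι := ι)).mono fun R hR => ?_) (h y r hpos)
  rw [hR]
  simp only [slice]
  refine average_congr (Eventually.of_forall fun z => ?_)
  exact congrArg (fun τ => φ (Space.mk τ y))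
    (funext fun i => HSpace.ext rfl (if_pos (hpos i)).symm)

omit [Fintype ι] in
theorem continuousOn_ptOf : ContinuousOn (ptOf : (ι → ℂ) × (ι → ℝ) → ι → HSpace) (posCone ι) := by
  rw [continuousOn_iff_continuous_domRestrict]
  refine continuous_pi fun i => HSpace.continuous_iff_coords.mpr ?_
  have h : (fun p : posCone ι => (ptOf (p : (ι → ℂ) × (ι → ℝ)) i).coords)
      = fun p : posCone ι => ((p : (ι → ℂ) × (ι → ℝ)).1 i, (p : (ι → ℂ) × (ι → ℝ)).2 i) :=
    funext fun p => Prod.ext rfl (ptOf_r p.2 i)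
  show Continuous fun p : posCone ι => (ptOf (p : (ι → ℂ) × (ι → ℝ)) i).coords
  rw [h]
  fun_prop

omit [Countable (Yf U)] in
theorem isOpen_posHeights : IsOpen {r : ι → ℝ | ∀ i, 0 < r i} := by
  rw [Set.ofPred_forall]
  exact isOpen_iInter_of_finite fun i => isOpen_lt continuous_const (continuous_apply i)

omit [Countable (Yf U)] in
/-- For continuous slices the constant term is continuous in the height. -/
theorem continuousOn_setIntegral_slice {φ : Space Φ U → ℂ}
    (hc : ∀ y : Yf U, Continuous fun τ : ι → HSpace => φ (Space.mk τ y)) (y : Yf U) {d : 𝓞 K}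
    (hd : d ≠ 0) :
    ContinuousOn (fun r : ι → ℝ => ∫ z in fundDom Φ d hd, slice φ y (z, r))
      {r : ι → ℝ | ∀ i, 0 < r i} := by
  obtain ⟨D, hD⟩ := exists_fundDom_subset_closedBall (Φ := Φ) hd
  have : Fact (volume (fundDom Φ d hd) < ⊤) :=
    ⟨(measure_mono hD).trans_lt measure_closedBall_lt_top⟩
  have hcont : ContinuousOn (slice φ y) (posCone ι) := (hc y).comp_continuousOn continuousOn_ptOf
  intro r₀ hr₀
  refine ContinuousAt.continuousWithinAt ?_
  set W : Set (ι → ℝ) := Set.univ.pi fun i => Set.Icc (r₀ i / 2) (2 * r₀ i) with hW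
  have hWpos : ∀ r ∈ W, ∀ i, 0 < r i := fun r hr i =>
    (half_pos (hr₀ i)).trans_le (hr i (Set.mem_univ i)).1
  have hWn : W ∈ 𝓝 r₀ := set_pi_mem_nhds Set.finite_univ fun i _ =>
    Icc_mem_nhds (half_lt_self (hr₀ i)) (lt_two_mul_self (hr₀ i))
  have hK : IsCompact (Metric.closedBall (0 : ι → ℂ) D ×ˢ W) :=
    (isCompact_closedBall _ _).prod (isCompact_univ_pi fun _ => isCompact_Icc)
  obtain ⟨M, hM⟩ := hK.exists_bound_of_continuousOn
    (hcont.mono fun p hp => hWpos p.2 hp.2)
  refine continuousAt_of_dominated (bound := fun _ => M) ?_ ?_ (integrable_const _)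
    (Eventually.of_forall fun z => ?_)
  · refine eventually_of_mem hWn fun r hr => ContinuousOn.aestronglyMeasurable ?_
      (measurableSet_fundDom hd)
    exact hcont.comp (continuousOn_id.prodMk continuousOn_const) fun z _ => hWpos r hr
  · refine eventually_of_mem hWn fun r hr => ?_
    exact (ae_restrict_mem (measurableSet_fundDom hd)).mono fun z hz => hM (z, r) ⟨hD hz, hr⟩
  · have hopen : IsOpen (posCone ι) := isOpen_posHeights.preimage continuous_snd
    exact (hcont.continuousAt (x := (z, r₀)) (hopen.mem_nhds hr₀)).comp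
      (continuousAt_const.prodMk continuousAt_id)

/-- A continuous cuspidal invariant function has zero means. -/
theorem hasZeroMean_of_isCuspidalFn {φ : Space Φ U → ℂ}
    (hc : ∀ y : Yf U, Continuous fun τ : ι → HSpace => φ (Space.mk τ y))
    (hinv : ∀ (g : PGL(2, K)) x, φ (g • x) = φ x) (hU : IsLevel U) (h : IsCuspidalFn φ) :
    HasZeroMean φ := by
  intro y r hr
  obtain ⟨d, hd⟩ := exists_period hU y
  have hφ : Measurable φ := Space.measurable_iff.mpr fun y => (hc y).measurable
  have hzero : ∫ z in fundDom Φ d hd.ne_zero, slice φ y (z, r) = 0 := by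
    refine Measure.eqOn_open_of_ae_eq (μ := (volume : Measure (ι → ℝ))) ?_ isOpen_posHeights
      (continuousOn_setIntegral_slice hc y hd.ne_zero) continuousOn_const hr
    exact (ae_restrict_iff' isOpen_posHeights.measurableSet).mpr (h y d hd)
  obtain ⟨D, hD⟩ := exists_fundDom_subset_closedBall (Φ := Φ) hd.ne_zero
  have hcs : Continuous fun z => slice φ y (z, r) :=
    ((hc y).comp_continuousOn continuousOn_ptOf).comp_continuous (Continuous.prodMk_left r)
      fun _ => hr
  have hint : IntegrableOn (fun z => slice φ y (z, r)) (fundDom Φ d hd.ne_zero) :=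
    (hcs.continuousOn.integrableOn_compact (isCompact_closedBall 0 D)).mono_set hD
  refine Tendsto.congr' ((pi_closedBall_eventuallyEq (ι := ι)).mono fun R hR => ?_)
    ((setIntegral_eq_zero_iff_tendsto_mean hφ hinv hd hint).mp hzero)
  simp only [hR, slice]
  refine average_congr (Eventually.of_forall fun z => ?_)
  exact congrArg (fun τ => φ (Space.mk τ y))
    (funext fun i => HSpace.ext rfl (if_pos (hr i)))

end Fermat.Agent.LT.Spectral

end
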