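import Fermat.Agent.LT.Spectral.Quotient
import Mathlib.MeasureTheory.Integral.MeanInequalities

/-!
# Integral operators with Schur bounded kernels, and periodised kernels

A kernel whose absolute row and column integrals are at most `M` gives an operator on `L²` of norm
at most `M`, with adjoint given by the conjugate transpose. A periodised invariant kernel is of
this kind for the quotient measure as soon as the original kernel is for the invariant measure.
-/

set_option autoImplicit false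

noncomputable section

open MeasureTheory Filter Topology
open scoped ENNReal NNReal InnerProductSpace ComplexConjugate

namespace Fermat.Agent.LT.Spectral

variable {X : Type*} [MeasurableSpace X] {ν : Measure X}

/-- Row and column integrals of the absolute value are at most `M`. -/
structure SchurBound (ν : Measure X) (K : X → X → ℂ) (M : ℝ≥0) : Prop where
  measurable : Measurable (Function.uncurry K)
  row : ∀ x, ∫⁻ y, ‖K x y‖ₑ ∂ν ≤ M
  col : ∀ y, ∫⁻ x, ‖K x y‖ₑ ∂ν ≤ M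

/-- The conjugate transpose of a kernel. -/
def adjKer (K : X → X → ℂ) (x y : X) : ℂ := conj (K y x)

theorem SchurBound.adj {K : X → X → ℂ} {M : ℝ≥0} (h : SchurBound ν K M) :
    SchurBound ν (adjKer K) M :=
  ⟨Complex.continuous_conj.measurable.comp (h.measurable.comp measurable_swap),
    fun x => le_of_eq_of_le (lintegral_congr fun y => RCLike.enorm_conj _) (h.col x),
    fun y => le_of_eq_of_le (lintegral_congr fun x => RCLike.enorm_conj _) (h.row y)⟩

theorem SchurBound.lintegral_sq_le [SFinite ν] {K : X → X → ℂ} {M : ℝ≥0} (h : SchurBound ν K M)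
    {f : X → ℂ} (hf : Measurable f) :
    ∫⁻ x, (∫⁻ y, ‖K x y‖ₑ * ‖f y‖ₑ ∂ν) ^ 2 ∂ν
      ≤ (M : ℝ≥0∞) ^ 2 * ∫⁻ y, ‖f y‖ₑ ^ 2 ∂ν := by
  have hpt : ∀ x, (∫⁻ y, ‖K x y‖ₑ * ‖f y‖ₑ ∂ν) ^ 2
      ≤ M * ∫⁻ y, ‖K x y‖ₑ * ‖f y‖ₑ ^ 2 ∂ν := by
    intro x
    have hKm : Measurable fun y => ‖K x y‖ₑ :=
      (h.measurable.comp (measurable_const.prodMk measurable_id)).enorm
    have hh := ENNReal.lintegral_mul_le_Lp_mul_Lq ν Real.HolderConjugate.two_two
      (hKm.pow_const (1 / 2 : ℝ)).aemeasurable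
      ((hKm.pow_const (1 / 2 : ℝ)).mul hf.enorm).aemeasurable
    have e1 : ∀ y, (‖K x y‖ₑ ^ (1 / 2 : ℝ)) * (‖K x y‖ₑ ^ (1 / 2 : ℝ) * ‖f y‖ₑ)
        = ‖K x y‖ₑ * ‖f y‖ₑ := fun y => by
      rw [← mul_assoc, ← ENNReal.rpow_add_of_nonneg _ _ (by norm_num) (by norm_num)]
      norm_num
    have e2 : ∀ a : ℝ≥0∞, (a ^ (1 / 2 : ℝ)) ^ (2 : ℝ) = a := fun a => by
      rw [← ENNReal.rpow_mul]; norm_num
    simp only [Pi.mul_apply, e1, ENNReal.mul_rpow_of_nonneg _ _ (show (0 : ℝ) ≤ 2 by norm_num),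
      e2] at hh
    simp only [ENNReal.rpow_two] at hh
    refine (pow_le_pow_left₀ zero_le hh 2).trans ?_
    rw [mul_pow, ← ENNReal.rpow_two, ← ENNReal.rpow_two, e2, e2]
    exact mul_le_mul_left (h.row x) _
  have hm : Measurable (Function.uncurry fun x y => ‖K x y‖ₑ * ‖f y‖ₑ ^ 2) :=
    h.measurable.enorm.mul ((hf.comp measurable_snd).enorm.pow_const 2)
  calc ∫⁻ x, (∫⁻ y, ‖K x y‖ₑ * ‖f y‖ₑ ∂ν) ^ 2 ∂ν
      ≤ ∫⁻ x, M * ∫⁻ y, ‖K x y‖ₑ * ‖f y‖ₑ ^ 2 ∂ν ∂ν := lintegral_mono hpt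
    _ = M * ∫⁻ y, (∫⁻ x, ‖K x y‖ₑ ∂ν) * ‖f y‖ₑ ^ 2 ∂ν := by
        rw [lintegral_const_mul' _ _ ENNReal.coe_ne_top, lintegral_lintegral_swap hm.aemeasurable]
        congr 1
        refine lintegral_congr fun y => lintegral_mul_const _ ?_
        exact (h.measurable.comp (measurable_id.prodMk measurable_const)).enorm
    _ ≤ M * ∫⁻ y, M * ‖f y‖ₑ ^ 2 ∂ν := by
        gcongr with y
        exact h.col y
    _ = _ := by rw [lintegral_const_mul' _ _ ENNReal.coe_ne_top, sq, mul_assoc]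

theorem lintegral_enorm_sq_eq (f : Lp ℂ 2 ν) : ∫⁻ y, ‖f y‖ₑ ^ 2 ∂ν = eLpNorm f 2 ν ^ 2 := by
  rw [eLpNorm_eq_lintegral_rpow_enorm_toReal (by norm_num) ENNReal.ofNat_ne_top]
  simp only [ENNReal.toReal_ofNat, ← ENNReal.rpow_two]
  rw [← ENNReal.rpow_mul]
  norm_num

theorem SchurBound.lintegral_sq_ne_top [SFinite ν] {K : X → X → ℂ} {M : ℝ≥0}
    (h : SchurBound ν K M) (f : Lp ℂ 2 ν) :
    ∫⁻ x, (∫⁻ y, ‖K x y‖ₑ * ‖f y‖ₑ ∂ν) ^ 2 ∂ν ≠ ⊤ := by
  refine ne_top_of_le_ne_top ?_ (h.lintegral_sq_le (Lp.stronglyMeasurable f).measurable)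
  rw [lintegral_enorm_sq_eq]
  exact ENNReal.mul_ne_top (ENNReal.pow_ne_top ENNReal.coe_ne_top)
    (ENNReal.pow_ne_top (Lp.memLp f).eLpNorm_lt_top.ne)

theorem SchurBound.ae_integrable [SFinite ν] {K : X → X → ℂ} {M : ℝ≥0} (h : SchurBound ν K M)
    (f : Lp ℂ 2 ν) : ∀ᵐ x ∂ν, Integrable (fun y => K x y * f y) ν := by
  have hfm := (Lp.stronglyMeasurable f).measurable
  have hm : Measurable fun x => (∫⁻ y, ‖K x y‖ₑ * ‖f y‖ₑ ∂ν) ^ 2 :=
    (Measurable.lintegral_prod_right
      (h.measurable.enorm.mul (hfm.comp measurable_snd).enorm)).pow_const 2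
  filter_upwards [ae_lt_top hm (h.lintegral_sq_ne_top f)] with x hx
  refine ⟨((h.measurable.comp (measurable_const.prodMk measurable_id)).mul
    hfm).aestronglyMeasurable, ?_⟩
  rw [HasFiniteIntegral]
  simp only [enorm_mul]
  by_contra htop
  simp [top_le_iff.mp (not_lt.mp htop)] at hx

theorem measurable_kernel_apply [SFinite ν] {K : X → X → ℂ} (hK : Measurable (Function.uncurry K))
    {f : X → ℂ} (hf : Measurable f) : Measurable fun x => ∫ y, K x y * f y ∂ν :=
  ((hK.mul (hf.comp measurable_snd)).stronglyMeasurable.integral_prod_right').measurable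

theorem SchurBound.memLp [SFinite ν] {K : X → X → ℂ} {M : ℝ≥0} (h : SchurBound ν K M)
    (f : Lp ℂ 2 ν) :
    MemLp (fun x => ∫ y, K x y * f y ∂ν) 2 ν ∧
      eLpNorm (fun x => ∫ y, K x y * f y ∂ν) 2 ν ≤ M * eLpNorm f 2 ν := by
  have hle : eLpNorm (fun x => ∫ y, K x y * f y ∂ν) 2 ν ≤ M * eLpNorm f 2 ν := by
    rw [eLpNorm_eq_lintegral_rpow_enorm_toReal (by norm_num) ENNReal.ofNat_ne_top]
    simp only [ENNReal.toReal_ofNat, ENNReal.rpow_two]
    refine (ENNReal.rpow_le_rpow (le_trans (lintegral_mono fun x => ?_)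
      (h.lintegral_sq_le (Lp.stronglyMeasurable f).measurable)) (by norm_num)).trans (le_of_eq ?_)
    · refine pow_le_pow_left₀ zero_le ((enorm_integral_le_lintegral_enorm _).trans_eq ?_) 2
      exact lintegral_congr fun y => enorm_mul _ _
    · rw [lintegral_enorm_sq_eq, ← mul_pow, ← ENNReal.rpow_two, ← ENNReal.rpow_mul]
      norm_num
  exact ⟨⟨(measurable_kernel_apply h.measurable
    (Lp.stronglyMeasurable f).measurable).aestronglyMeasurable,
    hle.trans_lt (ENNReal.mul_lt_top ENNReal.coe_lt_top (Lp.memLp f).eLpNorm_lt_top)⟩, hle⟩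

theorem exists_kerCLM [SFinite ν] {K : X → X → ℂ} {M : ℝ≥0} (h : SchurBound ν K M) :
    ∃ T : Lp ℂ 2 ν →L[ℂ] Lp ℂ 2 ν, (∀ f, T f =ᵐ[ν] fun x => ∫ y, K x y * f y ∂ν) ∧
      ∀ f, ‖T f‖ ≤ M * ‖f‖ := by
  have hnorm : ∀ f : Lp ℂ 2 ν, ‖(h.memLp f).1.toLp _‖ ≤ M * ‖f‖ := by
    intro f
    rw [Lp.norm_toLp, Lp.norm_def, ← ENNReal.coe_toReal M, ← ENNReal.toReal_mul]
    exact ENNReal.toReal_mono
      (ENNReal.mul_ne_top ENNReal.coe_ne_top (Lp.memLp f).eLpNorm_lt_top.ne) (h.memLp f).2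
  let T : Lp ℂ 2 ν →ₗ[ℂ] Lp ℂ 2 ν :=
    { toFun := fun f => (h.memLp f).1.toLp _
      map_add' := fun f g => by
        rw [← MemLp.toLp_add]
        refine MemLp.toLp_congr _ _ ?_
        filter_upwards [h.ae_integrable f, h.ae_integrable g] with x hf hg
        rw [Pi.add_apply, ← integral_add hf hg]
        refine integral_congr_ae ?_
        filter_upwards [Lp.coeFn_add f g] with y hy
        rw [hy, Pi.add_apply, mul_add]
      map_smul' := fun c f => by
        rw [RingHom.id_apply, ← MemLp.toLp_const_smul]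
        refine MemLp.toLp_congr _ _ (Eventually.of_forall fun x => ?_)
        show ∫ y, K x y * (c • f : Lp ℂ 2 ν) y ∂ν = c • ∫ y, K x y * f y ∂ν
        rw [← integral_smul]
        refine integral_congr_ae ?_
        filter_upwards [Lp.coeFn_smul c f] with y hy
        rw [hy, Pi.smul_apply, smul_eq_mul, smul_eq_mul]
        ring }
  exact ⟨T.mkContinuous M hnorm, fun f => MemLp.coeFn_toLp (h.memLp f).1, hnorm⟩

/-- The operator of a kernel. -/
def kerCLM [SFinite ν] {K : X → X → ℂ} {M : ℝ≥0} (h : SchurBound ν K M) :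
    Lp ℂ 2 ν →L[ℂ] Lp ℂ 2 ν :=
  (exists_kerCLM h).choose

theorem coeFn_kerCLM [SFinite ν] {K : X → X → ℂ} {M : ℝ≥0} (h : SchurBound ν K M)
    (f : Lp ℂ 2 ν) : kerCLM h f =ᵐ[ν] fun x => ∫ y, K x y * f y ∂ν :=
  (exists_kerCLM h).choose_spec.1 f

/-- The adjoint is given by the conjugate transpose. -/
theorem inner_kerCLM_left [SFinite ν] {K : X → X → ℂ} {M : ℝ≥0} (h : SchurBound ν K M)
    (f g : Lp ℂ 2 ν) : ⟪kerCLM h.adj g, f⟫_ℂ = ⟪g, kerCLM h f⟫_ℂ := by
  rw [L2.inner_def, L2.inner_def]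
  have hl : ∀ᵐ y ∂ν, ⟪kerCLM h.adj g y, f y⟫_ℂ = ∫ x, conj (g x) * (K x y * f y) ∂ν := by
    filter_upwards [coeFn_kerCLM h.adj g] with y hy
    rw [RCLike.inner_apply, hy, ← integral_conj, ← integral_const_mul]
    refine integral_congr_ae (Eventually.of_forall fun x => ?_)
    simp only [adjKer, map_mul, Complex.conj_conj]
    ring
  have hr : ∀ᵐ x ∂ν, ⟪g x, kerCLM h f x⟫_ℂ = ∫ y, conj (g x) * (K x y * f y) ∂ν := by
    filter_upwards [coeFn_kerCLM h f] with x hx
    rw [RCLike.inner_apply, hx, ← integral_mul_const]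
    refine integral_congr_ae (Eventually.of_forall fun y => ?_)
    ring
  rw [integral_congr_ae hl, integral_congr_ae hr]
  refine (integral_integral_swap ?_).symm
  have hfm := (Lp.stronglyMeasurable f).measurable
  have hgm := (Lp.stronglyMeasurable g).measurable
  have hm : Measurable (Function.uncurry fun x y => conj (g x) * (K x y * f y)) :=
    (Complex.continuous_conj.measurable.comp (hgm.comp measurable_fst)).mul
      (h.measurable.mul (hfm.comp measurable_snd))
  refine ⟨hm.aestronglyMeasurable, ?_⟩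
  rw [HasFiniteIntegral, lintegral_prod _ hm.enorm.aemeasurable]
  have hle : ∀ x, ∫⁻ y, ‖conj (g x) * (K x y * f y)‖ₑ ∂ν
      ≤ ‖g x‖ₑ ^ 2 + (∫⁻ y, ‖K x y‖ₑ * ‖f y‖ₑ ∂ν) ^ 2 := by
    intro x
    simp only [enorm_mul, RCLike.enorm_conj]
    rw [lintegral_const_mul' _ _ enorm_ne_top]
    rcases le_total ‖g x‖ₑ (∫⁻ y, ‖K x y‖ₑ * ‖f y‖ₑ ∂ν) with hc | hc
    · exact (mul_le_mul_left hc _).trans (le_add_left (le_of_eq (sq _).symm))
    · exact (mul_le_mul_right hc _).trans (le_add_right (le_of_eq (sq _).symm))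
  refine (lintegral_mono hle).trans_lt ?_
  rw [lintegral_add_left (hgm.enorm.pow_const 2), lintegral_enorm_sq_eq]
  exact ENNReal.add_lt_top.mpr ⟨ENNReal.pow_lt_top (Lp.memLp g).eLpNorm_lt_top,
    (h.lintegral_sq_ne_top f).lt_top⟩

section Periodic

variable {G : Type*} [Group G] [Countable G] [MulAction G X] [MeasurableConstSMul G X]
  {μ : Measure X} [SMulInvariantMeasure G X μ] {w : X → ℝ≥0∞}

omit [SMulInvariantMeasure G X μ] in
theorem measurable_perKer {k : X → X → ℂ} (hk : Measurable (Function.uncurry k)) :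
    Measurable (Function.uncurry (perKer G k)) :=
  Measurable.tsum (f := fun (g : G) (p : X × X) => k p.1 (g • p.2)) fun g =>
    hk.comp (measurable_fst.prodMk ((measurable_const_smul g).comp measurable_snd))

/-- Periodisation preserves Schur bounds. -/
theorem SchurBound.perKer (hw : Geom.IsWeight G μ w) {k : X → X → ℂ} {M : ℝ≥0}
    (h : SchurBound μ k M) (hinv : ∀ (g : G) (x y : X), k (g • x) (g • y) = k x y) :
    SchurBound (quotMeasure μ w) (Spectral.perKer G k) M := by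
  refine ⟨measurable_perKer h.measurable, fun x => ?_, fun y => ?_⟩
  · have hm : Measurable fun y => ‖k x y‖ₑ :=
      (h.measurable.comp (measurable_const.prodMk measurable_id)).enorm
    refine le_trans (le_trans (lintegral_mono fun y => enorm_tsum_le_tsum_enorm) ?_) (h.row x)
    rw [lintegral_withDensity_eq_lintegral_mul μ hw.1
      (g := fun y => ∑' g : G, ‖k x (g • y)‖ₑ)
      (Measurable.tsum fun g => hm.comp (measurable_const_smul g))]
    exact (Geom.lintegral_weight_mul_tsum (G := G) hw hm).le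
  · have hm : Measurable fun x => ‖k x y‖ₑ :=
      (h.measurable.comp (measurable_id.prodMk measurable_const)).enorm
    refine le_trans (le_trans (lintegral_mono fun x => enorm_tsum_le_tsum_enorm) ?_) (h.col y)
    rw [lintegral_withDensity_eq_lintegral_mul μ hw.1
      (g := fun x => ∑' g : G, ‖k x (g • y)‖ₑ) (Measurable.tsum fun g =>
        (h.measurable.comp (measurable_id.prodMk measurable_const)).enorm)]
    refine le_of_eq ((lintegral_congr fun x => ?_).trans
      (Geom.lintegral_weight_mul_tsum (G := G) hw hm))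
    show w x * ∑' g : G, ‖k x (g • y)‖ₑ = w x * ∑' g : G, ‖k (g • x) y‖ₑ
    congr 1
    rw [← (Equiv.inv G).tsum_eq fun g => ‖k (g • x) y‖ₑ]
    refine tsum_congr fun g => ?_
    rw [← hinv g⁻¹ x (g • y), inv_smul_smul]
    rfl

end Periodic

end Fermat.Agent.LT.Spectral

end
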