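import Mathlib
import Fermat.Agent.LT.Geom.Weight

/-!
# The weighted measure as a model of the quotient measure

For a countable group with a weight `w`, integrals over the quotient are integrals for
`μ.withDensity w`. We prove unfolding for complex integrals, the composition rule for periodised
kernels, and that classes with an invariant representative form a closed subspace of `L²`.
-/

set_option autoImplicit false

noncomputable section

open MeasureTheory Filter Topology
open scoped ENNReal ComplexConjugate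

namespace Fermat.Agent.LT.Spectral

open Fermat.Agent.LT.Geom

variable {G : Type*} [Group G] [Countable G] {X : Type*} [MeasurableSpace X] [MulAction G X]
  [MeasurableConstSMul G X] {μ : Measure X} [SMulInvariantMeasure G X μ] {w : X → ℝ≥0∞}

/-- The model of the measure on the quotient. -/
abbrev quotMeasure (μ : Measure X) (w : X → ℝ≥0∞) : Measure X := μ.withDensity w

/-- An invariant property holding almost everywhere on the quotient holds almost everywhere. -/
theorem ae_of_ae_quotMeasure (hw : IsWeight G μ w) {p : X → Prop}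
    (hinv : ∀ (g : G) (x : X), p (g • x) → p x) (h : ∀ᵐ x ∂quotMeasure μ w, p x) :
    ∀ᵐ x ∂μ, p x := by
  have h' : ∀ᵐ x ∂μ, w x ≠ 0 → p x := (ae_withDensity_iff hw.1).mp h
  filter_upwards [ae_smul (G := G) h', hw.2] with x hx h1
  obtain ⟨g, hg⟩ : ∃ g : G, w (g • x) ≠ 0 := by
    by_contra hall
    push Not at hall
    simp [hall] at h1
  exact hinv g x (hx g hg)

theorem quotMeasure_absolutelyContinuous : quotMeasure μ w ≪ μ :=
  withDensity_absolutelyContinuous _ _

omit [Countable G] [MeasurableConstSMul G X] [SMulInvariantMeasure G X μ] in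
theorem weight_lt_top (hw : IsWeight G μ w) : ∀ᵐ x ∂μ, w x < ⊤ :=
  hw.2.mono fun x hx => by
    have h := ENNReal.le_tsum (f := fun g : G => w (g • x)) 1
    simp only [one_smul, hx] at h
    exact h.trans_lt ENNReal.one_lt_top

/-- Unfolding of a complex integral. -/
theorem integral_tsum_comp_smul (hw : IsWeight G μ w) {H : X → ℂ} (hHm : Measurable H)
    (hH : Integrable H μ) :
    ∫ x, ∑' g : G, H (g • x) ∂quotMeasure μ w = ∫ x, H x ∂μ := by
  have hfin : ∫⁻ x, ‖H x‖ₑ ∂μ ≠ ⊤ := hH.2.ne
  have key : ∑' g : G, ∫⁻ x, ‖H (g • x)‖ₑ ∂quotMeasure μ w = ∫⁻ x, ‖H x‖ₑ ∂μ := by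
    rw [← lintegral_weight_mul_tsum (G := G) hw hHm.enorm,
      ← lintegral_tsum (f := fun (g : G) (x : X) => ‖H (g • x)‖ₑ) (fun g : G =>
        (hHm.comp (measurable_const_smul g)).enorm.aemeasurable),
      lintegral_withDensity_eq_lintegral_mul μ hw.1
        (g := fun x => ∑' g : G, ‖H (g • x)‖ₑ)
        (Measurable.tsum fun g : G => (hHm.comp (measurable_const_smul g)).enorm)]
    rfl
  rw [integral_tsum (f := fun (g : G) (x : X) => H (g • x))
    (fun g : G => (hHm.comp (measurable_const_smul g)).aestronglyMeasurable)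
    (by rw [key]; exact hfin)]
  have hterm : ∀ g : G, ∫ x, H (g • x) ∂quotMeasure μ w
      = ∫ x, (w (g⁻¹ • x)).toReal • H x ∂μ := by
    intro g
    rw [integral_withDensity_eq_integral_toReal_smul hw.1 (weight_lt_top hw)]
    rw [← (measurePreserving_smul g μ).integral_comp (measurableEmbedding_const_smul g)
      (fun x => (w (g⁻¹ • x)).toReal • H x)]
    simp only [inv_smul_smul]
  simp_rw [hterm]
  have hwm : ∀ g : G, Measurable fun x => (w (g⁻¹ • x)).toReal :=
    fun g => (hw.1.comp (measurable_const_smul g⁻¹)).ennreal_toReal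
  rw [← integral_tsum (f := fun (g : G) (x : X) => (w (g⁻¹ • x)).toReal • H x)
    (fun g : G => ((hwm g).smul hHm).aestronglyMeasurable)]
  · refine integral_congr_ae ?_
    filter_upwards [hw.2] with x hx
    have hinv : ∑' g : G, w (g⁻¹ • x) = 1 :=
      ((Equiv.inv G).tsum_eq fun g => w (g • x)).trans hx
    have hsum : Summable fun g : G => (w (g⁻¹ • x)).toReal :=
      ENNReal.summable_toReal (by rw [hinv]; exact ENNReal.one_ne_top)
    rw [hsum.tsum_smul_const, ← ENNReal.tsum_toReal_eq fun g => ?_, hinv]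
    · simp
    · exact ne_top_of_le_ne_top (hinv ▸ ENNReal.one_ne_top) (ENNReal.le_tsum g)
  · refine ne_top_of_le_ne_top hfin ?_
    calc ∑' g : G, ∫⁻ x, ‖(w (g⁻¹ • x)).toReal • H x‖ₑ ∂μ
        ≤ ∑' g : G, ∫⁻ x, w (g⁻¹ • x) * ‖H x‖ₑ ∂μ := by
          refine ENNReal.tsum_le_tsum fun g => lintegral_mono fun x => ?_
          rw [enorm_smul, Real.enorm_eq_ofReal ENNReal.toReal_nonneg]
          gcongr
          exact ENNReal.ofReal_toReal_le
      _ = ∫⁻ x, ∑' g : G, w (g⁻¹ • x) * ‖H x‖ₑ ∂μ :=
          (lintegral_tsum fun g =>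
            ((hw.1.comp (measurable_const_smul g⁻¹)).mul hHm.enorm).aemeasurable).symm
      _ = ∫⁻ x, ‖H x‖ₑ ∂μ := by
          refine lintegral_congr_ae (hw.2.mono fun x hx => ?_)
          show ∑' g : G, w (g⁻¹ • x) * ‖H x‖ₑ = _
          have hinv : ∑' g : G, w (g⁻¹ • x) = 1 :=
            ((Equiv.inv G).tsum_eq fun g => w (g • x)).trans hx
          rw [ENNReal.tsum_mul_right, hinv, one_mul]

/-- Pairing the periodisation of `F` with an invariant function. -/
theorem integral_periodize_mul (hw : IsWeight G μ w) {F φ : X → ℂ} (hF : Measurable F)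
    (hφ : Measurable φ) (hinv : ∀ (g : G) (x : X), φ (g • x) = φ x)
    (hint : Integrable (fun x => F x * φ x) μ) :
    ∫ x, (∑' g : G, F (g • x)) * φ x ∂quotMeasure μ w = ∫ x, F x * φ x ∂μ := by
  rw [← integral_tsum_comp_smul (G := G) hw (H := fun x => F x * φ x) (hF.mul hφ) hint]
  refine integral_congr_ae (Eventually.of_forall fun x => ?_)
  simp only [hinv, tsum_mul_right]

/-- The periodisation of a kernel in the second variable. -/
def perKer (G : Type*) [Group G] {X : Type*} [MulAction G X] (k : X → X → ℂ) (x y : X) : ℂ :=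
  ∑' g : G, k x (g • y)

omit [Countable G] [MeasurableSpace X] [MeasurableConstSMul G X] in
theorem perKer_smul_right (k : X → X → ℂ) (g : G) (x y : X) :
    perKer G k x (g • y) = perKer G k x y := by
  show ∑' h : G, k x (h • g • y) = ∑' h : G, k x (h • y)
  simp only [smul_smul]
  exact (Equiv.mulRight g).tsum_eq fun h => k x (h • y)

omit [Countable G] [MeasurableSpace X] [MeasurableConstSMul G X] in
theorem perKer_smul_left {k : X → X → ℂ} (hk : ∀ (g : G) (x y : X), k (g • x) (g • y) = k x y)
    (g : G) (x y : X) : perKer G k (g • x) y = perKer G k x y := by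
  show ∑' h : G, k (g • x) (h • y) = ∑' h : G, k x (h • y)
  rw [← (Equiv.mulLeft g).tsum_eq fun h => k (g • x) (h • y)]
  refine tsum_congr fun h => ?_
  simp only [Equiv.coe_mulLeft, mul_smul, hk]

omit [MeasurableConstSMul G X] in
theorem measurable_perKer_left {k : X → X → ℂ} (hk : Measurable (Function.uncurry k)) (y : X)
    (hsum : ∀ x, Summable fun g : G => k x (g • y)) :
    Measurable fun x => perKer G k x y := by
  classical
  exact measurable_of_tendsto_metrizable'
    (atTop : Filter (Finset G))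
    (f := fun s x => ∑ g ∈ s, k x (g • y))
    (fun s => Finset.measurable_sum s fun g _ =>
      hk.comp (measurable_id.prodMk measurable_const))
    (tendsto_pi_nhds.mpr fun x => (hsum x).hasSum)

/-- Composition of periodised kernels is the periodisation of the composition. -/
theorem integral_perKer_mul_perKer (hw : IsWeight G μ w) {k₁ k₂ : X → X → ℂ}
    (h₁ : Measurable (Function.uncurry k₁)) (h₂ : Measurable (Function.uncurry k₂))
    (hinv : ∀ (g : G) (x y : X), k₂ (g • x) (g • y) = k₂ x y) (x z : X)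
    (hsum : ∀ y, Summable fun g : G => k₂ y (g • z))
    (hint : ∑' g : G, ∫⁻ y, ‖k₁ x y * k₂ y (g • z)‖ₑ ∂μ ≠ ⊤) :
    ∫ y, perKer G k₁ x y * perKer G k₂ y z ∂quotMeasure μ w
      = ∑' g : G, ∫ y, k₁ x y * k₂ y (g • z) ∂μ := by
  have hm1 : Measurable (k₁ x) := h₁.comp (measurable_const.prodMk measurable_id)
  have hm2 : ∀ g : G, Measurable fun y => k₁ x y * k₂ y (g • z) := fun g =>
    hm1.mul (h₂.comp (measurable_id.prodMk measurable_const))
  have hp := measurable_perKer_left h₂ z hsum
  have hfin : Integrable (fun y => k₁ x y * perKer G k₂ y z) μ := by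
    refine ⟨(hm1.mul hp).aestronglyMeasurable, ?_⟩
    rw [← lintegral_tsum fun g => (hm2 g).enorm.aemeasurable] at hint
    refine lt_of_le_of_lt (lintegral_mono fun y => ?_) hint.lt_top
    show ‖k₁ x y * ∑' g : G, k₂ y (g • z)‖ₑ ≤ ∑' g : G, ‖k₁ x y * k₂ y (g • z)‖ₑ
    rw [← tsum_mul_left]
    exact enorm_tsum_le_tsum_enorm
  rw [← integral_tsum (fun g => (hm2 g).aestronglyMeasurable) hint]
  refine (integral_periodize_mul (G := G) hw hm1 hp
    (fun g y => perKer_smul_left hinv g y z) hfin).trans ?_
  exact integral_congr_ae (Eventually.of_forall fun y => tsum_mul_left.symm)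

/-! ### Invariant classes -/

/-- Classes in `L²` of the quotient with an invariant representative. -/
def invClasses (G : Type*) [Group G] {X : Type*} [MeasurableSpace X] [MulAction G X]
    (μ : Measure X) (w : X → ℝ≥0∞) : Submodule ℂ (Lp ℂ 2 (quotMeasure μ w)) where
  carrier := {f | ∃ φ : X → ℂ, Measurable φ ∧ (∀ (g : G) (x : X), φ (g • x) = φ x) ∧
    f =ᵐ[quotMeasure μ w] φ}
  zero_mem' := ⟨0, measurable_const, fun _ _ => rfl, Lp.coeFn_zero _ _ _⟩
  add_mem' := by
    rintro f f' ⟨φ, hm, hi, he⟩ ⟨φ', hm', hi', he'⟩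
    exact ⟨φ + φ', hm.add hm', fun g x => by simp [hi, hi'],
      (Lp.coeFn_add f f').trans (he.add he')⟩
  smul_mem' := by
    rintro c f ⟨φ, hm, hi, he⟩
    refine ⟨c • φ, hm.const_smul c, fun g x => by simp [hi], (Lp.coeFn_smul c f).trans ?_⟩
    filter_upwards [he] with x hx
    simp [hx]

omit [Countable G] [MeasurableConstSMul G X] [SMulInvariantMeasure G X μ] in
theorem mem_invClasses {f : Lp ℂ 2 (quotMeasure μ w)} :
    f ∈ invClasses G μ w ↔ ∃ φ : X → ℂ, Measurable φ ∧ (∀ (g : G) (x : X), φ (g • x) = φ x) ∧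
      f =ᵐ[quotMeasure μ w] φ := Iff.rfl

omit [Countable G] [MeasurableConstSMul G X] [SMulInvariantMeasure G X μ] in
theorem isClosed_invClasses :
    IsClosed (invClasses G μ w : Set (Lp ℂ 2 (quotMeasure μ w))) := by
  refine IsSeqClosed.isClosed fun f f₀ hf hlim => ?_
  choose φ hm hi he using fun n => mem_invClasses.mp (hf n)
  obtain ⟨ns, -, hae⟩ :=
    (tendstoInMeasure_of_tendsto_Lp hlim).exists_seq_tendsto_ae
  let re : X → ℝ := fun x => limsup (fun n => (φ (ns n) x).re) atTop
  let im : X → ℝ := fun x => limsup (fun n => (φ (ns n) x).im) atTop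
  refine mem_invClasses.mpr ⟨fun x => (re x : ℂ) + (im x : ℂ) * Complex.I,
    ((Measurable.limsup fun n => Complex.measurable_re.comp (hm _)).complex_ofReal).add
      ((Measurable.limsup fun n => Complex.measurable_im.comp (hm _)).complex_ofReal.mul_const _),
    fun g x => by simp only [re, im, hi], ?_⟩
  filter_upwards [hae, ae_all_iff.mpr he] with x hx hx'
  simp only [hx'] at hx
  simp only [re, im]
  have h1 := ((Complex.continuous_re.tendsto _).comp hx).limsup_eq
  have h2 := ((Complex.continuous_im.tendsto _).comp hx).limsup_eq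
  simp only [Function.comp_def] at h1 h2
  rw [h1, h2, Complex.re_add_im]

theorem invariant_rep_unique (hw : IsWeight G μ w) {φ ψ : X → ℂ}
    (hφ : ∀ (g : G) (x : X), φ (g • x) = φ x) (hψ : ∀ (g : G) (x : X), ψ (g • x) = ψ x)
    (h : φ =ᵐ[quotMeasure μ w] ψ) : φ =ᵐ[μ] ψ :=
  ae_of_ae_quotMeasure hw (fun g x hx => by rwa [hφ, hψ] at hx) h

end Fermat.Agent.LT.Spectral
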