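import Fermat.Agent.LT.Adelic.Measure
import Fermat.Agent.LT.Adelic.Projective
import Fermat.Agent.LT.Spectral.Quotient

/-!
# The measured action of `PGL₂(K)` on the space
-/

set_option autoImplicit false

noncomputable section

namespace Fermat.Agent.LT.Spectral

open MeasureTheory Matrix NumberField IsDedekindDomain
open Fermat.Agent.LT.Adelic
open scoped MatrixGroups ENNReal

variable {K : Type*} [Field K] [NumberField K]

instance instCountablePGL : Countable PGL(2, K) :=
  Function.Surjective.countable ProjGenLinGroup.mk_surjective

variable {ι : Type*} {Φ : Frame K ι} {U : Subgroup (GfK K)} [Countable (Yf U)]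

instance instMeasurableConstSMulPGL : MeasurableConstSMul PGL(2, K) (Space Φ U) :=
  ⟨fun g => by
    induction g using ProjGenLinGroup.induction_on with
    | mk g => exact (measurable_const_smul g : Measurable fun x : Space Φ U => g • x)⟩

variable [Fintype ι]

instance instSMulInvariantMeasurePGL :
    SMulInvariantMeasure PGL(2, K) (Space Φ U) (Space.measure Φ U) :=
  ⟨fun g s hs => by
    induction g using ProjGenLinGroup.induction_on with
    | mk g => exact measure_preimage_smul (μ := Space.measure Φ U) g s⟩

end Fermat.Agent.LT.Spectral

end
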