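import Fermat.Agent.LT.Spectral.Coordinates
import Fermat.Agent.LT.Reduction.Siegel
import Mathlib.Analysis.SpecialFunctions.ImproperIntegrals

/-!
# Weight, finite volume and multiplicities of a Siegel set
-/

set_option autoImplicit false

noncomputable section

open MeasureTheory Set Matrix
open scoped ENNReal MatrixGroups

namespace Fermat.Agent.LT.Spectral

open Fermat.Agent.LT.Adelic Fermat.Agent.LT.Reduction Fermat.Agent.LT.Geom

variable {K : Type*} [Field K] [NumberField K] {ι : Type*} [Fintype ι] {Φ : Frame K ι}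
  {U : Subgroup (GfK K)}

variable (Φ) in
/-- Points over `Y0` in a box. -/
def boxSet (Y0 : Set (Yf U)) (c C R : ℝ) : Set (Space Φ U) :=
  {x | x.fin ∈ Y0 ∧ InBox c C R x.pt}

theorem measurableSet_boxSet (Y0 : Set (Yf U)) (c C R : ℝ) :
    MeasurableSet (boxSet Φ Y0 c C R) := by
  have hr : ∀ i, Measurable fun x : Space Φ U => (x.pt i).r := fun i =>
    ((measurable_snd.comp HSpace.measurableEmbedding_coords.measurable).comp
      (measurable_pi_apply i)).comp Space.measurable_pt
  have hz : ∀ i, Measurable fun x : Space Φ U => ‖(x.pt i).z‖ := fun i =>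
    (((measurable_fst.comp HSpace.measurableEmbedding_coords.measurable).comp
      (measurable_pi_apply i)).comp Space.measurable_pt).norm
  have h : boxSet Φ Y0 c C R = Space.fin ⁻¹' Y0 ∩
      ((⋂ i, {x | c ≤ (x.pt i).r}) ∩ (⋂ i, ⋂ j, {x | (x.pt i).r ≤ C * (x.pt j).r}) ∩
        ⋂ i, {x | ‖(x.pt i).z‖ ≤ R}) := by
    ext x
    simp [boxSet, InBox, and_assoc]
  rw [h]
  exact (Space.measurableSet_fin _).inter
    (((MeasurableSet.iInter fun i => measurableSet_le measurable_const (hr i)).inter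
      (MeasurableSet.iInter fun i => MeasurableSet.iInter fun j =>
        measurableSet_le (hr i) ((hr j).const_mul C))).inter
      (MeasurableSet.iInter fun i => measurableSet_le (hz i) measurable_const))

/-- The number of projective matrices moving a point into a box is bounded. -/
theorem exists_multiplicity (hU : IsLevel U) {Y0 : Set (Yf U)} (hY0 : Y0.Finite) {c C R : ℝ}
    (hc : 0 < c) :
    ∃ M : ℕ, ∀ x : Space Φ U,
      {g : PGL(2, K) | g • x ∈ boxSet Φ Y0 c C R}.Finite ∧
      {g : PGL(2, K) | g • x ∈ boxSet Φ Y0 c C R}.ncard ≤ M := by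
  classical
  choose F hF using fun y : Yf U => exists_returns_pair Φ hU y (C := C) (R := R) hc
  refine ⟨∑ y ∈ hY0.toFinset, (F y).card, fun x => ?_⟩
  have hsub : ∀ y, ∃ T : Finset PGL(2, K), T.card ≤ (F y).card ∧
      ∀ g : PGL(2, K), g • x ∈ boxSet Φ {y} c C R → g ∈ T := by
    intro y
    by_cases hex : ∃ g : GL (Fin 2) K, g • x ∈ boxSet Φ {y} c C R
    · obtain ⟨g₁, hy1, hb1⟩ := hex
      refine ⟨(F y).image fun h => ProjGenLinGroup.mk h * ProjGenLinGroup.mk g₁,
        Finset.card_image_le, fun g hg => ?_⟩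
      induction g using ProjGenLinGroup.induction_on with
      | mk g₂ =>
        obtain ⟨hy2, hb2⟩ := hg
        obtain ⟨h, hh, t, ht⟩ := hF y g₁ g₂ x hy1 hb1 hy2 hb2
        refine Finset.mem_image.mpr ⟨h, hh, ?_⟩
        have ht1 : ProjGenLinGroup.mk (scalarGL t) = 1 := ProjGenLinGroup.mk_scalar t
        rw [ht, map_mul, map_mul, ht1, mul_one]
    · refine ⟨∅, by simp, fun g hg => ?_⟩
      induction g using ProjGenLinGroup.induction_on with
      | mk g₂ => exact absurd ⟨g₂, hg⟩ hex
  choose T hTc hT using hsub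
  have hsub' : {g : PGL(2, K) | g • x ∈ boxSet Φ Y0 c C R} ⊆ ↑(hY0.toFinset.biUnion T) := by
    intro g hg
    rw [Finset.mem_coe, Finset.mem_biUnion]
    exact ⟨(g • x).fin, hY0.mem_toFinset.mpr hg.1, hT _ g ⟨rfl, hg.2⟩⟩
  refine ⟨(Finset.finite_toSet _).subset hsub', ?_⟩
  refine (Set.ncard_le_ncard hsub' (Finset.finite_toSet _)).trans ?_
  rw [Set.ncard_coe_finset]
  exact Finset.card_biUnion_le.trans (Finset.sum_le_sum fun y _ => hTc y)

/-- Counting translates in a set. -/
theorem tsum_indicator_smul_eq {Y : Type*} {G : Type*} [Group G] [MulAction G Y] (S : Set Y) (x : Y)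
    (hfin : {g : G | g • x ∈ S}.Finite) :
    ∑' g : G, S.indicator (1 : Y → ℝ≥0∞) (g • x) = ({g : G | g • x ∈ S}.ncard : ℝ≥0∞) := by
  classical
  rw [tsum_eq_sum (s := hfin.toFinset) fun g hg => by
    rw [Set.indicator_of_notMem]
    simpa [hfin.mem_toFinset] using hg]
  rw [Finset.sum_congr rfl fun g hg =>
    Set.indicator_of_mem (s := S) (a := g • x) (hfin.mem_toFinset.mp hg) (1 : Y → ℝ≥0∞)]
  simp [Set.ncard_eq_toFinset_card _ hfin]

/-- The weight of a covering set of bounded multiplicity. -/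
def boxWeight (G : Type*) [Group G] {Y : Type*} [MulAction G Y] (S : Set Y) (x : Y) : ℝ≥0∞ :=
  S.indicator 1 x / ∑' g : G, S.indicator 1 (g • x)

variable [Countable (Yf U)]

theorem isWeight_boxWeight {S : Set (Space Φ U)} (hS : MeasurableSet S)
    (hfin : ∀ x, {g : PGL(2, K) | g • x ∈ S}.Finite) (hcov : ∀ x, ∃ g : PGL(2, K), g • x ∈ S) :
    IsWeight PGL(2, K) (Space.measure Φ U) (boxWeight PGL(2, K) S) := by
  refine ⟨(measurable_one.indicator hS).div (Measurable.tsum fun g : PGL(2, K) =>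
    (measurable_one.indicator hS).comp (measurable_const_smul g)),
    Filter.Eventually.of_forall fun x => ?_⟩
  have hinv : ∀ g : PGL(2, K), ∑' h : PGL(2, K), S.indicator 1 (h • g • x)
      = ∑' h : PGL(2, K), S.indicator (1 : Space Φ U → ℝ≥0∞) (h • x) := by
    intro g
    simp only [smul_smul]
    exact (Equiv.mulRight g).tsum_eq fun h => S.indicator (1 : Space Φ U → ℝ≥0∞) (h • x)
  simp only [boxWeight, hinv, div_eq_mul_inv, ENNReal.tsum_mul_right]
  rw [tsum_indicator_smul_eq S x (hfin x)]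
  refine ENNReal.mul_inv_cancel ?_ (ENNReal.natCast_ne_top _)
  rw [Nat.cast_ne_zero, Ne, Set.ncard_eq_zero (hfin x)]
  obtain ⟨g, hg⟩ := hcov x
  exact Set.nonempty_iff_ne_empty.mp ⟨g, hg⟩

omit [Countable (Yf U)] [Fintype ι] in
theorem boxWeight_eq_zero {S : Set (Space Φ U)} {x : Space Φ U} (hx : x ∉ S) :
    boxWeight PGL(2, K) S x = 0 := by
  simp [boxWeight, Set.indicator_of_notMem hx]

omit [Countable (Yf U)] [Fintype ι] in
theorem boxWeight_le_one {S : Set (Space Φ U)} (x : Space Φ U) :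
    boxWeight PGL(2, K) S x ≤ 1 := by
  by_cases hx : x ∈ S
  · refine ENNReal.div_le_of_le_mul ?_
    rw [one_mul, Set.indicator_of_mem hx]
    have h := ENNReal.le_tsum (f := fun g : PGL(2, K) => S.indicator 1 (g • x)) 1
    simpa [hx] using h
  · rw [boxWeight_eq_zero hx]
    exact zero_le

/-- A box carries finite moments of order `e < 2` in every height. -/
theorem lintegral_box_rpow_lt_top {Y0 : Set (Yf U)} (hY0 : Y0.Finite) {c C R : ℝ} (hc : 0 < c)
    {e : ℝ} (he : e < 2) :
    ∫⁻ x in boxSet Φ Y0 c C R, ∏ i, ENNReal.ofReal ((x.pt i).r ^ e) ∂Space.measure Φ U < ⊤ := by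
  classical
  let A : Set ((ι → ℂ) × (ι → ℝ)) :=
    (Set.univ.pi fun _ => Metric.closedBall (0 : ℂ) R) ×ˢ (Set.univ.pi fun _ => Set.Ici c)
  let h₀ : (ι → ℂ) × (ι → ℝ) → ℝ≥0∞ := A.indicator fun p => ∏ i, ENNReal.ofReal (p.2 i ^ e)
  let F : Yf U → (ι → ℂ) × (ι → ℝ) → ℝ≥0∞ := fun y => if y ∈ Y0 then h₀ else 0
  have hA : MeasurableSet A := (MeasurableSet.univ_pi fun _ => measurableSet_closedBall).prod
    (MeasurableSet.univ_pi fun _ => measurableSet_Ici)
  have hh₀ : Measurable h₀ := Measurable.indicator (Finset.measurable_prod _ fun i _ =>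
    (((measurable_pi_apply i).comp measurable_snd).pow_const e).ennreal_ofReal) hA
  have hF : ∀ y, Measurable (F y) := fun y => by
    by_cases hy : y ∈ Y0 <;> simp [F, hy, hh₀, measurable_zero]
  have hle : ∀ x : Space Φ U,
      (boxSet Φ Y0 c C R).indicator (fun x => ∏ i, ENNReal.ofReal ((x.pt i).r ^ e)) x
        ≤ F x.fin (piCoords x.pt) := by
    intro x
    refine Set.indicator_apply_le' (fun hx => ?_) (fun _ => zero_le)
    obtain ⟨hy, hb1, hb2, hb3⟩ := hx
    have hmem : piCoords x.pt ∈ A :=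
      ⟨fun i _ => by simpa [piCoords] using hb3 i, fun i _ => hb1 i⟩
    simp only [F, if_pos hy, h₀, Set.indicator_of_mem hmem]
    exact le_rfl
  rw [← lintegral_indicator (measurableSet_boxSet Y0 c C R)]
  refine (lintegral_mono hle).trans_lt ?_
  rw [lintegral_space hF, tsum_eq_sum (s := hY0.toFinset) fun y hy => by
    simp [F, show y ∉ Y0 by simpa using hy]]
  refine ENNReal.sum_lt_top.mpr fun y hy => ?_
  simp only [F, if_pos (hY0.mem_toFinset.mp hy), h₀]
  have hone : ∫⁻ t in Set.Ici c, ENNReal.ofReal (t ^ (e - 3)) < ⊤ := by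
    rw [setLIntegral_congr Ioi_ae_eq_Ici.symm, ← ofReal_integral_eq_lintegral_ofReal
      (integrableOn_Ioi_rpow_of_lt (by linarith) hc)]
    · exact ENNReal.ofReal_lt_top
    · exact (ae_restrict_mem measurableSet_Ioi).mono fun t ht =>
        Real.rpow_nonneg (hc.trans ht).le _
  calc ∫⁻ p in posCone ι, hypDensity' p * A.indicator (fun p => ∏ i, ENNReal.ofReal (p.2 i ^ e)) p
        ∂volume.prod volume
      ≤ ∫⁻ p, A.indicator (fun p => ∏ i, ENNReal.ofReal (p.2 i ^ (e - 3))) p
          ∂volume.prod volume := by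
        refine le_trans (lintegral_mono fun p => ?_) (setLIntegral_le_lintegral _ _)
        by_cases hp : p ∈ A
        · rw [Set.indicator_of_mem hp, Set.indicator_of_mem hp, hypDensity',
            ← Finset.prod_mul_distrib]
          refine le_of_eq (Finset.prod_congr rfl fun i _ => ?_)
          have hpi : 0 < p.2 i := hc.trans_le (hp.2 i (Set.mem_univ _))
          rw [← ENNReal.ofReal_mul (by positivity)]
          congr 1
          rw [Real.rpow_sub hpi, show (3 : ℝ) = ((3 : ℕ) : ℝ) by norm_num, Real.rpow_natCast]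
          field_simp
        · simp [Set.indicator_of_notMem hp]
    _ = ∫⁻ z in Set.univ.pi (fun _ : ι => Metric.closedBall (0 : ℂ) R),
          ∫⁻ r in Set.univ.pi (fun _ : ι => Set.Ici c), ∏ i, ENNReal.ofReal (r i ^ (e - 3)) := by
        rw [lintegral_indicator hA, setLIntegral_prod _ (Finset.measurable_prod _ fun i _ =>
          (((measurable_pi_apply i).comp measurable_snd).pow_const
            (e - 3)).ennreal_ofReal).aemeasurable]
    _ < ⊤ := by
        rw [lintegral_const, Measure.restrict_apply_univ, volume_pi, volume_pi,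
          Measure.restrict_pi_pi, lintegral_pi_prod (fun _ : ι => volume.restrict (Set.Ici c))
            (f := fun _ t => ENNReal.ofReal (t ^ (e - 3))) fun i =>
            (measurable_id.pow_const (e - 3)).ennreal_ofReal, Measure.pi_pi]
        exact ENNReal.mul_lt_top (ENNReal.prod_lt_top fun i _ => hone)
          (ENNReal.prod_lt_top fun i _ => measure_closedBall_lt_top)

theorem measure_boxSet_lt_top {Y0 : Set (Yf U)} (hY0 : Y0.Finite) {c C R : ℝ} (hc : 0 < c) :
    Space.measure Φ U (boxSet Φ Y0 c C R) < ⊤ := by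
  have h := lintegral_box_rpow_lt_top (Φ := Φ) (C := C) (R := R) hY0 hc
    (e := 0) (by norm_num)
  simpa using h

variable (Φ U) in
/-- A Siegel weight: supported in a box, hence of finite total mass. -/
theorem exists_siegel_weight (hU : IsLevel U) :
    ∃ (Y0 : Set (Yf U)) (c C R : ℝ) (w : Space Φ U → ℝ≥0∞), Y0.Finite ∧ 0 < c ∧ 0 < C ∧
      IsWeight PGL(2, K) (Space.measure Φ U) w ∧ (∀ x, x ∉ boxSet Φ Y0 c C R → w x = 0) ∧
      (∀ x, w x ≤ 1) ∧ IsFiniteMeasure (quotMeasure (Space.measure Φ U) w) := by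
  obtain ⟨Y0, c, C, R, hY0, hc, hC, hcov⟩ := exists_siegel Φ hU
  obtain ⟨M, hM⟩ := exists_multiplicity (Φ := Φ) hU hY0 (C := C) (R := R) hc
  refine ⟨Y0, c, C, R, boxWeight PGL(2, K) (boxSet Φ Y0 c C R), hY0, hc, hC,
    isWeight_boxWeight (measurableSet_boxSet _ _ _ _) (fun x => (hM x).1) (fun x => ?_),
    fun x hx => boxWeight_eq_zero hx, boxWeight_le_one, ⟨?_⟩⟩
  · obtain ⟨γ, h1, h2⟩ := hcov x
    exact ⟨ProjGenLinGroup.mk γ, h1, h2⟩
  · rw [withDensity_apply _ MeasurableSet.univ, Measure.restrict_univ]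
    refine lt_of_le_of_lt ?_ (measure_boxSet_lt_top (Φ := Φ) hY0 (C := C) (R := R) hc)
    rw [← lintegral_indicator_one (measurableSet_boxSet Y0 c C R)]
    refine lintegral_mono fun x => ?_
    by_cases hx : x ∈ boxSet Φ Y0 c C R
    · rw [Set.indicator_of_mem hx]
      exact boxWeight_le_one x
    · rw [boxWeight_eq_zero hx]
      exact zero_le

/-- The mass of an invariant function on a box is controlled by that on the quotient. -/
theorem lintegral_box_le_quot (hU : IsLevel U) {w : Space Φ U → ℝ≥0∞}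
    (hw : IsWeight PGL(2, K) (Space.measure Φ U) w) {Y0 : Set (Yf U)} (hY0 : Y0.Finite)
    {c C R : ℝ} (hc : 0 < c) :
    ∃ M : ℕ, ∀ f : Space Φ U → ℝ≥0∞, Measurable f → (∀ (g : PGL(2, K)) x, f (g • x) = f x) →
      ∫⁻ x in boxSet Φ Y0 c C R, f x ∂Space.measure Φ U
        ≤ M * ∫⁻ x, f x ∂quotMeasure (Space.measure Φ U) w := by
  obtain ⟨M, hM⟩ := exists_multiplicity (Φ := Φ) hU hY0 (C := C) (R := R) hc
  refine ⟨M, fun f hf hinv => ?_⟩
  set S := boxSet Φ Y0 c C R with hS
  have hSm : MeasurableSet S := measurableSet_boxSet _ _ _ _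
  rw [← lintegral_indicator hSm,
    ← lintegral_weight_mul_tsum (G := PGL(2, K)) hw (hf.indicator hSm),
    lintegral_withDensity_eq_lintegral_mul _ hw.1 hf,
    ← lintegral_const_mul (M : ℝ≥0∞) (hw.1.mul hf)]
  refine lintegral_mono fun x => ?_
  show w x * ∑' g : PGL(2, K), S.indicator f (g • x) ≤ (M : ℝ≥0∞) * (w x * f x)
  have heq : ∀ g : PGL(2, K), S.indicator f (g • x) = S.indicator 1 (g • x) * f x := by
    intro g
    by_cases hg : g • x ∈ S <;> simp [hg, hinv]
  simp only [heq, ENNReal.tsum_mul_right, tsum_indicator_smul_eq S x (hM x).1]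
  rw [mul_left_comm (M : ℝ≥0∞)]
  gcongr
  exact_mod_cast (hM x).2

end Fermat.Agent.LT.Spectral

end
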