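import Fermat.Agent.LT.Spectral.Periods
import Fermat.Agent.LT.Spectral.Quotient
import Fermat.Agent.LT.Spectral.Siegel
import Mathlib.MeasureTheory.Measure.SeparableMeasure

/-!
# The measure on the quotient and square integrable slices

A choice of a Siegel weight, the resulting measure `ν` on the quotient, and the comparison of
`L²(ν)` norms of invariant functions with `L²` norms of their slices on compact sets.
-/

set_option autoImplicit false

noncomputable section

open MeasureTheory Set Matrix NumberField IsDedekindDomain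
open scoped ENNReal MatrixGroups NNReal

namespace Fermat.Agent.LT.Spectral

open Fermat.Agent.LT.Adelic Fermat.Agent.LT.Geom Fermat.Agent.LT.Reduction

variable {K : Type*} [Field K] [NumberField K] {ι : Type*} [Fintype ι]

/-- A level with a weight supported in a box. -/
structure QuotData (Φ : Frame K ι) (U : Subgroup (GfK K)) where
  /-- the level is a level -/
  level : IsLevel U
  /-- the finite coordinates of the box -/
  Y0 : Set (Yf U)
  /-- lower bound of the heights -/
  c : ℝ
  /-- balance of the heights -/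
  C : ℝ
  /-- horizontal bound -/
  R : ℝ
  /-- the weight -/
  w : Space Φ U → ℝ≥0∞
  finite : Y0.Finite
  c_pos : 0 < c
  C_pos : 0 < C
  isWeight : IsWeight PGL(2, K) (Space.measure Φ U) w
  supp : ∀ x, x ∉ boxSet Φ Y0 c C R → w x = 0
  le_one : ∀ x, w x ≤ 1

variable {Φ : Frame K ι} {U : Subgroup (GfK K)}

theorem nonempty_quotData (hU : IsLevel U) : Nonempty (QuotData Φ U) := by
  have := countable_yf hU
  obtain ⟨Y0, c, C, R, w, hY0, hc, hC, hw, hsupp, h1, -⟩ := exists_siegel_weight Φ U hU
  exact ⟨⟨hU, Y0, c, C, R, w, hY0, hc, hC, hw, hsupp, h1⟩⟩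

/-- The measure on the quotient. -/
abbrev QuotData.ν (D : QuotData Φ U) : Measure (Space Φ U) :=
  quotMeasure (Space.measure Φ U) D.w

variable [Countable (Yf U)]

instance QuotData.isFiniteMeasure (D : QuotData Φ U) : IsFiniteMeasure D.ν := by
  refine ⟨?_⟩
  rw [withDensity_apply _ MeasurableSet.univ, Measure.restrict_univ]
  refine lt_of_le_of_lt ?_
    (measure_boxSet_lt_top (Φ := Φ) D.finite (C := D.C) (R := D.R) D.c_pos)
  rw [← lintegral_indicator_one (measurableSet_boxSet D.Y0 D.c D.C D.R)]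
  refine lintegral_mono fun x => ?_
  by_cases hx : x ∈ boxSet Φ D.Y0 D.c D.C D.R
  · rw [Set.indicator_of_mem hx]
    exact D.le_one x
  · rw [D.supp x hx]
    exact zero_le

omit [Countable (Yf U)] in
/-- The quotient measure is concentrated on the box. -/
theorem QuotData.ae_mem_box (D : QuotData Φ U) :
    ∀ᵐ x ∂D.ν, x ∈ boxSet Φ D.Y0 D.c D.C D.R :=
  (ae_withDensity_iff D.isWeight.1).mpr (Filter.Eventually.of_forall fun x hx => by
    by_contra hc
    exact hx (D.supp x hc))

instance countablyGenerated_space : MeasurableSpace.CountablyGenerated (Space Φ U) := by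
  have htop : @MeasurableSpace.CountablyGenerated (Yf U) ⊤ := by
    let : MeasurableSpace (Yf U) := ⊤
    infer_instance
  show @MeasurableSpace.CountablyGenerated (Space Φ U)
    (MeasurableSpace.comap Space.pt inferInstance ⊔ MeasurableSpace.comap Space.fin ⊤)
  have h2 : @MeasurableSpace.CountablyGenerated (Space Φ U)
      (MeasurableSpace.comap Space.fin ⊤) :=
    @MeasurableSpace.CountablyGenerated.comap (Space Φ U) (Yf U) ⊤ htop Space.fin
  suffices h1 : @MeasurableSpace.CountablyGenerated (Space Φ U)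
      (MeasurableSpace.comap Space.pt inferInstance) from
    @MeasurableSpace.CountablyGenerated.sup (Space Φ U) _ _ h1 h2
  have hpi : (inferInstance : MeasurableSpace (ι → HSpace))
      = MeasurableSpace.comap piCoords inferInstance := by
    refine le_antisymm ?_ (measurable_iff_comap_le.mp measurable_piCoords)
    have h : (id : (ι → HSpace) → ι → HSpace) = ptOf ∘ piCoords :=
      funext fun τ => (ptOf_piCoords τ).symm
    calc (inferInstance : MeasurableSpace (ι → HSpace))
        = MeasurableSpace.comap id inferInstance := MeasurableSpace.comap_id.symm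
      _ = MeasurableSpace.comap piCoords (MeasurableSpace.comap ptOf inferInstance) := by
          rw [MeasurableSpace.comap_comp, ← h]
      _ ≤ MeasurableSpace.comap piCoords inferInstance :=
          MeasurableSpace.comap_mono (measurable_iff_comap_le.mp measurable_ptOf)
  rw [hpi, MeasurableSpace.comap_comp]
  exact MeasurableSpace.CountablyGenerated.comap _

/-- A compact piece of a slice. -/
def slab (ι : Type*) [Fintype ι] (R a b : ℝ) : Set ((ι → ℂ) × (ι → ℝ)) :=
  Metric.closedBall 0 R ×ˢ Set.univ.pi fun _ => Set.Icc a b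

theorem measurableSet_slab (R a b : ℝ) : MeasurableSet (slab ι R a b) :=
  measurableSet_closedBall.prod (MeasurableSet.univ_pi fun _ => measurableSet_Icc)

theorem volume_slab_lt_top (R a b : ℝ) :
    (volume.prod volume) (slab ι R a b) < ⊤ := by
  rw [slab, Measure.prod_prod]
  exact ENNReal.mul_lt_top measure_closedBall_lt_top
    (isCompact_univ_pi fun _ => isCompact_Icc).measure_lt_top

omit [Fintype ι] [Countable (Yf U)] in
theorem isInvariant_enorm_sq {φ : Space Φ U → ℂ}
    (hinv : ∀ (g : PGL(2, K)) (x : Space Φ U), φ (g • x) = φ x) (g : PGL(2, K)) (x : Space Φ U) :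
    ‖φ (g • x)‖ₑ ^ (2 : ℝ) = ‖φ x‖ₑ ^ (2 : ℝ) := by
  rw [hinv]

/-- An invariant nonnegative function is bounded in mean on the boxes over `y` by the quotient. -/
theorem lintegral_slice_box_le (D : QuotData Φ U) (y : Yf U) {c C R : ℝ} (hc : 0 < c) :
    ∃ M : ℕ, ∀ f : Space Φ U → ℝ≥0∞, Measurable f → (∀ (g : PGL(2, K)) x, f (g • x) = f x) →
      ∀ S : Set ((ι → ℂ) × (ι → ℝ)), MeasurableSet S →
        (∀ p ∈ S, InBox c C R (ptOf p) ∧ p ∈ posCone ι) →
        ∫⁻ p in S, hypDensity' p * slice f y p ∂(volume.prod volume) ≤ M * ∫⁻ x, f x ∂D.ν := by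
  obtain ⟨M, hM⟩ := lintegral_box_le_quot (Φ := Φ) D.level D.isWeight
    (Set.finite_singleton y) (C := C) (R := R) hc
  refine ⟨M, fun f hf hinv S hS hsub => le_trans ?_ (hM f hf hinv)⟩
  rw [← lintegral_indicator (measurableSet_boxSet _ _ _ _),
    lintegral_space_slice (hf.indicator (measurableSet_boxSet _ _ _ _))]
  refine le_trans ?_ (ENNReal.le_tsum y)
  rw [← lintegral_indicator hS, ← lintegral_indicator measurableSet_posCone]
  refine lintegral_mono fun p => Set.indicator_apply_le' (fun hp => ?_) fun _ => zero_le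
  obtain ⟨hbox, hpos⟩ := hsub p hp
  have hmem : Space.mk (Φ := Φ) (ptOf p) y ∈ boxSet Φ {y} c C R := ⟨rfl, hbox⟩
  rw [Set.indicator_of_mem hpos]
  simp only [slice, Set.indicator_of_mem hmem]
  exact le_rfl

/-- `L²` norms on compact pieces of slices are controlled by the quotient. -/
theorem exists_eLpNorm_slab_le (D : QuotData Φ U) (y : Yf U) (R : ℝ) {a b : ℝ} (ha : 0 < a) :
    ∃ M : ℝ≥0, ∀ φ : Space Φ U → ℂ, Measurable φ →
      (∀ (g : PGL(2, K)) x, φ (g • x) = φ x) →
      eLpNorm (slice φ y) 2 ((volume.prod volume).restrict (slab ι R a b))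
        ≤ M * eLpNorm φ 2 D.ν := by
  obtain ⟨N, hN⟩ := lintegral_slice_box_le D y (C := max 1 (b / a)) (R := R) ha
  refine ⟨Real.toNNReal (√((N : ℝ) * |b| ^ (3 * Fintype.card ι))), fun φ hφ hinv => ?_⟩
  have hf : Measurable fun x => ‖φ x‖ₑ ^ (2 : ℝ) := hφ.enorm.pow_const _
  have h := hN _ hf (isInvariant_enorm_sq hinv) (slab ι R a b) (measurableSet_slab R a b)
    fun p hp => ?_
  swap
  · obtain ⟨hz, hr⟩ := hp
    have hpos : p ∈ posCone ι := fun i => ha.trans_le (hr i (Set.mem_univ i)).1
    have hR : 0 ≤ R := le_trans dist_nonneg (Metric.mem_closedBall.mp hz)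
    refine ⟨⟨fun i => ?_, fun i j => ?_, fun i => ?_⟩, hpos⟩
    · rw [ptOf_r hpos]
      exact (hr i (Set.mem_univ i)).1
    · rw [ptOf_r hpos, ptOf_r hpos]
      have h1 := (hr i (Set.mem_univ i)).2
      have h2 := (hr j (Set.mem_univ j)).1
      calc p.2 i ≤ b := h1
        _ = b / a * a := by field_simp
        _ ≤ max 1 (b / a) * p.2 j :=
          mul_le_mul (le_max_right _ _) h2 ha.le (zero_le_one.trans (le_max_left _ _))
    · exact (norm_le_pi_norm p.1 i).trans (by simpa [dist_zero_right] using hz)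
  have hle : ∫⁻ p in slab ι R a b, ‖slice φ y p‖ₑ ^ (2 : ℝ) ∂(volume.prod volume)
      ≤ ENNReal.ofReal (|b| ^ (3 * Fintype.card ι)) *
        ∫⁻ p in slab ι R a b, hypDensity' p * slice (fun x => ‖φ x‖ₑ ^ (2 : ℝ)) y p
          ∂(volume.prod volume) := by
    rw [← lintegral_const_mul _ (f := fun p => hypDensity' p * slice _ y p)
      (measurable_hypDensity'.mul (measurable_slice hf y))]
    refine lintegral_mono_ae
      ((ae_restrict_mem (measurableSet_slab R a b)).mono fun p hp => ?_)
    show ‖slice φ y p‖ₑ ^ (2 : ℝ) ≤ _ * (hypDensity' p * ‖slice φ y p‖ₑ ^ (2 : ℝ))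
    rw [← mul_assoc]
    refine le_mul_of_one_le_left zero_le ?_
    rw [hypDensity', ← ENNReal.ofReal_prod_of_nonneg fun i _ => ?_, ← ENNReal.ofReal_mul
      (by positivity), ENNReal.one_le_ofReal, pow_mul,
      show (|b| ^ 3) ^ Fintype.card ι = ∏ _i : ι, |b| ^ 3 by simp, ← Finset.prod_mul_distrib]
    · refine Finset.one_le_prod fun i _ => ?_
      have h1 := (hp.2 i (Set.mem_univ i))
      have hpi : 0 < p.2 i := ha.trans_le h1.1
      rw [← div_eq_mul_inv, one_le_div₀ (by positivity)]
      exact pow_le_pow_left₀ hpi.le (h1.2.trans (le_abs_self b)) 3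
    · exact inv_nonneg.mpr (pow_nonneg (ha.trans_le (hp.2 i (Set.mem_univ i)).1).le 3)
  rw [eLpNorm_eq_lintegral_rpow_enorm_toReal (by norm_num) ENNReal.ofNat_ne_top,
    eLpNorm_eq_lintegral_rpow_enorm_toReal (by norm_num) ENNReal.ofNat_ne_top]
  simp only [ENNReal.toReal_ofNat]
  rw [← ENNReal.ofReal_coe_nnreal, Real.coe_toNNReal _ (Real.sqrt_nonneg _), Real.sqrt_eq_rpow,
    ← ENNReal.ofReal_rpow_of_nonneg (by positivity) (by norm_num),
    ← ENNReal.mul_rpow_of_nonneg _ _ (by norm_num : (0 : ℝ) ≤ 1 / 2)]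
  refine ENNReal.rpow_le_rpow ((hle.trans (mul_le_mul_right h _)).trans (le_of_eq ?_))
    (by norm_num)
  rw [ENNReal.ofReal_mul (Nat.cast_nonneg _), ENNReal.ofReal_natCast, ← mul_assoc,
    mul_comm (ENNReal.ofReal _)]

/-- Square integrable invariant functions are integrable on compact pieces of slices. -/
theorem integrableOn_slab {D : QuotData Φ U} {φ : Space Φ U → ℂ} (hφ : Measurable φ)
    (hinv : ∀ (g : PGL(2, K)) x, φ (g • x) = φ x) (h2 : MemLp φ 2 D.ν) (y : Yf U) (R : ℝ)
    {a b : ℝ} (ha : 0 < a) :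
    IntegrableOn (slice φ y) (slab ι R a b) (volume.prod volume) := by
  have : Fact ((volume.prod volume) (slab ι R a b) < ⊤) := ⟨volume_slab_lt_top R a b⟩
  obtain ⟨M, hM⟩ := exists_eLpNorm_slab_le D y R (b := b) ha
  have hlp : MemLp (slice φ y) 2 ((volume.prod volume).restrict (slab ι R a b)) :=
    ⟨(measurable_slice hφ y).aestronglyMeasurable,
      (hM φ hφ hinv).trans_lt (ENNReal.mul_lt_top ENNReal.coe_lt_top h2.eLpNorm_lt_top)⟩
  exact hlp.integrable (by norm_num)

/-- The integral over a compact piece of a slice is bounded by the norm on the quotient. -/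
theorem exists_norm_setIntegral_slab_le (D : QuotData Φ U) (y : Yf U) (R : ℝ) {a b : ℝ}
    (ha : 0 < a) :
    ∃ M : ℝ, 0 ≤ M ∧ ∀ φ : Space Φ U → ℂ, Measurable φ →
      (∀ (g : PGL(2, K)) x, φ (g • x) = φ x) → MemLp φ 2 D.ν →
      ∀ S ⊆ slab ι R a b,
        ‖∫ p in S, slice φ y p ∂(volume.prod volume)‖ ≤ M * (eLpNorm φ 2 D.ν).toReal := by
  obtain ⟨M, hM⟩ := exists_eLpNorm_slab_le D y R (b := b) ha
  set V := (volume.prod volume) (slab ι R a b) ^ (1 / (1 : ℝ) - 1 / 2) with hV
  have hVtop : V ≠ ⊤ :=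
    ENNReal.rpow_ne_top_of_nonneg (by norm_num) (volume_slab_lt_top R a b).ne
  refine ⟨(M : ℝ) * V.toReal, mul_nonneg M.2 ENNReal.toReal_nonneg,
    fun φ hφ hinv h2 S hS => ?_⟩
  have hint := integrableOn_slab hφ hinv h2 y R (b := b) ha
  refine (norm_integral_le_integral_norm _).trans
    ((setIntegral_mono_set hint.norm (Filter.Eventually.of_forall fun p => norm_nonneg _)
      hS.eventuallyLE).trans ?_)
  have hle : eLpNorm (slice φ y) 1 ((volume.prod volume).restrict (slab ι R a b))
      ≤ M * eLpNorm φ 2 D.ν * V := by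
    refine (eLpNorm_le_eLpNorm_mul_rpow_measure_univ (p := 1) (q := 2) (by norm_num)
      (measurable_slice hφ y).aestronglyMeasurable).trans ?_
    rw [Measure.restrict_apply_univ]
    simp only [ENNReal.toReal_one, ENNReal.toReal_ofNat]
    exact mul_le_mul_left (hM φ hφ hinv) _
  rw [eLpNorm_one_eq_lintegral_enorm] at hle
  rw [integral_norm_eq_lintegral_enorm (measurable_slice hφ y).aestronglyMeasurable]
  refine (ENNReal.toReal_mono (ENNReal.mul_ne_top (ENNReal.mul_ne_top ENNReal.coe_ne_top
    h2.eLpNorm_lt_top.ne) hVtop) hle).trans (le_of_eq ?_)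
  simp only [ENNReal.toReal_mul, ENNReal.coe_toReal]
  ring

end Fermat.Agent.LT.Spectral

end
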