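import Fermat.Agent.LT.Spectral.MeanZero

/-!
# The convolution of a cusp function by a compactly supported point-pair invariant, high in a cusp

Coordinates: `(z, r)` with `z : ι → ℂ` and `r : ι → ℝ` positive, hyperbolic measure `dz dr / ∏ r³`.
For `φ` periodic in `z` with mean zero we bound `∫ ∏ k(cosh dist) φ` by
`(∏ r_i) / r_j` times the `L²` norm of `φ` on one period times a window around `r`.
-/

set_option autoImplicit false

noncomputable section

open MeasureTheory Metric Set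
open scoped ENNReal NNReal

namespace Fermat.Agent.LT.Spectral

/-- `cosh` of the hyperbolic distance in the upper half space. -/
def chd (z : ℂ) (r : ℝ) (z' : ℂ) (r' : ℝ) : ℝ := (‖z - z'‖ ^ 2 + r ^ 2 + r' ^ 2) / (2 * r * r')

theorem one_le_chd {z z' : ℂ} {r r' : ℝ} (hr : 0 < r) (hr' : 0 < r') : 1 ≤ chd z r z' r' := by
  rw [chd, le_div_iff₀ (by positivity)]
  nlinarith [sq_nonneg (r - r'), sq_nonneg ‖z - z'‖]

theorem window_of_chd_le {z z' : ℂ} {r r' T : ℝ} (hr : 0 < r) (hr' : 0 < r') (hT : 0 < T)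
    (h : chd z r z' r' ≤ T) : r / (2 * T) ≤ r' ∧ r' ≤ 2 * T * r ∧ ‖z - z'‖ ≤ 2 * T * r := by
  rw [chd, div_le_iff₀ (by positivity)] at h
  have h1 : r' ≤ 2 * T * r := by
    refine le_of_mul_le_mul_right ?_ hr'
    nlinarith [sq_nonneg ‖z - z'‖, sq_nonneg r]
  refine ⟨?_, h1, ?_⟩
  · rw [div_le_iff₀ (by positivity)]
    refine le_of_mul_le_mul_right ?_ hr
    nlinarith [sq_nonneg ‖z - z'‖, sq_nonneg r']
  · refine (pow_le_pow_iff_left₀ (norm_nonneg _) (by positivity) two_ne_zero).mp ?_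
    have : T * (2 * r * r') ≤ T * (2 * r * (2 * T * r)) := by gcongr
    nlinarith [sq_nonneg r, sq_nonneg r']

/-- Variation of a point-pair invariant under a horizontal move by at most `D`. -/
theorem norm_chd_sub_le {k : ℝ → ℂ} {Lk : ℝ≥0} (hk : LipschitzWith Lk k) {T : ℝ} (hT : 0 < T)
    (hsupp : ∀ t, T < t → k t = 0) {D : ℝ} (hD : 0 ≤ D) {z a b : ℂ} {r r' : ℝ} (hr : 0 < r)
    (hr' : 0 < r') (hab : ‖a - b‖ ≤ D) :
    ‖k (chd z r a r') - k (chd z r b r')‖ ≤ Lk * (2 * T * D * (2 * T * r + D) / r ^ 2) := by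
  by_cases h : chd z r a r' ≤ T ∨ chd z r b r' ≤ T
  · have hw : r / (2 * T) ≤ r' ∧ ‖z - a‖ ≤ 2 * T * r + D ∧ ‖z - b‖ ≤ 2 * T * r + D := by
      have h1 : ‖z - a‖ ≤ ‖z - b‖ + ‖a - b‖ := by
        rw [norm_sub_rev a b]
        exact norm_sub_le_norm_sub_add_norm_sub z b a
      have h2 : ‖z - b‖ ≤ ‖z - a‖ + ‖a - b‖ := norm_sub_le_norm_sub_add_norm_sub z a b
      rcases h with h | h <;> obtain ⟨hlo, -, hn⟩ := window_of_chd_le hr hr' hT h <;>
        exact ⟨hlo, by linarith, by linarith⟩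
    obtain ⟨hlo, ha, hb⟩ := hw
    refine (hk.norm_sub_le _ _).trans (mul_le_mul_of_nonneg_left ?_ Lk.2)
    rw [Real.norm_eq_abs, chd, chd, div_sub_div_same, abs_div,
      abs_of_pos (show (0 : ℝ) < 2 * r * r' by positivity)]
    have h3 : |‖z - a‖ - ‖z - b‖| ≤ D := by
      refine (abs_norm_sub_norm_le _ _).trans ?_
      rw [sub_sub_sub_cancel_left, norm_sub_rev]
      exact hab
    have h4 : |(‖z - a‖ ^ 2 + r ^ 2 + r' ^ 2) - (‖z - b‖ ^ 2 + r ^ 2 + r' ^ 2)|
        ≤ 2 * (2 * T * r + D) * D := by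
      rw [show (‖z - a‖ ^ 2 + r ^ 2 + r' ^ 2) - (‖z - b‖ ^ 2 + r ^ 2 + r' ^ 2)
        = (‖z - a‖ + ‖z - b‖) * (‖z - a‖ - ‖z - b‖) by ring, abs_mul]
      refine mul_le_mul ?_ h3 (abs_nonneg _) (by positivity)
      rw [abs_of_nonneg (by positivity)]
      linarith
    have h5 : r ^ 2 / T ≤ 2 * r * r' := by
      rw [div_le_iff₀ hT]
      rw [div_le_iff₀ (by positivity)] at hlo
      nlinarith
    calc |(‖z - a‖ ^ 2 + r ^ 2 + r' ^ 2) - (‖z - b‖ ^ 2 + r ^ 2 + r' ^ 2)| / (2 * r * r')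
        ≤ (2 * (2 * T * r + D) * D) / (r ^ 2 / T) :=
          div_le_div₀ (by positivity) h4 (by positivity) h5
      _ = 2 * T * D * (2 * T * r + D) / r ^ 2 := by field_simp
  · rw [not_or, not_le, not_le] at h
    rw [hsupp _ h.1, hsupp _ h.2, sub_zero, norm_zero]
    positivity

theorem norm_prod_sub_prod_le {ι : Type*} (s : Finset ι) {a b : ι → ℂ} {e : ι → ℝ} {M : ℝ}
    (hM : 1 ≤ M) (ha : ∀ i ∈ s, ‖a i‖ ≤ M) (hb : ∀ i ∈ s, ‖b i‖ ≤ M)
    (he : ∀ i ∈ s, ‖a i - b i‖ ≤ e i) :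
    ‖∏ i ∈ s, a i - ∏ i ∈ s, b i‖ ≤ M ^ s.card * ∑ i ∈ s, e i := by
  classical
  induction s using Finset.induction with
  | empty => simp
  | insert j s hj ih =>
    rw [Finset.forall_mem_insert] at ha hb he
    rw [Finset.prod_insert hj, Finset.prod_insert hj, Finset.sum_insert hj,
      Finset.card_insert_of_notMem hj]
    have ihs := ih ha.2 hb.2 he.2
    have hnn : 0 ≤ ∑ i ∈ s, e i :=
      Finset.sum_nonneg fun i hi => (norm_nonneg _).trans (he.2 i hi)
    have hbprod : ‖∏ i ∈ s, b i‖ ≤ M ^ s.card := by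
      rw [norm_prod]
      exact (Finset.prod_le_prod (fun i _ => norm_nonneg _) fun i hi => hb.2 i hi).trans_eq
        (Finset.prod_const M)
    have hMs : 0 ≤ M ^ s.card := by positivity
    calc ‖a j * ∏ i ∈ s, a i - b j * ∏ i ∈ s, b i‖
        = ‖a j * (∏ i ∈ s, a i - ∏ i ∈ s, b i) + (a j - b j) * ∏ i ∈ s, b i‖ := by ring_nf
      _ ≤ M * (M ^ s.card * ∑ i ∈ s, e i) + e j * M ^ s.card := by
          refine (norm_add_le _ _).trans (add_le_add ?_ ?_) <;> rw [norm_mul]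
          · exact mul_le_mul ha.1 ihs (norm_nonneg _) (by linarith)
          · exact mul_le_mul he.1 hbprod (norm_nonneg _) ((norm_nonneg _).trans he.1)
      _ ≤ M ^ (s.card + 1) * (e j + ∑ i ∈ s, e i) := by
          rw [pow_succ]
          have h0 : 0 ≤ e j := (norm_nonneg _).trans he.1
          nlinarith [mul_nonneg (mul_nonneg h0 hMs) (sub_nonneg.mpr hM)]

variable {ι : Type*} [Fintype ι]

/-- The point-pair invariant on a product of upper half spaces, as a function of the second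
horizontal variable. -/
def hypKernel (k : ι → ℝ → ℂ) (z : ι → ℂ) (r r' : ι → ℝ) (z' : ι → ℂ) : ℂ :=
  ∏ i, k i (chd (z i) (r i) (z' i) (r' i))

/-- The density of the hyperbolic measure. -/
def hypDensity (r : ι → ℝ) : ℝ := ∏ i, ((r i)⁻¹) ^ 3

/-- The window of heights that a kernel supported in `cosh dist ≤ T` sees from `r`. -/
def heightWindow (T : ℝ) (r : ι → ℝ) : Set (ι → ℝ) :=
  Set.Icc (fun i => r i / (2 * T)) (fun i => 2 * T * r i)

theorem hypKernel_eq_zero_of_notMem_window {k : ι → ℝ → ℂ} {T : ℝ} (hT : 0 < T)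
    (hsupp : ∀ i t, T < t → k i t = 0) {z : ι → ℂ} {r r' : ι → ℝ} (hr : ∀ i, 0 < r i)
    (hr' : ∀ i, 0 < r' i) (h : r' ∉ heightWindow T r) (z' : ι → ℂ) :
    hypKernel k z r r' z' = 0 := by
  simp only [heightWindow, Set.mem_Icc, Pi.le_def, not_and_or, not_forall] at h
  rcases h with ⟨i, hi⟩ | ⟨i, hi⟩ <;>
  · refine Finset.prod_eq_zero (Finset.mem_univ i) (hsupp i _ ?_)
    by_contra hle
    obtain ⟨h1, h2, -⟩ := window_of_chd_le (hr i) (hr' i) hT (not_lt.mp hle)
    exact hi (by assumption)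

theorem le_sqrt_mul_of_forall {x Q A : ℝ} (hQ : 0 ≤ Q) (hA : 0 ≤ A)
    (h : ∀ s > 0, 2 * x ≤ Q / s + s * A) : x ≤ √Q * √A := by
  refine le_of_forall_pos_le_add fun e he => ?_
  have hq : √Q ^ 2 = Q := Real.sq_sqrt hQ
  have ha : √A ^ 2 = A := Real.sq_sqrt hA
  have hq0 := Real.sqrt_nonneg Q
  have ha0 := Real.sqrt_nonneg A
  set d : ℝ := e / (√Q + √A + e + 1) with hd
  have hd0 : 0 < d := by positivity
  have hs : 0 < (√Q + d) / (√A + d) := by positivity
  have h' := h _ hs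
  have e1 : Q / ((√Q + d) / (√A + d)) ≤ √Q * (√A + d) := by
    rw [div_div_eq_mul_div, div_le_iff₀ (by positivity)]
    nlinarith [mul_nonneg (mul_nonneg hq0 hd0.le) (show 0 ≤ √A + d by positivity)]
  have e2 : (√Q + d) / (√A + d) * A ≤ (√Q + d) * √A := by
    rw [div_mul_eq_mul_div, div_le_iff₀ (by positivity)]
    nlinarith [mul_nonneg (mul_nonneg (show 0 ≤ √Q + d by positivity) ha0) hd0.le]
  have e3 : d * (√Q + √A) ≤ e := by
    rw [hd, div_mul_eq_mul_div, div_le_iff₀ (by positivity)]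
    nlinarith
  nlinarith

theorem norm_lipschitz_support_le {k : ℝ → ℂ} {Lk : ℝ≥0} (hk : LipschitzWith Lk k) {T : ℝ}
    (hsupp : ∀ t, T < t → k t = 0) (hT : 1 ≤ T) {t : ℝ} (ht : 1 ≤ t) :
    ‖k t‖ ≤ max 1 (Lk * T) := by
  by_cases htT : T < t
  · rw [hsupp t htT, norm_zero]
    exact zero_le_one.trans (le_max_left _ _)
  · have h1 := hk.norm_sub_le t (T + 1)
    rw [hsupp (T + 1) (lt_add_one T), sub_zero, Real.norm_eq_abs] at h1
    refine h1.trans (le_trans (mul_le_mul_of_nonneg_left ?_ Lk.2) (le_max_right _ _))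
    rw [abs_le]
    constructor <;> linarith [not_lt.mp htT]

/-- The kernel varies by `O(1 / r j)` over one period. -/
theorem norm_hypKernel_sub_le {k : ι → ℝ → ℂ} {Lk : ℝ≥0} (hk : ∀ i, LipschitzWith Lk (k i))
    {T : ℝ} (hT : 1 ≤ T) (hsupp : ∀ i t, T < t → k i t = 0) {c C D : ℝ} (hc : 0 < c)
    (hD : 0 ≤ D) {z : ι → ℂ} {r r' : ι → ℝ} (hr : ∀ i, c ≤ r i) (hp : ∀ i, 0 < r' i)
    (hbal : ∀ i l, r i ≤ C * r l) (j : ι) {a b : ι → ℂ} (hab : ‖a - b‖ ≤ D) :
    ‖hypKernel k z r r' a - hypKernel k z r r' b‖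
      ≤ max 1 (Lk * T) ^ Fintype.card ι
          * (Fintype.card ι * (Lk * (2 * T * D * (2 * T + D / c) * C))) / r j := by
  have hr0 : ∀ i, 0 < r i := fun i => hc.trans_le (hr i)
  refine (norm_prod_sub_prod_le Finset.univ
    (e := fun _ => Lk * ((2 * T * D * (2 * T + D / c) * C) / r j)) (le_max_left _ _)
    (fun i _ => norm_lipschitz_support_le (hk i) (hsupp i) hT (one_le_chd (hr0 i) (hp i)))
    (fun i _ => norm_lipschitz_support_le (hk i) (hsupp i) hT (one_le_chd (hr0 i) (hp i)))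
    fun i _ => ?_).trans_eq ?_
  · refine (norm_chd_sub_le (hk i) (by linarith) (hsupp i) hD (hr0 i) (hp i)
      ((norm_le_pi_norm (a - b) i).trans hab)).trans (mul_le_mul_of_nonneg_left ?_ Lk.2)
    have h1 : D / r i ≤ D / c := div_le_div_of_nonneg_left hD hc (hr i)
    have h2 : 1 / r i ≤ C / r j := by
      rw [div_le_div_iff₀ (hr0 i) (hr0 j)]
      linarith [hbal j i]
    have hri := (hr0 i).ne'
    calc 2 * T * D * (2 * T * r i + D) / r i ^ 2
        = 2 * T * D * (2 * T + D / r i) * (1 / r i) := by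
          field_simp
      _ ≤ 2 * T * D * (2 * T + D / c) * (C / r j) :=
          mul_le_mul (mul_le_mul_of_nonneg_left (by linarith) (by positivity)) h2
            (one_div_nonneg.mpr (hr0 i).le) (by positivity)
      _ = _ := by ring
  · rw [Finset.card_univ, Finset.sum_const, Finset.card_univ, nsmul_eq_mul]
    ring

/-- The constant in the bound of one horizontal slice. -/
def sliceConst (ι : Type*) [Fintype ι] (B : Set (ι → ℂ)) (Lk : ℝ≥0) (T D c C : ℝ) : ℝ :=
  (2 * T * C + (D + D) / c) ^ (2 * Fintype.card ι)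
    * (volume (closedBall (0 : ι → ℂ) 1)).toReal
    * (max 1 (Lk * T) ^ Fintype.card ι
        * (Fintype.card ι * (Lk * (2 * T * D * (2 * T + D / c) * C))))
    / (volume B).toReal

/-- The bound on one horizontal slice. -/
theorem norm_slice_le [Nonempty ι] {L : AddSubgroup (ι → ℂ)} [Countable L] {B : Set (ι → ℂ)}
    {D : ℝ} (hfd : IsAddFundamentalDomain L B volume) (hB : B ⊆ closedBall 0 D) (hD : 0 ≤ D)
    (hpos : volume B ≠ 0) {k : ι → ℝ → ℂ} {Lk : ℝ≥0} (hk : ∀ i, LipschitzWith Lk (k i))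
    {T : ℝ} (hT : 1 ≤ T) (hsupp : ∀ i t, T < t → k i t = 0) {c C : ℝ} (hc : 0 < c) (hC : 1 ≤ C)
    {z : ι → ℂ} {r r' : ι → ℝ} (hr : ∀ i, c ≤ r i) (hp : ∀ i, 0 < r' i)
    (hbal : ∀ i l, r i ≤ C * r l) (j : ι) {ψ : (ι → ℂ) → ℂ}
    (hper : ∀ (g : L) (x : ι → ℂ), ψ ((g : ι → ℂ) + x) = ψ x)
    (hint : IntegrableOn ψ B volume) (h0 : ∫ x in B, ψ x = 0) :
    ‖∫ x, hypKernel k z r r' x * ψ x‖
      ≤ sliceConst ι B Lk T D c C * r j ^ (2 * Fintype.card ι - 1) * ∫ x in B, ‖ψ x‖ := by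
  set n := Fintype.card ι with hn
  have hn1 : 1 ≤ n := Fintype.card_pos
  have hr0 : ∀ i, 0 < r i := fun i => hc.trans_le (hr i)
  have hrjpos : 0 < r j := hr0 j
  have hmBpos : 0 < (volume B).toReal :=
    ENNReal.toReal_pos hpos (measure_mono hB |>.trans_lt measure_closedBall_lt_top).ne
  set E₀ : ℝ := max 1 (Lk * T) ^ n * (n * (Lk * (2 * T * D * (2 * T + D / c) * C))) with hE₀
  have hcont : Continuous (hypKernel k z r r') := by
    refine continuous_finsetProd _ fun i _ => (hk i).continuous.comp ?_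
    unfold chd
    fun_prop
  have hsup : ∀ x, 2 * T * C * r j < dist x z → hypKernel k z r r' x = 0 := by
    intro x hx
    obtain ⟨i, hi⟩ : ∃ i, 2 * T * C * r j < dist (x i) (z i) := by
      by_contra hall
      push Not at hall
      exact absurd ((dist_pi_le_iff (by positivity)).mpr hall) (not_le.mpr hx)
    refine Finset.prod_eq_zero (Finset.mem_univ i) (hsupp i _ ?_)
    by_contra hle
    obtain ⟨-, -, h3⟩ := window_of_chd_le (hr0 i) (hp i) (by linarith) (not_lt.mp hle)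
    rw [dist_eq_norm, norm_sub_rev] at hi
    have := mul_le_mul_of_nonneg_left (hbal i j) (show (0 : ℝ) ≤ 2 * T by linarith)
    linarith
  have hbd : ∀ x, ‖hypKernel k z r r' x‖ ≤ max 1 (Lk * T) ^ n := by
    intro x
    rw [hypKernel, norm_prod]
    exact (Finset.prod_le_prod (fun i _ => norm_nonneg _) fun i _ =>
      norm_lipschitz_support_le (hk i) (hsupp i) hT (one_le_chd (hr0 i) (hp i))).trans_eq
      (Finset.prod_const _)
  have hE₀0 : 0 ≤ E₀ := by positivity
  have h := norm_integral_mul_le_of_mean_zero (z := z) hfd hB hpos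
    measure_closedBall_lt_top.ne hper hint h0 hcont hsup hbd
    (show 0 ≤ E₀ / r j from div_nonneg hE₀0 hrjpos.le)
    (fun a b hab => norm_hypKernel_sub_le hk hT hsupp hc hD hr hp hbal j hab)
  have hvol : (volume (closedBall z (2 * T * C * r j + D + D))).toReal
      = (2 * T * C * r j + D + D) ^ (2 * n) * (volume (closedBall (0 : ι → ℂ) 1)).toReal := by
    rw [Measure.addHaar_closedBall' volume z (by positivity), ENNReal.toReal_mul,
      ENNReal.toReal_ofReal (pow_nonneg (by positivity) _), Module.finrank_pi_fintype]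
    simp [Complex.finrank_real_complex, hn, mul_comm 2]
  rw [hvol, ← le_div_iff₀ hmBpos] at h
  refine h.trans ?_
  have hR : 2 * T * C * r j + D + D ≤ (2 * T * C + (D + D) / c) * r j := by
    rw [add_mul, div_mul_eq_mul_div, add_assoc]
    gcongr
    rw [le_div_iff₀ hc]
    gcongr
    exact hr j
  have hnn : 0 ≤ ∫ x in B, ‖ψ x‖ := integral_nonneg fun _ => norm_nonneg _
  calc (2 * T * C * r j + D + D) ^ (2 * n) * (volume (closedBall (0 : ι → ℂ) 1)).toReal
        * (E₀ / r j) * (∫ x in B, ‖ψ x‖) / (volume B).toReal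
      ≤ ((2 * T * C + (D + D) / c) * r j) ^ (2 * n)
          * (volume (closedBall (0 : ι → ℂ) 1)).toReal
          * (E₀ / r j) * (∫ x in B, ‖ψ x‖) / (volume B).toReal := by
        gcongr
    _ = _ := by
        have hpow : r j ^ (2 * n) = r j ^ (2 * n - 1) * r j := by
          rw [← pow_succ]
          congr 1
          omega
        rw [mul_pow, hpow, sliceConst, ← hn, ← hE₀]
        field_simp

/-- The hyperbolic volume of a window. -/
theorem window_volume_le {T C : ℝ} (hT : 1 ≤ T) {r : ι → ℝ} (hr0 : ∀ i, 0 < r i)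
    (hbal : ∀ i l, r i ≤ C * r l) (j : ι) :
    (volume (heightWindow T r)).toReal * ∏ i, (2 * T / r i) ^ 3
      ≤ (((2 * T) ^ 4 * C ^ 2) / r j ^ 2) ^ Fintype.card ι := by
  rw [heightWindow, Real.volume_Icc_pi_toReal, ← Finset.card_univ, ← Finset.prod_const,
    ← Finset.prod_mul_distrib]
  · refine Finset.prod_le_prod (fun i _ => ?_) fun i _ => ?_
    · have := hr0 i
      have : r i / (2 * T) ≤ 2 * T * r i := by
        rw [div_le_iff₀ (by positivity)]
        nlinarith [sq_nonneg (2 * T - 1)]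
      exact mul_nonneg (by linarith) (by positivity)
    · have hi := hr0 i
      calc (2 * T * r i - r i / (2 * T)) * (2 * T / r i) ^ 3
          ≤ 2 * T * r i * (2 * T / r i) ^ 3 := by
            gcongr
            linarith [div_pos hi (show 0 < 2 * T by linarith)]
        _ = (2 * T) ^ 4 / r i ^ 2 := by field_simp
        _ ≤ (2 * T) ^ 4 * C ^ 2 / r j ^ 2 := by
            rw [div_le_div_iff₀ (by positivity) (pow_pos (hr0 j) 2), mul_assoc]
            gcongr
            rw [← mul_pow]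
            exact pow_le_pow_left₀ (hr0 j).le (hbal j i) 2
  · intro i
    show r i / (2 * T) ≤ 2 * T * r i
    have := hr0 i
    rw [div_le_iff₀ (by positivity)]
    nlinarith [sq_nonneg (2 * T - 1)]

/-- Cauchy-Schwarz against a nonnegative density. -/
theorem integral_density_mul_norm_le {α : Type*} [MeasurableSpace α] {m : Measure α}
    {d : α → ℝ} {f : α → ℂ} (hd : ∀ᵐ p ∂m, 0 ≤ d p) (h0 : Integrable d m)
    (h1 : Integrable (fun p => d p * ‖f p‖) m) (h2 : Integrable (fun p => d p * ‖f p‖ ^ 2) m)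
    {A : ℝ} (hA : ∫ p, d p ∂m ≤ A) :
    ∫ p, d p * ‖f p‖ ∂m ≤ √(∫ p, d p * ‖f p‖ ^ 2 ∂m) * √A := by
  have hQ0 : 0 ≤ ∫ p, d p * ‖f p‖ ^ 2 ∂m :=
    integral_nonneg_of_ae (hd.mono fun p hp => mul_nonneg hp (sq_nonneg _))
  refine le_sqrt_mul_of_forall hQ0 ((integral_nonneg_of_ae hd).trans hA) fun s hs => ?_
  calc 2 * ∫ p, d p * ‖f p‖ ∂m ≤ ∫ p, (d p * ‖f p‖ ^ 2 / s + s * d p) ∂m := by
        rw [← integral_const_mul]
        refine integral_mono_ae (h1.const_mul 2) ((h2.div_const s).add (h0.const_mul s))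
          (hd.mono fun p hp => ?_)
        simp only [Pi.add_apply]
        rw [div_add' _ _ _ hs.ne', le_div_iff₀ hs]
        nlinarith [mul_nonneg hp (sq_nonneg (‖f p‖ - s))]
    _ ≤ (∫ p, d p * ‖f p‖ ^ 2 ∂m) / s + s * A := by
        rw [integral_add (h2.div_const s) (h0.const_mul s), integral_div, integral_const_mul]
        gcongr

/-- The bound high in a balanced cusp. -/
theorem exists_cusp_bound [Nonempty ι] {L : AddSubgroup (ι → ℂ)} [Countable L]
    {B : Set (ι → ℂ)} {D : ℝ} (hfd : IsAddFundamentalDomain L B volume)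
    (hB : B ⊆ closedBall 0 D) (hpos : volume B ≠ 0) {k : ι → ℝ → ℂ} {Lk : ℝ≥0}
    (hk : ∀ i, LipschitzWith Lk (k i)) {T : ℝ} (hT : 1 ≤ T)
    (hsupp : ∀ i t, T < t → k i t = 0) {c C : ℝ} (hc : 0 < c) (hC : 1 ≤ C) :
    ∃ K : ℝ, 0 ≤ K ∧ ∀ φ : (ι → ℂ) × (ι → ℝ) → ℂ, Measurable φ →
      (∀ (g : L) (z : ι → ℂ) (r : ι → ℝ), φ ((g : ι → ℂ) + z, r) = φ (z, r)) →
      (∀ᵐ r' : ι → ℝ, (∀ i, 0 < r' i) → ∫ z in B, φ (z, r') = 0) →
      ∀ (z : ι → ℂ) (r : ι → ℝ), (∀ i, c ≤ r i) → (∀ i l, r i ≤ C * r l) →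
      IntegrableOn (fun p => ‖φ p‖ ^ 2) (B ×ˢ heightWindow T r) (volume.prod volume) →
      ∀ j, ‖∫ r' in heightWindow T r,
          (hypDensity r' : ℂ) * ∫ z', hypKernel k z r r' z' * φ (z', r')‖
        ≤ K * r j ^ (Fintype.card ι - 1) *
            √(∫ p in B ×ˢ heightWindow T r, hypDensity p.2 * ‖φ p‖ ^ 2 ∂volume.prod volume) := by
  set n := Fintype.card ι with hn
  have hn1 : 1 ≤ n := Fintype.card_pos
  have hD : 0 ≤ D := by
    obtain ⟨b, hb⟩ := nonempty_of_measure_ne_zero hpos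
    exact dist_nonneg.trans (mem_closedBall.mp (hB hb))
  set mB : ℝ := (volume B).toReal with hmB
  set W₁ : ℝ := √(mB * ((2 * T) ^ 4 * C ^ 2) ^ n) with hW₁
  set K₀ : ℝ := sliceConst ι B Lk T D c C with hK₀
  have hK₀0 : 0 ≤ K₀ := by
    rw [hK₀, sliceConst]
    positivity
  refine ⟨K₀ * W₁, mul_nonneg hK₀0 (Real.sqrt_nonneg _), ?_⟩
  intro φ hφm hper hmean z r hr hbal hL2 j
  have hr0 : ∀ i, 0 < r i := fun i => hc.trans_le (hr i)
  have hmBfin : volume B ≠ ⊤ :=
    (measure_mono hB |>.trans_lt measure_closedBall_lt_top).ne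
  set W := heightWindow T r with hW
  have hWpos : ∀ r' ∈ W, ∀ i, 0 < r' i := fun r' hr' i =>
    (div_pos (hr0 i) (by positivity)).trans_le (hr'.1 i)
  have hWmeas : MeasurableSet W := measurableSet_Icc
  have hdens : ∀ r' ∈ W, 0 ≤ hypDensity r' := fun r' hr' =>
    Finset.prod_nonneg fun i _ => pow_nonneg (inv_nonneg.mpr (hWpos r' hr' i).le) 3
  have hdens_le : ∀ r' ∈ W, hypDensity r' ≤ ∏ i, (2 * T / r i) ^ 3 := fun r' hr' =>
    Finset.prod_le_prod (fun i _ => pow_nonneg (inv_nonneg.mpr (hWpos r' hr' i).le) 3) fun i _ =>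
      pow_le_pow_left₀ (inv_nonneg.mpr (hWpos r' hr' i).le)
        (by rw [← inv_div]; exact inv_anti₀ (div_pos (hr0 i) (by positivity)) (hr'.1 i)) 3
  set ν : Measure (ι → ℝ) := volume.restrict W with hν
  set μB : Measure (ι → ℂ) := volume.restrict B with hμB
  have : IsFiniteMeasure μB := ⟨by rwa [hμB, Measure.restrict_apply_univ, lt_top_iff_ne_top]⟩
  have : IsFiniteMeasure ν :=
    ⟨by rw [hν, Measure.restrict_apply_univ]; exact isCompact_Icc.measure_lt_top⟩
  have hprod : (volume.prod volume).restrict (B ×ˢ W) = μB.prod ν :=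
    (Measure.prod_restrict B W).symm
  rw [IntegrableOn, hprod] at hL2
  rw [hprod]
  have hφ1 : Integrable φ (μB.prod ν) :=
    ((memLp_two_iff_integrable_sq_norm hφm.aestronglyMeasurable).mpr hL2).integrable one_le_two
  have hslice : ∀ᵐ r' ∂ν, IntegrableOn (fun z' => φ (z', r')) B volume := hφ1.prod_left_ae
  have hW' : ∀ᵐ p ∂μB.prod ν, p.2 ∈ W :=
    Measure.quasiMeasurePreserving_snd.ae (ae_restrict_mem hWmeas)
  set P₀ : ℝ := ∏ i, (2 * T / r i) ^ 3 with hP₀
  have hdb : ∀ᵐ p ∂μB.prod ν, ‖hypDensity p.2‖ ≤ P₀ := hW'.mono fun p hp => by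
    rw [Real.norm_eq_abs, abs_of_nonneg (hdens _ hp)]
    exact hdens_le _ hp
  have hdensm : Measurable (hypDensity : (ι → ℝ) → ℝ) :=
    Finset.measurable_prod _ fun i _ => ((measurable_pi_apply i).inv).pow_const 3
  have hdm : AEStronglyMeasurable (fun p : (ι → ℂ) × (ι → ℝ) => hypDensity p.2) (μB.prod ν) :=
    (hdensm.comp measurable_snd).aestronglyMeasurable
  have hi0 : Integrable (fun p : (ι → ℂ) × (ι → ℝ) => hypDensity p.2) (μB.prod ν) :=
    (integrable_const P₀).mono' hdm hdb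
  have hi1 : Integrable (fun p => hypDensity p.2 * ‖φ p‖) (μB.prod ν) :=
    hφ1.norm.bdd_mul hdm hdb
  have hi2 : Integrable (fun p => hypDensity p.2 * ‖φ p‖ ^ 2) (μB.prod ν) := hL2.bdd_mul hdm hdb
  set A₀ : ℝ := mB * (((2 * T) ^ 4 * C ^ 2) / r j ^ 2) ^ n with hA₀
  have hvolW : ∫ p, hypDensity p.2 ∂μB.prod ν ≤ A₀ := by
    refine (integral_mono_ae hi0 (integrable_const P₀)
      (hW'.mono fun p hp => hdens_le _ hp)).trans ?_
    rw [integral_const, smul_eq_mul, ← univ_prod_univ, Measure.real, Measure.prod_prod,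
      hμB, hν, Measure.restrict_apply_univ, Measure.restrict_apply_univ, ENNReal.toReal_mul,
      mul_assoc, hA₀]
    exact mul_le_mul_of_nonneg_left (window_volume_le hT hr0 hbal j) ENNReal.toReal_nonneg
  have hCS := integral_density_mul_norm_le (hW'.mono fun p hp => hdens _ hp) hi0 hi1 hi2 hvolW
  have hmean' : ∀ᵐ r' ∂ν, (∀ i, 0 < r' i) → ∫ z' in B, φ (z', r') = 0 := ae_restrict_of_ae hmean
  have hgi : Integrable (fun r' => hypDensity r' * ∫ z' in B, ‖φ (z', r')‖) ν := by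
    have h := hi1.integral_prod_right
    simpa [integral_const_mul] using h
  calc ‖∫ r' in W, (hypDensity r' : ℂ) * ∫ z', hypKernel k z r r' z' * φ (z', r')‖
      ≤ ∫ r' in W, K₀ * r j ^ (2 * n - 1) * (hypDensity r' * ∫ z' in B, ‖φ (z', r')‖) := by
        refine norm_integral_le_of_norm_le (hgi.const_mul _) ?_
        filter_upwards [ae_restrict_mem hWmeas, hslice, hmean'] with r' hr' hint h0
        rw [norm_mul, Complex.norm_real, Real.norm_eq_abs, abs_of_nonneg (hdens _ hr'),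
          mul_left_comm (K₀ * r j ^ (2 * n - 1))]
        exact mul_le_mul_of_nonneg_left
          (norm_slice_le hfd hB hD hpos hk hT hsupp hc hC hr (hWpos r' hr') hbal j
            (fun g x => hper g x r') hint (h0 (hWpos r' hr'))) (hdens _ hr')
    _ = K₀ * r j ^ (2 * n - 1) * ∫ p, hypDensity p.2 * ‖φ p‖ ∂μB.prod ν := by
        rw [integral_const_mul, integral_prod_symm _ hi1]
        simp only [integral_const_mul]
        rfl
    _ ≤ K₀ * r j ^ (2 * n - 1) * (√(∫ p, hypDensity p.2 * ‖φ p‖ ^ 2 ∂μB.prod ν) * √A₀) :=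
        mul_le_mul_of_nonneg_left hCS (mul_nonneg hK₀0 (pow_nonneg (hr0 j).le _))
    _ = _ := by
        have hA : √A₀ = W₁ / r j ^ n := by
          rw [hA₀, hW₁, div_pow, ← pow_mul, ← mul_div_assoc,
            Real.sqrt_div' _ (pow_nonneg (hr0 j).le _), mul_comm 2 n, pow_mul,
            Real.sqrt_sq (pow_nonneg (hr0 j).le _)]
        have hpow : r j ^ (2 * n - 1) = r j ^ (n - 1) * r j ^ n := by
          rw [← pow_add]
          congr 1
          omega
        have := pow_pos (hr0 j) n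
        rw [hA, hpow]
        field_simp

end Fermat.Agent.LT.Spectral
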