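import Fermat.Agent.LT.Spectral.Model
import Mathlib.MeasureTheory.Integral.Marginal

/-!
# Coordinates on the product of upper half spaces

`(z, r) : (ι → ℂ) × (ι → ℝ)` on the positive cone, with density `∏ r⁻³`.
-/

set_option autoImplicit false

noncomputable section

open MeasureTheory Set
open scoped ENNReal

namespace Fermat.Agent.LT.Spectral

open Fermat.Agent.LT.Adelic

theorem lintegral_pi_prod {ι : Type*} [Fintype ι] {E : ι → Type*} [∀ i, MeasurableSpace (E i)]
    (μ : ∀ i, Measure (E i)) [∀ i, SigmaFinite (μ i)] {f : ∀ i, E i → ℝ≥0∞}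
    (hf : ∀ i, Measurable (f i)) :
    ∫⁻ x, ∏ i, f i (x i) ∂Measure.pi μ = ∏ i, ∫⁻ a, f i a ∂μ i := by
  classical
  by_cases hne : Nonempty (∀ i, E i)
  swap
  · rw [not_nonempty_iff] at hne
    obtain ⟨i, hi⟩ := isEmpty_pi.mp hne
    rw [lintegral_of_isEmpty,
      Finset.prod_eq_zero (Finset.mem_univ i) (by rw [lintegral_of_isEmpty])]
  obtain ⟨x₀⟩ := hne
  have hm : Measurable fun x : ∀ i, E i => ∏ i, f i (x i) :=
    Finset.measurable_prod _ fun i _ => (hf i).comp (measurable_pi_apply i)
  have key : ∀ s : Finset ι, ∀ x : ∀ i, E i,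
      lmarginal μ s (fun x => ∏ i, f i (x i)) x
        = (∏ i ∈ s, ∫⁻ a, f i a ∂μ i) * ∏ i ∈ sᶜ, f i (x i) := by
    intro s
    induction s using Finset.induction with
    | empty => intro x; simp
    | insert j s hj ih =>
      intro x
      rw [lmarginal_insert _ hm hj]
      simp only [ih]
      have hsc : sᶜ = insert j (insert j s)ᶜ := by
        ext i
        by_cases h : i = j <;> simp [h, hj]
      rw [hsc, Finset.prod_insert hj]
      simp only [Finset.prod_insert (show j ∉ (insert j s)ᶜ by simp)]
      have hrest : ∀ a, ∏ i ∈ (insert j s)ᶜ, f i (Function.update x j a i)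
          = ∏ i ∈ (insert j s)ᶜ, f i (x i) := fun a =>
        Finset.prod_congr rfl fun i hi => by
          rw [Function.update_of_ne (fun h => by subst h; simp at hi)]
      simp only [hrest, Function.update_self]
      calc ∫⁻ a, (∏ i ∈ s, ∫⁻ b, f i b ∂μ i) * (f j a * ∏ i ∈ (insert j s)ᶜ, f i (x i)) ∂μ j
          = ∫⁻ a, ((∏ i ∈ s, ∫⁻ b, f i b ∂μ i) * ∏ i ∈ (insert j s)ᶜ, f i (x i)) * f j a ∂μ j :=
            lintegral_congr fun a => by ring
        _ = _ := by rw [lintegral_const_mul _ (hf j)]; ring
  rw [lintegral_eq_lmarginal_univ x₀, key]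
  simp

theorem pi_withDensity {ι : Type*} [Fintype ι] {E : Type*} [MeasurableSpace E]
    (ν : Measure E) [SigmaFinite ν] {f : E → ℝ≥0∞} (hf : Measurable f)
    [SigmaFinite (ν.withDensity f)] :
    Measure.pi (fun _ : ι => ν.withDensity f)
      = (Measure.pi fun _ : ι => ν).withDensity fun x => ∏ i, f (x i) := by
  refine Measure.pi_eq fun s hs => ?_
  rw [withDensity_apply _ (MeasurableSet.univ_pi hs), Measure.restrict_pi_pi,
    lintegral_pi_prod _ fun _ => hf]
  exact Finset.prod_congr rfl fun i _ => (withDensity_apply _ (hs i)).symm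

variable {ι : Type*} [Fintype ι]

/-- The positive cone in coordinates. -/
def posCone (ι : Type*) : Set ((ι → ℂ) × (ι → ℝ)) := {p | ∀ i, 0 < p.2 i}

theorem measurableSet_posCone : MeasurableSet (posCone ι) := by
  rw [posCone, Set.ofPred_forall]
  exact MeasurableSet.iInter fun i =>
    measurableSet_lt measurable_const ((measurable_pi_apply i).comp measurable_snd)

/-- The chart. -/
def piCoords (τ : ι → HSpace) : (ι → ℂ) × (ι → ℝ) := (fun i => (τ i).z, fun i => (τ i).r)

omit [Fintype ι] in
theorem measurable_piCoords : Measurable (piCoords : (ι → HSpace) → _) :=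
  (MeasurableEquiv.arrowProdEquivProdArrow ℂ ℝ ι).measurable.comp
    (measurable_pi_lambda _ fun i =>
      HSpace.measurableEmbedding_coords.measurable.comp (measurable_pi_apply i))

/-- The density of the hyperbolic measure in coordinates. -/
def hypDensity' (p : (ι → ℂ) × (ι → ℝ)) : ℝ≥0∞ := ∏ i, ENNReal.ofReal ((p.2 i ^ 3)⁻¹)

theorem measurable_hypDensity' : Measurable (hypDensity' : (ι → ℂ) × (ι → ℝ) → ℝ≥0∞) :=
  Finset.measurable_prod _ fun i _ =>
    (((measurable_pi_apply i).comp measurable_snd).pow_const 3).inv.ennreal_ofReal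

theorem map_coords_measure :
    HSpace.measure.map HSpace.coords
      = ((volume : Measure (ℂ × ℝ)).restrict {x | 0 < x.2}).withDensity
          fun x => ENNReal.ofReal ((x.2 ^ 3)⁻¹) := by
  rw [HSpace.measure, HSpace.measurableEmbedding_coords.map_comap, HSpace.range_coords,
    restrict_withDensity (isOpen_lt continuous_const continuous_snd).measurableSet]

/-- Change of variables. -/
theorem lintegral_pi_hspace {F : (ι → ℂ) × (ι → ℝ) → ℝ≥0∞} (hF : Measurable F) :
    ∫⁻ τ, F (piCoords τ) ∂(Measure.pi fun _ : ι => HSpace.measure)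
      = ∫⁻ p in posCone ι, hypDensity' p * F p ∂(volume.prod volume) := by
  let Q : Set (ℂ × ℝ) := {x | 0 < x.2}
  have hden : Measurable fun x : ℂ × ℝ => ENNReal.ofReal ((x.2 ^ 3)⁻¹) :=
    (measurable_snd.pow_const 3).inv.ennreal_ofReal
  have hsf : SigmaFinite (((volume : Measure (ℂ × ℝ)).restrict Q).withDensity
      fun x => ENNReal.ofReal ((x.2 ^ 3)⁻¹)) :=
    SigmaFinite.withDensity_of_ne_top' fun x => ENNReal.ofReal_ne_top
  have hmap : (Measure.pi fun _ : ι => HSpace.measure).map (fun τ i => (τ i).coords)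
      = (((Measure.pi fun _ : ι => (volume : Measure (ℂ × ℝ)))).restrict
          (Set.univ.pi fun _ => Q)).withDensity
          fun x => ∏ i, ENNReal.ofReal (((x i).2 ^ 3)⁻¹) := by
    have : ∀ i : ι, SigmaFinite (HSpace.measure.map HSpace.coords) := fun i => by
      rw [map_coords_measure]
      infer_instance
    rw [Measure.restrict_pi_pi, ← pi_withDensity _ hden, Measure.pi_map_pi (hμ := this)]
    · congr 1
      funext i
      exact map_coords_measure
    · exact fun i => HSpace.measurableEmbedding_coords.measurable.aemeasurable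
  let e := MeasurableEquiv.arrowProdEquivProdArrow ℂ ℝ ι
  have hcm : Measurable fun (τ : ι → HSpace) (i : ι) => (τ i).coords :=
    measurable_pi_lambda _ fun i =>
      HSpace.measurableEmbedding_coords.measurable.comp (measurable_pi_apply i)
  have hG : Measurable fun x : ι → ℂ × ℝ => F (e x) := hF.comp e.measurable
  calc ∫⁻ τ, F (piCoords τ) ∂(Measure.pi fun _ : ι => HSpace.measure)
      = ∫⁻ x, F (e x) ∂(Measure.pi fun _ : ι => HSpace.measure).map
          (fun τ i => (τ i).coords) := (lintegral_map hG hcm).symm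
    _ = ∫⁻ x in Set.univ.pi (fun _ => Q), hypDensity' (e x) * F (e x)
          ∂(Measure.pi fun _ : ι => (volume : Measure (ℂ × ℝ))) := by
        rw [hmap, lintegral_withDensity_eq_lintegral_mul _
          (f := fun x : ι → ℂ × ℝ => ∏ i, ENNReal.ofReal (((x i).2 ^ 3)⁻¹))
          (Finset.measurable_prod _ fun i _ => hden.comp (measurable_pi_apply i)) hG]
        rfl
    _ = ∫⁻ p in posCone ι, hypDensity' p * F p ∂(volume.prod volume) := by
        have hpre : e ⁻¹' posCone ι = Set.univ.pi fun _ => Q := by
          ext x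
          simp [posCone, e, Q, MeasurableEquiv.arrowProdEquivProdArrow,
            Equiv.arrowProdEquivProdArrow]
        rw [← hpre]
        exact (measurePreserving_arrowProdEquivProdArrow ℂ ℝ ι (fun _ => volume)
          (fun _ => volume)).setLIntegral_comp_preimage measurableSet_posCone
          (f := fun p => hypDensity' p * F p) (measurable_hypDensity'.mul hF)

variable {K : Type*} [Field K] [NumberField K] {Φ : Frame K ι} {U : Subgroup (GfK K)}

/-- Integrals on the space in coordinates. -/
theorem lintegral_space {F : Yf U → (ι → ℂ) × (ι → ℝ) → ℝ≥0∞} (hF : ∀ y, Measurable (F y))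
    [Countable (Yf U)] :
    ∫⁻ x, F x.fin (piCoords x.pt) ∂Space.measure Φ U
      = ∑' y : Yf U, ∫⁻ p in posCone ι, hypDensity' p * F y p ∂(volume.prod volume) := by
  rw [Space.lintegral_measure]
  · simp only [Space.fin_mk, Space.pt_mk]
    exact tsum_congr fun y => lintegral_pi_hspace (hF y)
  · exact Space.measurable_iff.mpr fun y => (hF y).comp measurable_piCoords

end Fermat.Agent.LT.Spectral

end
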