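import Fermat.Agent.LT.Spectral.QuotData
import Mathlib.MeasureTheory.Function.AEEqOfIntegral

/-!
# The cusp space

`cuspClasses D` consists of the classes in `L²(D.ν)` with an invariant representative whose
integral over a period vanishes at almost every height, for every finite coordinate.
-/

set_option autoImplicit false

noncomputable section

open MeasureTheory Set Filter Matrix NumberField IsDedekindDomain
open scoped ENNReal MatrixGroups Topology

namespace Fermat.Agent.LT.Spectral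

open Fermat.Agent.LT.Adelic Fermat.Agent.LT.Reduction

variable {K : Type*} [Field K] [NumberField K] {ι : Type*} [Fintype ι] {Φ : Frame K ι}
  {U : Subgroup (GfK K)}

/-- The constant term vanishes at almost every height. -/
def IsCuspidalFn (φ : Space Φ U → ℂ) : Prop :=
  ∀ (y : Yf U) (d : 𝓞 K) (h : IsPeriod U d y), ∀ᵐ r : ι → ℝ, (∀ i, 0 < r i) →
    ∫ z in fundDom Φ d h.ne_zero, slice φ y (z, r) = 0

variable (ι) in
/-- Heights in `[(k+1)⁻¹, k+1]`. -/
def heights (k : ℕ) : Set (ι → ℝ) := Set.univ.pi fun _ => Set.Icc ((k : ℝ) + 1)⁻¹ ((k : ℝ) + 1)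

theorem measurableSet_heights (k : ℕ) : MeasurableSet (heights ι k) :=
  MeasurableSet.univ_pi fun _ => measurableSet_Icc

omit [Fintype ι] in
theorem pos_of_mem_heights {k : ℕ} {r : ι → ℝ} (hr : r ∈ heights ι k) (i : ι) : 0 < r i :=
  lt_of_lt_of_le (by positivity) (hr i (Set.mem_univ i)).1

theorem exists_mem_heights {r : ι → ℝ} (hr : ∀ i, 0 < r i) : ∃ k, r ∈ heights ι k := by
  obtain ⟨k, hk⟩ := exists_nat_ge (∑ i, r i + ∑ i, (r i)⁻¹)
  refine ⟨k, fun i _ => ?_⟩
  have h1 := Finset.single_le_sum (f := r) (fun j _ => (hr j).le) (Finset.mem_univ i)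
  have h2 := Finset.single_le_sum (f := fun j => (r j)⁻¹) (fun j _ => (inv_pos.mpr (hr j)).le)
    (Finset.mem_univ i)
  have h3 : 0 ≤ ∑ i, r i := Finset.sum_nonneg fun j _ => (hr j).le
  have h4 : 0 ≤ ∑ i, (r i)⁻¹ := Finset.sum_nonneg fun j _ => (inv_pos.mpr (hr j)).le
  refine ⟨inv_le_of_inv_le₀ (hr i) ?_, ?_⟩ <;> linarith

/-- To prove something at almost every positive height it suffices to do so on each window. -/
theorem ae_pos_of_forall_heights {P : (ι → ℝ) → Prop}
    (h : ∀ k, ∀ᵐ r ∂(volume : Measure (ι → ℝ)).restrict (heights ι k), P r) :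
    ∀ᵐ r : ι → ℝ, (∀ i, 0 < r i) → P r := by
  have h' : ∀ k, ∀ᵐ r : ι → ℝ, r ∈ heights ι k → P r := fun k =>
    (ae_restrict_iff' (measurableSet_heights k)).mp (h k)
  filter_upwards [ae_all_iff.mpr h'] with r hr hpos
  obtain ⟨k, hk⟩ := exists_mem_heights hpos
  exact hr k hk

variable [Countable (Yf U)] {D : QuotData Φ U}

/-- Square integrable functions are integrable over a period times a window of heights. -/
theorem integrable_fundDom_heights {φ : Space Φ U → ℂ} (hφ : Measurable φ)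
    (hinv : ∀ (g : PGL(2, K)) x, φ (g • x) = φ x) (h2 : MemLp φ 2 D.ν) (y : Yf U) {d : 𝓞 K}
    (hd : d ≠ 0) (k : ℕ) :
    Integrable (slice φ y) (((volume : Measure (ι → ℂ)).restrict (fundDom Φ d hd)).prod
      ((volume : Measure (ι → ℝ)).restrict (heights ι k))) := by
  obtain ⟨R, hR⟩ := exists_fundDom_subset_closedBall (Φ := Φ) hd
  rw [Measure.prod_restrict]
  exact (integrableOn_slab hφ hinv h2 y R (b := (k : ℝ) + 1)
    (by positivity : (0 : ℝ) < ((k : ℝ) + 1)⁻¹)).mono_set (Set.prod_mono hR subset_rfl)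

/-- Almost every horizontal slice is integrable over a period. -/
theorem ae_integrableOn_slice {φ : Space Φ U → ℂ} (hφ : Measurable φ)
    (hinv : ∀ (g : PGL(2, K)) x, φ (g • x) = φ x) (h2 : MemLp φ 2 D.ν) (y : Yf U) {d : 𝓞 K}
    (hd : d ≠ 0) :
    ∀ᵐ r : ι → ℝ, (∀ i, 0 < r i) →
      IntegrableOn (fun z => slice φ y (z, r)) (fundDom Φ d hd) :=
  ae_pos_of_forall_heights fun k => (integrable_fundDom_heights hφ hinv h2 y hd k).prod_left_ae

/-- Being cuspidal only depends on the class of the function. -/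
theorem IsCuspidalFn.congr {φ ψ : Space Φ U → ℂ} (h : φ =ᵐ[Space.measure Φ U] ψ)
    (hφ : IsCuspidalFn φ) : IsCuspidalFn ψ := by
  intro y d hd
  have h1 := ae_slice h y
  have h2 := (Measure.measurePreserving_swap (μ := (volume : Measure (ι → ℝ)))
    (ν := (volume : Measure (ι → ℂ)))).quasiMeasurePreserving.ae h1
  filter_upwards [Measure.ae_ae_of_ae_prod h2, hφ y d hd] with r hr hc hpos
  rw [← hc hpos]
  refine setIntegral_congr_ae (measurableSet_fundDom _) (hr.mono fun z hz _ => ?_)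
  exact (hz fun i => hpos i).symm

omit [Countable (Yf U)] in
theorem isCuspidalFn_zero : IsCuspidalFn (0 : Space Φ U → ℂ) := fun y d h =>
  Eventually.of_forall fun r _ => by simp [slice]

theorem IsCuspidalFn.add {φ ψ : Space Φ U → ℂ} (hφm : Measurable φ) (hψm : Measurable ψ)
    (hφi : ∀ (g : PGL(2, K)) x, φ (g • x) = φ x) (hψi : ∀ (g : PGL(2, K)) x, ψ (g • x) = ψ x)
    (hφ2 : MemLp φ 2 D.ν) (hψ2 : MemLp ψ 2 D.ν) (hφ : IsCuspidalFn φ) (hψ : IsCuspidalFn ψ) :
    IsCuspidalFn (φ + ψ) := by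
  intro y d h
  filter_upwards [hφ y d h, hψ y d h, ae_integrableOn_slice hφm hφi hφ2 y h.ne_zero,
    ae_integrableOn_slice hψm hψi hψ2 y h.ne_zero] with r h1 h2 h3 h4 hpos
  simp only [slice, Pi.add_apply]
  rw [integral_add]
  · exact (congrArg₂ (· + ·) (h1 hpos) (h2 hpos)).trans (add_zero 0)
  · exact h3 hpos
  · exact h4 hpos

omit [Countable (Yf U)] in
theorem IsCuspidalFn.smul {φ : Space Φ U → ℂ} (c : ℂ) (hφ : IsCuspidalFn φ) :
    IsCuspidalFn (c • φ) := by
  intro y d h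
  filter_upwards [hφ y d h] with r h1 hpos
  simp only [slice, Pi.smul_apply, smul_eq_mul]
  rw [integral_const_mul]
  exact mul_eq_zero_of_right c (h1 hpos)

variable (D) in
/-- The cusp space. -/
def cuspClasses : Submodule ℂ (Lp ℂ 2 D.ν) where
  carrier := {f | ∃ φ : Space Φ U → ℂ, Measurable φ ∧
    (∀ (g : PGL(2, K)) (x : Space Φ U), φ (g • x) = φ x) ∧ IsCuspidalFn φ ∧ f =ᵐ[D.ν] φ}
  zero_mem' := ⟨0, measurable_const, fun _ _ => rfl, isCuspidalFn_zero, Lp.coeFn_zero _ _ _⟩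
  add_mem' := by
    rintro f f' ⟨φ, hm, hi, hc, he⟩ ⟨φ', hm', hi', hc', he'⟩
    exact ⟨φ + φ', hm.add hm', fun g x => by simp [hi, hi'],
      hc.add hm hm' hi hi' ((Lp.memLp f).ae_eq he) ((Lp.memLp f').ae_eq he') hc',
      (Lp.coeFn_add f f').trans (he.add he')⟩
  smul_mem' := by
    rintro c f ⟨φ, hm, hi, hc, he⟩
    refine ⟨c • φ, hm.const_smul c, fun g x => by simp [hi], hc.smul c,
      (Lp.coeFn_smul c f).trans ?_⟩
    filter_upwards [he] with x hx
    simp [hx]

omit [Countable (Yf U)] in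
theorem mem_cuspClasses_iff [Countable (Yf U)] {f : Lp ℂ 2 D.ν} :
    f ∈ cuspClasses D ↔ ∃ φ : Space Φ U → ℂ, Measurable φ ∧
      (∀ (g : PGL(2, K)) (x : Space Φ U), φ (g • x) = φ x) ∧ IsCuspidalFn φ ∧ f =ᵐ[D.ν] φ :=
  Iff.rfl

theorem cuspClasses_le_invClasses :
    cuspClasses D ≤ invClasses PGL(2, K) (Space.measure Φ U) D.w := by
  rintro f ⟨φ, hm, hi, -, he⟩
  exact ⟨φ, hm, hi, he⟩

/-- Any invariant representative of a cusp class is cuspidal. -/
theorem isCuspidalFn_of_mem {f : Lp ℂ 2 D.ν} (hf : f ∈ cuspClasses D) {ψ : Space Φ U → ℂ}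
    (hψ : ∀ (g : PGL(2, K)) (x : Space Φ U), ψ (g • x) = ψ x) (he : f =ᵐ[D.ν] ψ) :
    IsCuspidalFn ψ := by
  obtain ⟨φ, hm, hi, hc, he'⟩ := hf
  exact hc.congr (invariant_rep_unique D.isWeight hi hψ (he'.symm.trans he))

/-- The cusp space is closed. -/
theorem isClosed_cuspClasses : IsClosed (cuspClasses D : Set (Lp ℂ 2 D.ν)) := by
  refine IsSeqClosed.isClosed fun f f₀ hf hlim => ?_
  choose φn hmn hin hcn hen using hf
  have h0 : f₀ ∈ invClasses PGL(2, K) (Space.measure Φ U) D.w :=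
    isClosed_invClasses.mem_of_tendsto hlim
      (Eventually.of_forall fun n => cuspClasses_le_invClasses ⟨φn n, hmn n, hin n, hcn n, hen n⟩)
  obtain ⟨φ, hm, hi, he⟩ := h0
  refine ⟨φ, hm, hi, fun y d h => ae_pos_of_forall_heights fun k => ?_, he⟩
  set B := fundDom Φ d h.ne_zero with hB
  obtain ⟨R, hR⟩ := exists_fundDom_subset_closedBall (Φ := Φ) h.ne_zero
  have h2 : MemLp φ 2 D.ν := (Lp.memLp f₀).ae_eq he
  have hint := integrable_fundDom_heights hm hi h2 y h.ne_zero k
  refine ae_eq_zero_of_forall_setIntegral_eq_of_sigmaFinite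
    (fun s _ _ => hint.integral_prod_right.integrableOn) fun s hs _ => ?_
  rw [Measure.restrict_restrict hs]
  set T := s ∩ heights ι k with hT
  have hTsub : T ⊆ heights ι k := Set.inter_subset_right
  have hsub : B ×ˢ T ⊆ slab ι R ((k : ℝ) + 1)⁻¹ ((k : ℝ) + 1) := Set.prod_mono hR hTsub
  have hfub : ∀ χ : Space Φ U → ℂ, Measurable χ → (∀ (g : PGL(2, K)) x, χ (g • x) = χ x) →
      MemLp χ 2 D.ν →
      ∫ p in B ×ˢ T, slice χ y p ∂(volume.prod volume)
        = ∫ r in T, ∫ z in B, slice χ y (z, r) := by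
    intro χ hχm hχi hχ2
    rw [← Measure.prod_restrict, integral_prod_symm]
    rw [Measure.prod_restrict]
    exact (integrableOn_slab hχm hχi hχ2 y R (b := (k : ℝ) + 1) (by positivity)).mono_set hsub
  obtain ⟨M, hM0, hM⟩ := exists_norm_setIntegral_slab_le D y R (b := (k : ℝ) + 1)
    (by positivity : (0 : ℝ) < ((k : ℝ) + 1)⁻¹)
  have hzero : ∀ n, ∫ p in B ×ˢ T, slice (φn n) y p ∂(volume.prod volume) = 0 := by
    intro n
    rw [hfub _ (hmn n) (hin n) ((Lp.memLp (f n)).ae_eq (hen n))]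
    refine integral_eq_zero_of_ae ?_
    filter_upwards [ae_restrict_of_ae (hcn n y d h),
      ae_restrict_mem (hs.inter (measurableSet_heights k))] with r hr hmem
    exact hr fun i => pos_of_mem_heights (hTsub hmem) i
  have hbound : ∀ n, ‖∫ r in T, ∫ z in B, slice φ y (z, r)‖ ≤ M * ‖f n - f₀‖ := by
    intro n
    rw [← hfub φ hm hi h2, ← norm_neg (f n - f₀), neg_sub, Lp.norm_def]
    have hd : MemLp (φ - φn n) 2 D.ν := h2.sub ((Lp.memLp (f n)).ae_eq (hen n))
    have hi' : ∀ (g : PGL(2, K)) x, (φ - φn n) (g • x) = (φ - φn n) x := fun g x => by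
      simp [hi, hin n g x]
    have heq : ∫ p in B ×ˢ T, slice φ y p ∂(volume.prod volume)
        = ∫ p in B ×ˢ T, slice (φ - φn n) y p ∂(volume.prod volume) := by
      have hs1 : slice (φ - φn n) y = fun p => slice φ y p - slice (φn n) y p := rfl
      rw [hs1, integral_sub, hzero n, sub_zero]
      · exact (integrableOn_slab hm hi h2 y R (b := (k : ℝ) + 1) (by positivity)).mono_set hsub
      · exact (integrableOn_slab (hmn n) (hin n) ((Lp.memLp (f n)).ae_eq (hen n)) y R
          (b := (k : ℝ) + 1) (by positivity)).mono_set hsub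
    rw [heq]
    refine (hM _ (hm.sub (hmn n)) hi' hd _ hsub).trans (le_of_eq ?_)
    rw [eLpNorm_congr_ae ((he.symm.sub (hen n).symm).trans (Lp.coeFn_sub f₀ (f n)).symm)]
  have hlim' : Tendsto (fun n => M * ‖f n - f₀‖) atTop (𝓝 0) := by
    simpa using (tendsto_iff_norm_sub_tendsto_zero.mp hlim).const_mul M
  exact norm_le_zero_iff.mp (ge_of_tendsto' hlim' hbound)

instance instCompleteSpaceCusp : CompleteSpace (cuspClasses D) :=
  (isClosed_cuspClasses (D := D)).completeSpace_coe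

instance instSeparableSpaceCusp : TopologicalSpace.SeparableSpace (cuspClasses D) := by
  have : Fact ((2 : ℝ≥0∞) ≠ ⊤) := ⟨ENNReal.ofNat_ne_top⟩
  infer_instance

end Fermat.Agent.LT.Spectral

end
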