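import Mathlib

/-!
# Pairing a function of mean zero on a torus with a slowly varying kernel

If `φ` is periodic under a countable group `L` with fundamental domain `B` of radius `D`, has
integral `0` on `B`, and `κ` is supported in a ball of radius `R` and varies by at most `ε` over
distances `D`, then `∫ κ φ` is at most `(#periods meeting the ball) * ε * ∫_B |φ|`.
-/

set_option autoImplicit false

noncomputable section

open MeasureTheory Metric Set
open scoped ENNReal Pointwise

namespace Fermat.Agent.LT.Spectral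

variable {V : Type*} [NormedAddCommGroup V] [MeasurableSpace V] [BorelSpace V] {μ : Measure V}
  [μ.IsAddLeftInvariant] {L : AddSubgroup V}

omit [MeasurableSpace V] [BorelSpace V] in
theorem vadd_mem_closedBall_of_mem {B : Set V} {D R : ℝ} {z x : V} (hB : B ⊆ closedBall 0 D)
    (hx : x ∈ B) (g : L) (hg : dist (g : V) z ≤ R) : g +ᵥ x ∈ closedBall z (R + D) := by
  rw [mem_closedBall, AddSubgroup.vadd_def, vadd_eq_add]
  have h1 := hB hx
  rw [mem_closedBall, dist_zero_right] at h1
  calc dist ((g : V) + x) z ≤ dist ((g : V) + x) (g : V) + dist (g : V) z := dist_triangle _ _ _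
    _ ≤ R + D := by
      rw [dist_eq_norm, add_sub_cancel_left]
      linarith

/-- The periods that can reach a ball are finite in number, with a volume bound. -/
theorem finite_periods [Countable L] {B : Set V} {D R : ℝ} {z : V}
    (hfd : IsAddFundamentalDomain L B μ) (hB : B ⊆ closedBall 0 D) (hpos : μ B ≠ 0)
    (hfin : μ (closedBall z (R + D)) ≠ ⊤) :
    {g : L | dist (g : V) z ≤ R}.Finite ∧
      ∀ s : Finset L, (∀ g ∈ s, dist (g : V) z ≤ R) →
        (s.card : ℝ≥0∞) * μ B ≤ μ (closedBall z (R + D)) := by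
  have key : ∀ s : Finset L, (∀ g ∈ s, dist (g : V) z ≤ R) →
      (s.card : ℝ≥0∞) * μ B ≤ μ (closedBall z (R + D)) := by
    intro s hs
    have hsub : ∀ g ∈ s, g +ᵥ B ⊆ closedBall z (R + D) := by
      rintro g hg _ ⟨x, hx, rfl⟩
      exact vadd_mem_closedBall_of_mem hB hx g (hs g hg)
    calc (s.card : ℝ≥0∞) * μ B = ∑ g ∈ s, μ (g +ᵥ B) := by
          simp only [measure_vadd, Finset.sum_const, nsmul_eq_mul]
      _ = μ (⋃ g ∈ s, g +ᵥ B) :=
          (measure_biUnion_finset₀ (fun a _ b _ hab => hfd.aedisjoint hab)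
            fun g _ => hfd.nullMeasurableSet_vadd g).symm
      _ ≤ μ (closedBall z (R + D)) := measure_mono (iUnion₂_subset hsub)
  refine ⟨?_, key⟩
  by_contra hinf
  obtain ⟨n, hn⟩ := ENNReal.exists_nat_mul_gt hpos hfin
  obtain ⟨s, hs, hcard⟩ := (Set.not_finite.mp hinf).exists_subset_card_eq n
  have := key s fun g hg => hs hg
  rw [hcard] at this
  exact absurd (hn.trans_le this) (lt_irrefl _)

/-- The main estimate. -/
theorem norm_integral_mul_le_of_mean_zero [Countable L] {B : Set V} {D R ε : ℝ} {z : V}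
    (hfd : IsAddFundamentalDomain L B μ) (hB : B ⊆ closedBall 0 D) (hpos : μ B ≠ 0)
    (hfin : μ (closedBall z (R + D + D)) ≠ ⊤) {φ : V → ℂ}
    (hper : ∀ (g : L) (x : V), φ ((g : V) + x) = φ x) (hint : IntegrableOn φ B μ)
    (hmean : ∫ x in B, φ x ∂μ = 0) {κ : V → ℂ} (hκ : Continuous κ)
    (hsupp : ∀ x, R < dist x z → κ x = 0) {M : ℝ} (hbd : ∀ x, ‖κ x‖ ≤ M) (hε : 0 ≤ ε)
    (hvar : ∀ a b, ‖a - b‖ ≤ D → ‖κ a - κ b‖ ≤ ε) :
    ‖∫ x, κ x * φ x ∂μ‖ * (μ B).toReal
      ≤ (μ (closedBall z (R + D + D))).toReal * ε * ∫ x in B, ‖φ x‖ ∂μ := by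
  obtain ⟨hSfin, hScard⟩ := finite_periods (R := R + D) hfd hB hpos hfin
  set S : Finset L := hSfin.toFinset with hS
  have hnot : ∀ g : L, g ∉ S → ∀ x ∈ B, κ ((g : V) + x) = 0 := by
    intro g hg x hx
    refine hsupp _ ?_
    rw [hS, Set.Finite.mem_toFinset, mem_ofPred_eq, not_le] at hg
    have h1 := hB hx
    rw [mem_closedBall, dist_zero_right] at h1
    have h2 := dist_triangle (g : V) ((g : V) + x) z
    rw [dist_eq_norm (g : V) ((g : V) + x), sub_add_cancel_left, norm_neg] at h2
    linarith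
  -- integrability on the whole space
  have hintg : ∀ g : L, IntegrableOn (fun x => κ x * φ x) (g +ᵥ B) μ := by
    intro g
    have h1 : IntegrableOn φ (g +ᵥ B) μ :=
      (IsAddFundamentalDomain.integrableOn_iff (hfd.vadd_of_comm g) hfd
        (fun g x => hper g x)).mpr hint
    exact Integrable.bdd_mul (c := M) h1 hκ.aestronglyMeasurable.restrict
      (Filter.Eventually.of_forall hbd)
  have hintall : Integrable (fun x => κ x * φ x) μ := by
    rw [← integrableOn_univ]
    refine ((integrableOn_finset_iUnion (s := S)).mpr fun g _ => hintg g).of_ae_sdiff_eq_zero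
      MeasurableSet.univ.nullMeasurableSet ?_
    filter_upwards [hfd.ae_covers] with x hx hmem
    obtain ⟨g, hg⟩ := hx
    by_cases hgS : -g ∈ S
    · refine absurd ?_ hmem.2
      refine mem_iUnion₂.mpr ⟨-g, hgS, ?_⟩
      rw [Set.mem_vadd_set_iff_neg_vadd_mem, neg_neg]
      exact hg
    · have := hnot (-g) hgS _ hg
      rw [AddSubgroup.vadd_def, vadd_eq_add, AddSubgroup.coe_neg, neg_add_cancel_left] at this
      rw [this, zero_mul]
  have hsum : ∫ x, κ x * φ x ∂μ = ∑ g ∈ S, ∫ x in B, κ ((g : V) + x) * φ x ∂μ := by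
    rw [hfd.integral_eq_tsum'' _ hintall, tsum_eq_sum (s := S)]
    · refine Finset.sum_congr rfl fun g _ => integral_congr_ae
        (Filter.Eventually.of_forall fun x => ?_)
      simp only [AddSubgroup.vadd_def, vadd_eq_add, hper]
    · intro g hg
      refine setIntegral_eq_zero_of_ae_eq_zero (Filter.Eventually.of_forall fun x hx => ?_)
      simp only [AddSubgroup.vadd_def, vadd_eq_add, hnot g hg x hx, zero_mul]
  have hterm : ∀ g : L,
      ‖∫ x in B, κ ((g : V) + x) * φ x ∂μ‖ ≤ ε * ∫ x in B, ‖φ x‖ ∂μ := by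
    intro g
    have hi : Integrable (fun x => κ ((g : V) + x) * φ x) (μ.restrict B) :=
      Integrable.bdd_mul (c := M) hint
        (hκ.comp (continuous_const.add continuous_id)).aestronglyMeasurable
        (Filter.Eventually.of_forall fun x => hbd _)
    have heq : ∫ x in B, κ ((g : V) + x) * φ x ∂μ
        = ∫ x in B, (κ ((g : V) + x) - κ (g : V)) * φ x ∂μ := by
      simp_rw [sub_mul]
      rw [integral_sub hi (hint.const_mul _), integral_const_mul, hmean, mul_zero, sub_zero]
    rw [heq, ← integral_const_mul]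
    refine norm_integral_le_of_norm_le (hint.norm.const_mul ε) ?_
    rw [ae_restrict_iff'₀ hfd.nullMeasurableSet]
    refine Filter.Eventually.of_forall fun x hx => ?_
    rw [norm_mul]
    refine mul_le_mul_of_nonneg_right (hvar _ _ ?_) (norm_nonneg _)
    rw [add_sub_cancel_left]
    simpa using hB hx
  have hcard : (S.card : ℝ) * (μ B).toReal ≤ (μ (closedBall z (R + D + D))).toReal := by
    have := ENNReal.toReal_mono hfin (hScard S fun g hg => by
      rw [hS, Set.Finite.mem_toFinset, mem_ofPred_eq] at hg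
      exact hg)
    rwa [ENNReal.toReal_mul, ENNReal.toReal_natCast] at this
  have hnn : 0 ≤ ∫ x in B, ‖φ x‖ ∂μ := integral_nonneg fun x => norm_nonneg _
  calc ‖∫ x, κ x * φ x ∂μ‖ * (μ B).toReal
      ≤ ((S.card : ℝ) * (ε * ∫ x in B, ‖φ x‖ ∂μ)) * (μ B).toReal := by
        refine mul_le_mul_of_nonneg_right ?_ ENNReal.toReal_nonneg
        rw [hsum]
        refine (norm_sum_le _ _).trans ?_
        exact (Finset.sum_le_card_nsmul _ _ _ fun g _ => hterm g).trans_eq (nsmul_eq_mul _ _)
    _ = (S.card : ℝ) * (μ B).toReal * (ε * ∫ x in B, ‖φ x‖ ∂μ) := by ring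
    _ ≤ (μ (closedBall z (R + D + D))).toReal * (ε * ∫ x in B, ‖φ x‖ ∂μ) :=
        mul_le_mul_of_nonneg_right hcard (mul_nonneg hε hnn)
    _ = _ := (mul_assoc _ _ _).symm

end Fermat.Agent.LT.Spectral
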