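import Fermat.Agent.LT.Spectral.Coordinates
import Fermat.Agent.LT.Reduction.Returns
import Mathlib.MeasureTheory.Group.FundamentalDomain

/-!
# Horizontal periods of invariant functions

Every `y : Yf U` is fixed by the unipotents of some lattice `d 𝓞`, so the slice over `y` of an
invariant function is periodic in `z`.
-/

set_option autoImplicit false

noncomputable section

open MeasureTheory Set Matrix NumberField IsDedekindDomain
open scoped ENNReal Pointwise

namespace Fermat.Agent.LT.Spectral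

open Fermat.Agent.LT.Adelic Fermat.Agent.LT.Reduction

variable {K : Type*} [Field K] [NumberField K] {ι : Type*} {Φ : Frame K ι}
  {U : Subgroup (GfK K)}

/-! ### The chart -/

/-- The point with given coordinates (made up where a height is not positive). -/
def ptOf (p : (ι → ℂ) × (ι → ℝ)) : ι → HSpace := fun i =>
  ⟨p.1 i, if 0 < p.2 i then p.2 i else 1, by split_ifs with h <;> [exact h; exact one_pos]⟩

theorem ptOf_z (p : (ι → ℂ) × (ι → ℝ)) (i : ι) : (ptOf p i).z = p.1 i := rfl

theorem ptOf_r {p : (ι → ℂ) × (ι → ℝ)} (hp : p ∈ posCone ι) (i : ι) : (ptOf p i).r = p.2 i :=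
  if_pos (hp i)

theorem ptOf_piCoords (τ : ι → HSpace) : ptOf (piCoords τ) = τ := by
  funext i
  exact HSpace.ext rfl (if_pos (τ i).r_pos)

theorem piCoords_mem_posCone (τ : ι → HSpace) : piCoords τ ∈ posCone ι := fun i => (τ i).r_pos

theorem measurable_ptOf : Measurable (ptOf : (ι → ℂ) × (ι → ℝ) → ι → HSpace) := by
  refine measurable_pi_lambda _ fun i => HSpace.measurable_iff_coords.mpr ?_
  have h2 : Measurable fun p : (ι → ℂ) × (ι → ℝ) => p.2 i :=
    (measurable_pi_apply i).comp measurable_snd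
  exact ((measurable_pi_apply i).comp measurable_fst).prodMk
    (Measurable.ite (measurableSet_lt measurable_const h2) h2 measurable_const)

/-- A function on the space seen in coordinates over `y`. -/
def slice {α : Type*} (φ : Space Φ U → α) (y : Yf U) (p : (ι → ℂ) × (ι → ℝ)) : α :=
  φ (Space.mk (ptOf p) y)

theorem measurable_slice {α : Type*} [MeasurableSpace α] {φ : Space Φ U → α} (hφ : Measurable φ)
    (y : Yf U) : Measurable (slice φ y) :=
  hφ.comp ((Space.measurable_mk y).comp measurable_ptOf)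

theorem slice_piCoords {α : Type*} (φ : Space Φ U → α) (x : Space Φ U) :
    slice φ x.fin (piCoords x.pt) = φ x := by
  rw [slice, ptOf_piCoords, Space.mk_pt_fin]

/-- The integral over the space is the sum of the integrals of the slices. -/
theorem lintegral_space_slice [Fintype ι] [Countable (Yf U)] {f : Space Φ U → ℝ≥0∞}
    (hf : Measurable f) :
    ∫⁻ x, f x ∂Space.measure Φ U
      = ∑' y : Yf U, ∫⁻ p in posCone ι, hypDensity' p * slice f y p ∂(volume.prod volume) := by
  rw [← lintegral_space (Φ := Φ) (F := fun y => slice f y) fun y => measurable_slice hf y]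
  exact lintegral_congr fun x => (slice_piCoords f x).symm

/-- A property holding almost everywhere on the space holds almost everywhere on every slice. -/
theorem ae_slice [Fintype ι] [Countable (Yf U)] {P : Space Φ U → Prop}
    (hP : ∀ᵐ x ∂Space.measure Φ U, P x) (y : Yf U) :
    ∀ᵐ p ∂(volume : Measure (ι → ℂ)).prod (volume : Measure (ι → ℝ)),
      p ∈ posCone ι → P (Space.mk (ptOf p) y) := by
  obtain ⟨A, hA, hAm, hA0⟩ := exists_measurable_superset_of_null (ae_iff.mp hP)
  have hf : Measurable (A.indicator (1 : Space Φ U → ℝ≥0∞)) := measurable_one.indicator hAm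
  have h := lintegral_space_slice (Φ := Φ) hf
  rw [lintegral_indicator_one hAm, hA0, eq_comm, ENNReal.tsum_eq_zero] at h
  have h' := (lintegral_eq_zero_iff
    (measurable_hypDensity'.mul (measurable_slice hf y))).mp (h y)
  rw [Filter.EventuallyEq, ae_restrict_iff' measurableSet_posCone] at h'
  filter_upwards [h'] with p hp hpos
  by_contra hc
  have h1 := hp hpos
  have hmem : Space.mk (Φ := Φ) (ptOf p) y ∈ A := hA hc
  have hd : hypDensity' p ≠ 0 := Finset.prod_ne_zero_iff.mpr fun i _ =>
    (ENNReal.ofReal_pos.mpr (inv_pos.mpr (pow_pos (hpos i) 3))).ne'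
  simp [slice, Set.indicator_of_mem hmem, hd] at h1

/-! ### Translations -/

theorem HSpace.unipotent_smul (t : ℂ) (q : HSpace) :
    (unipotent t • q).z = q.z + t ∧ (unipotent t • q).r = q.r := by
  refine ⟨?_, ?_⟩
  · simp [HSpace.smul_z, HSpace.denSq]
  · simp [HSpace.smul_r, HSpace.denSq, HSpace.absDet, Matrix.det_fin_two]

omit [NumberField K] in
theorem toInf_unipotent (Φ : Frame K ι) (i : ι) (t : K) :
    Φ.toInf i (unipotent t) = unipotent (Φ.emb i t) := by
  refine Units.ext (Matrix.ext fun a b => ?_)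
  simp only [Frame.toInf]
  fin_cases a <;> fin_cases b <;> simp

variable (Φ) in
/-- An element of `K` as a horizontal translation. -/
def transVec (t : K) : ι → ℂ := fun i => Φ.emb i t

theorem unipotent_smul_mk (t : K) (p : (ι → ℂ) × (ι → ℝ)) (y : Yf U) :
    unipotent t • Space.mk (Φ := Φ) (ptOf p) y
      = Space.mk (ptOf (transVec Φ t + p.1, p.2)) (toGf K (unipotent t) • y) := by
  rw [Space.smul_mk]
  refine congrArg (fun τ => Space.mk (Φ := Φ) τ (toGf K (unipotent t) • y)) (funext fun i => ?_)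
  rw [toInf_unipotent]
  obtain ⟨h1, h2⟩ := HSpace.unipotent_smul (Φ.emb i t) (ptOf p i)
  refine HSpace.ext ?_ h2
  rw [h1]
  exact add_comm _ _

/-- The translations by `d 𝓞` fix `y`. -/
structure IsPeriod (U : Subgroup (GfK K)) (d : 𝓞 K) (y : Yf U) : Prop where
  ne_zero : d ≠ 0
  fix : ∀ a : 𝓞 K, toGf K (unipotent ((d * a : 𝓞 K) : K)) • y = y

theorem toGf_unipotent_mem_principalLevel {m a : 𝓞 K} (h : m ∣ a) :
    toGf K (unipotent (a : K)) ∈ principalLevel K m := by
  have key : ∀ b : 𝓞 K, m ∣ b → MatMemMul m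
      (((toGf K (unipotent (b : K)) : GfK K) :
        Matrix (Fin 2) (Fin 2) (FiniteAdeleRing (𝓞 K) K)) - 1) := by
    intro b hb i j
    have hmem : MemMul m (algebraMap K (FiniteAdeleRing (𝓞 K) K) (b : K)) := by
      rw [← IsScalarTower.algebraMap_apply (𝓞 K) K (FiniteAdeleRing (𝓞 K) K) b]
      exact (memMul_algebraMap b).of_dvd hb
    fin_cases i <;> fin_cases j <;> simp [toGf, hmem, memMul_zero_right]
  refine mem_principalLevel.mpr ⟨key a h, ?_⟩
  have hinv : (toGf K (unipotent (a : K)))⁻¹ = toGf K (unipotent ((-a : 𝓞 K) : K)) := by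
    rw [← map_inv]
    refine congrArg _ (Units.ext ?_)
    ext i j
    fin_cases i <;> fin_cases j <;> simp [unipotent]
  rw [hinv]
  exact key (-a) h.neg_right

theorem exists_period (hU : IsLevel U) (y : Yf U) : ∃ d, IsPeriod U d y := by
  obtain ⟨n, hn, hnU, -⟩ := hU
  induction y using QuotientGroup.induction_on with
  | _ g =>
    obtain ⟨m, hm, hconj⟩ := exists_conj_le g⁻¹ hn
    refine ⟨m, hm, fun a => QuotientGroup.eq.mpr (le_levelZ U (hnU ?_))⟩
    have h := hconj _ (inv_mem (toGf_unipotent_mem_principalLevel (Dvd.intro a rfl)))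
    simpa [_root_.mul_inv_rev, mul_assoc] using h

theorem IsPeriod.mul_left {d : 𝓞 K} {y : Yf U} (h : IsPeriod U d y) {e : 𝓞 K} (he : e ≠ 0) :
    IsPeriod U (e * d) y :=
  ⟨mul_ne_zero he h.ne_zero, fun a => by
    rw [mul_comm e d, mul_assoc]
    exact h.fix (e * a)⟩

theorem exists_common_period (hU : IsLevel U) (s : Finset (Yf U)) :
    ∃ d : 𝓞 K, d ≠ 0 ∧ ∀ y ∈ s, IsPeriod U d y := by
  classical
  choose d hd using exists_period hU
  refine ⟨∏ y ∈ s, d y, Finset.prod_ne_zero_iff.mpr fun y _ => (hd y).ne_zero, fun y hy => ?_⟩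
  rw [← Finset.prod_erase_mul _ _ hy]
  exact (hd y).mul_left (Finset.prod_ne_zero_iff.mpr fun z _ => (hd z).ne_zero)

/-! ### The lattice and its fundamental domain -/

variable [Fintype ι]

variable (Φ) in
/-- Multiplication by `d` in every coordinate. -/
def scaleEquiv (d : 𝓞 K) (hd : d ≠ 0) : (ι → ℂ) ≃ₗ[ℝ] (ι → ℂ) :=
  LinearEquiv.ofLinearMap
    (LinearMap.pi fun i => (LinearMap.mulLeft ℝ (Φ.emb i d)).comp (LinearMap.proj i))
    (LinearMap.pi fun i => (LinearMap.mulLeft ℝ (Φ.emb i d)⁻¹).comp (LinearMap.proj i))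
    (LinearMap.ext fun v => funext fun i => by
      simp [show (d : K) ≠ 0 by simpa using hd])
    (LinearMap.ext fun v => funext fun i => by
      simp [show (d : K) ≠ 0 by simpa using hd])

variable (Φ) in
/-- A basis of the lattice of `d 𝓞`. -/
def periodBasis (d : 𝓞 K) (hd : d ≠ 0) :
    Module.Basis (Module.Free.ChooseBasisIndex ℤ (𝓞 K)) ℝ (ι → ℂ) :=
  (isFrame_of_frame Φ).basis.map (scaleEquiv Φ d hd)

variable (Φ) in
/-- The lattice of `d 𝓞` among the translations. -/
def periodLattice (d : 𝓞 K) (hd : d ≠ 0) : AddSubgroup (ι → ℂ) :=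
  (Submodule.span ℤ (Set.range (periodBasis Φ d hd))).toAddSubgroup

variable (Φ) in
/-- A bounded fundamental domain of the lattice of `d 𝓞`. -/
def fundDom (d : 𝓞 K) (hd : d ≠ 0) : Set (ι → ℂ) :=
  ZSpan.fundamentalDomain (periodBasis Φ d hd)

theorem mem_periodLattice {d : 𝓞 K} (hd : d ≠ 0) {v : ι → ℂ} :
    v ∈ periodLattice Φ d hd ↔ ∃ a : 𝓞 K, v = transVec Φ ((d * a : 𝓞 K) : K) := by
  have hr : Set.range (periodBasis Φ d hd) =
      ((scaleEquiv Φ d hd).toLinearMap.restrictScalars ℤ) ''
        Set.range (isFrame_of_frame Φ).basis := by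
    rw [← Set.range_comp]
    rfl
  rw [periodLattice, Submodule.mem_toAddSubgroup, hr, Submodule.span_image, Submodule.mem_map]
  simp only [(isFrame_of_frame Φ).mem_span_basis]
  constructor
  · rintro ⟨u, ⟨a, rfl⟩, rfl⟩
    exact ⟨a, funext fun i => by simp [scaleEquiv, transVec]⟩
  · rintro ⟨a, rfl⟩
    exact ⟨_, ⟨a, rfl⟩, funext fun i => by simp [scaleEquiv, transVec]⟩

instance (d : 𝓞 K) (hd : d ≠ 0) : Countable (periodLattice Φ d hd) :=
  inferInstanceAs (Countable (Submodule.span ℤ (Set.range (periodBasis Φ d hd))))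

theorem isAddFundamentalDomain_fundDom {d : 𝓞 K} (hd : d ≠ 0) :
    IsAddFundamentalDomain (periodLattice Φ d hd) (fundDom Φ d hd) volume :=
  ZSpan.isAddFundamentalDomain' _ _

theorem measurableSet_fundDom {d : 𝓞 K} (hd : d ≠ 0) : MeasurableSet (fundDom Φ d hd) :=
  ZSpan.fundamentalDomain_measurableSet _

theorem exists_fundDom_subset_closedBall {d : 𝓞 K} (hd : d ≠ 0) :
    ∃ D : ℝ, fundDom Φ d hd ⊆ Metric.closedBall 0 D :=
  (ZSpan.fundamentalDomain_isBounded _).subset_closedBall 0

theorem volume_fundDom_ne_zero {d : 𝓞 K} (hd : d ≠ 0) : volume (fundDom Φ d hd) ≠ 0 :=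
  ZSpan.measure_fundamentalDomain_ne_zero _

/-- Slices of invariant functions are periodic. -/
theorem slice_periodic {α : Type*} {φ : Space Φ U → α}
    (hφ : ∀ (g : GL (Fin 2) K) (x : Space Φ U), φ (g • x) = φ x) {d : 𝓞 K} {y : Yf U}
    (h : IsPeriod U d y) (v : periodLattice Φ d h.ne_zero) (z : ι → ℂ) (r : ι → ℝ) :
    slice φ y ((v : ι → ℂ) + z, r) = slice φ y (z, r) := by
  obtain ⟨a, ha⟩ := (mem_periodLattice h.ne_zero).mp v.2
  have h1 := hφ (unipotent ((d * a : 𝓞 K) : K)) (Space.mk (ptOf (z, r)) y)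
  rw [unipotent_smul_mk, h.fix, ← ha] at h1
  exact h1

/-- The integral of a periodic function over a translated fundamental domain. -/
theorem setIntegral_fundDom_add {d : 𝓞 K} (hd : d ≠ 0) {f : (ι → ℂ) → ℂ}
    (hf : ∀ (v : periodLattice Φ d hd) (z : ι → ℂ), f ((v : ι → ℂ) + z) = f z) (u : ι → ℂ) :
    ∫ z in fundDom Φ d hd, f (u + z) = ∫ z in fundDom Φ d hd, f z := by
  have hfd := isAddFundamentalDomain_fundDom (Φ := Φ) hd
  have h := (hfd.vadd_of_comm u).setIntegral_eq hfd (f := f) fun v z => hf v z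
  rw [← h, ← Set.image_vadd,
    (measurePreserving_vadd u (volume : Measure (ι → ℂ))).setIntegral_image_emb
      (measurableEmbedding_const_vadd u)]
  simp only [vadd_eq_add]

end Fermat.Agent.LT.Spectral

end
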