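import Mathlib

/-!
# Hilbert-Schmidt operators given by a square integrable family of rows

An operator `E → L²(X)` of the form `e ↦ (x ↦ ⟪r x, e⟫)` with `r ∈ L²(X; E)`.  For two such
operators the trace of `(rowOp r)† (rowOp s)` is `∫ ⟪s x, r x⟫`, and an eigenvalue
`c ≠ 0` has multiplicity at most `∫ ‖r x‖² / ‖c‖²`.
-/

set_option autoImplicit false

noncomputable section

open MeasureTheory Filter Topology
open scoped ENNReal InnerProductSpace ComplexConjugate

namespace Fermat.Agent.LT.Spectral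

variable {X : Type*} [MeasurableSpace X] {μ : Measure X}
variable {E : Type*} [NormedAddCommGroup E] [InnerProductSpace ℂ E]

/-- An orthonormal family in a separable space is countable. -/
theorem orthonormal_countable [TopologicalSpace.SeparableSpace E] {ι : Type*} {v : ι → E}
    (hv : Orthonormal ℂ v) : Countable ι := by
  have hd : Pairwise (Function.onFun Disjoint fun i => Metric.ball (v i) (1 / 2)) := by
    intro i j hij
    refine Metric.ball_disjoint_ball ?_
    have h2 : ‖v i - v j‖ ^ 2 = 2 := by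
      rw [@norm_sub_sq ℂ, hv.1 i, hv.1 j, hv.2 hij]
      norm_num
    rw [dist_eq_norm]
    nlinarith [norm_nonneg (v i - v j)]
  exact hd.countable_of_isOpen_disjoint (fun _ => Metric.isOpen_ball)
    fun i => ⟨v i, Metric.mem_ball_self (by norm_num)⟩

theorem exists_countable_hilbertBasis (E : Type*) [NormedAddCommGroup E]
    [InnerProductSpace ℂ E] [CompleteSpace E] [TopologicalSpace.SeparableSpace E] :
    ∃ (w : Set E) (b : HilbertBasis w ℂ E), Countable w ∧ ⇑b = ((↑) : w → E) := by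
  obtain ⟨w, b, hb⟩ := exists_hilbertBasis ℂ E
  exact ⟨w, b, orthonormal_countable b.orthonormal, hb⟩

variable {ι : Type*} [Countable ι]

/-- A family is strongly measurable as soon as its coordinates in a countable basis are. -/
theorem stronglyMeasurable_of_coord (b : HilbertBasis ι ℂ E) {r : X → E}
    (h : ∀ i, Measurable fun x => ⟪b i, r x⟫_ℂ) : StronglyMeasurable r := by
  refine stronglyMeasurable_of_tendsto (atTop : Filter (Finset ι))
    (f := fun s x => ∑ i ∈ s, ⟪b i, r x⟫_ℂ • b i) (fun s => ?_) ?_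
  · exact Finset.stronglyMeasurable_fun_sum _ fun i _ =>
      (h i).stronglyMeasurable.smul_const (b i)
  · rw [tendsto_pi_nhds]
    intro x
    have := b.hasSum_repr (r x)
    simp only [b.repr_apply_apply] at this
    exact this

/-- Parseval, integrated. -/
theorem hasSum_integral_inner_mul_inner (b : HilbertBasis ι ℂ E) {r s : X → E}
    (hr : MemLp r 2 μ) (hs : MemLp s 2 μ) :
    HasSum (fun i => ∫ x, ⟪r x, b i⟫_ℂ * ⟪b i, s x⟫_ℂ ∂μ) (∫ x, ⟪r x, s x⟫_ℂ ∂μ) := by
  have hpars : ∀ y : E, HasSum (fun i => ‖⟪b i, y⟫_ℂ‖ ^ 2) (‖y‖ ^ 2) := by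
    intro y
    have h := (b.hasSum_inner_mul_inner y y).mapL Complex.reCLM
    simp only [Complex.reCLM_apply, inner_self_eq_norm_sq_to_K] at h
    convert h using 1
    · funext i
      rw [← inner_conj_symm y (b i), mul_comm, Complex.mul_conj, Complex.ofReal_re,
        Complex.normSq_eq_norm_sq]
    · norm_cast
  refine hasSum_integral_of_dominated_convergence
    (fun i x => (‖⟪b i, r x⟫_ℂ‖ ^ 2 + ‖⟪b i, s x⟫_ℂ‖ ^ 2) / 2) (fun i => ?_) (fun i => ?_) ?_ ?_ ?_
  · exact (hr.aestronglyMeasurable.inner aestronglyMeasurable_const).mul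
      (aestronglyMeasurable_const.inner hs.aestronglyMeasurable)
  · refine Eventually.of_forall fun x => ?_
    rw [norm_mul, norm_inner_symm (r x) (b i)]
    nlinarith [sq_nonneg (‖⟪b i, r x⟫_ℂ‖ - ‖⟪b i, s x⟫_ℂ‖)]
  · exact Eventually.of_forall fun x => ((hpars (r x)).add (hpars (s x))).summable.div_const _
  · have heq : (fun x => ∑' i, (‖⟪b i, r x⟫_ℂ‖ ^ 2 + ‖⟪b i, s x⟫_ℂ‖ ^ 2) / 2)
        = fun x => (‖r x‖ ^ 2 + ‖s x‖ ^ 2) / 2 := by
      funext x
      exact (((hpars (r x)).add (hpars (s x))).div_const 2).tsum_eq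
    rw [heq]
    exact (hr.norm.integrable_sq.add hs.norm.integrable_sq).div_const _
  · exact Eventually.of_forall fun x => b.hasSum_inner_mul_inner (r x) (s x)

omit [Countable ι] in
theorem memLp_inner_const {r : X → E} (hr : MemLp r 2 μ) (e : E) :
    MemLp (fun x => ⟪r x, e⟫_ℂ) 2 μ := by
  refine MemLp.of_le_mul (c := ‖e‖) hr (hr.aestronglyMeasurable.inner aestronglyMeasurable_const)
    (Eventually.of_forall fun x => ?_)
  rw [mul_comm]
  exact norm_inner_le_norm _ _

/-- The operator with rows `r`. -/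
def rowOp (r : Lp E 2 μ) : E →L[ℂ] Lp ℂ 2 μ :=
  LinearMap.mkContinuous
    { toFun := fun e => (memLp_inner_const (Lp.memLp r) e).toLp _
      map_add' := fun e e' => by
        rw [← MemLp.toLp_add]
        exact MemLp.toLp_congr _ _ (Eventually.of_forall fun x => inner_add_right _ _ _)
      map_smul' := fun c e => by
        rw [RingHom.id_apply, ← MemLp.toLp_const_smul]
        exact MemLp.toLp_congr _ _ (Eventually.of_forall fun x => inner_smul_right _ _ _) }
    ‖r‖ fun e => by
      rw [mul_comm]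
      refine Lp.norm_le_mul_norm_of_ae_le_mul ?_
      filter_upwards [(memLp_inner_const (Lp.memLp r) e).coeFn_toLp] with x hx
      show ‖((memLp_inner_const (Lp.memLp r) e).toLp _ : Lp ℂ 2 μ) x‖ ≤ _
      rw [hx, mul_comm]
      exact norm_inner_le_norm _ _

omit [Countable ι] in
theorem coeFn_rowOp (r : Lp E 2 μ) (e : E) :
    rowOp r e =ᵐ[μ] fun x => ⟪r x, e⟫_ℂ :=
  (memLp_inner_const (Lp.memLp r) e).coeFn_toLp

/-- The trace formula `∑ ⟪rowOp r bᵢ, rowOp s bᵢ⟫ = ∫ ⟪s x, r x⟫`. -/
theorem hasSum_inner_rowOp (b : HilbertBasis ι ℂ E) (r s : Lp E 2 μ) :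
    HasSum (fun i => ⟪rowOp r (b i), rowOp s (b i)⟫_ℂ) (∫ x, ⟪s x, r x⟫_ℂ ∂μ) := by
  convert hasSum_integral_inner_mul_inner b (Lp.memLp s) (Lp.memLp r) using 1
  funext i
  rw [L2.inner_def]
  refine integral_congr_ae ?_
  filter_upwards [coeFn_rowOp r (b i), coeFn_rowOp s (b i)] with x hx hy
  rw [hx, hy, RCLike.inner_apply, inner_conj_symm]

/-- The trace of `(rowOp r)† ∘ rowOp s`, in any countable Hilbert basis. -/
theorem hasSum_inner_adjoint_rowOp [CompleteSpace E] (b : HilbertBasis ι ℂ E) (r s : Lp E 2 μ) :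
    HasSum (fun i => ⟪b i, ((rowOp r).adjoint.comp (rowOp s)) (b i)⟫_ℂ)
      (∫ x, ⟪s x, r x⟫_ℂ ∂μ) := by
  simp only [ContinuousLinearMap.comp_apply, ContinuousLinearMap.adjoint_inner_right]
  exact hasSum_inner_rowOp b r s

omit [Countable ι] in
theorem norm_sq_eq_integral {G : Type*} [NormedAddCommGroup G] [InnerProductSpace ℂ G]
    (f : Lp G 2 μ) : ‖f‖ ^ 2 = ∫ x, ‖f x‖ ^ 2 ∂μ := by
  rw [← @inner_self_eq_norm_sq ℂ, L2.inner_def, ← integral_re (L2.integrable_inner f f)]
  exact integral_congr_ae (Eventually.of_forall fun x => inner_self_eq_norm_sq _)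

omit [Countable ι] in
/-- Bessel, integrated: the Hilbert-Schmidt bound on a finite orthonormal family. -/
theorem sum_norm_rowOp_sq_le {κ : Type*} [Fintype κ] {e : κ → E} (he : Orthonormal ℂ e)
    (r : Lp E 2 μ) : ∑ k, ‖rowOp r (e k)‖ ^ 2 ≤ ‖r‖ ^ 2 := by
  calc ∑ k, ‖rowOp r (e k)‖ ^ 2
      = ∑ k, ∫ x, ‖⟪e k, r x⟫_ℂ‖ ^ 2 ∂μ := by
        refine Finset.sum_congr rfl fun k _ => ?_
        rw [norm_sq_eq_integral]
        refine integral_congr_ae ?_
        filter_upwards [coeFn_rowOp r (e k)] with x hx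
        rw [hx, norm_inner_symm]
    _ = ∫ x, ∑ k, ‖⟪e k, r x⟫_ℂ‖ ^ 2 ∂μ := by
        rw [integral_finsetSum]
        intro k _
        have h := (memLp_inner_const (Lp.memLp r) (e k)).norm.integrable_sq
        simpa [norm_inner_symm (e k)] using h
    _ ≤ ∫ x, ‖r x‖ ^ 2 ∂μ := by
        refine integral_mono_of_nonneg (Eventually.of_forall fun x => ?_)
          (Lp.memLp r).norm.integrable_sq (Eventually.of_forall fun x => ?_)
        · exact Finset.sum_nonneg fun k _ => sq_nonneg _
        · exact he.sum_inner_products_le (s := Finset.univ) (r x)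
    _ = ‖r‖ ^ 2 := (norm_sq_eq_integral r).symm

omit [Countable ι] in
/-- Eigenspaces for nonzero eigenvalues of an operator with `L²` rows are finite dimensional. -/
theorem finiteDimensional_eigen (r : Lp E 2 μ) (J : E →ₗᵢ[ℂ] Lp ℂ 2 μ) {c : ℂ} (hc : c ≠ 0)
    (V : Submodule ℂ E) (hV : ∀ e ∈ V, rowOp r e = c • J e) :
    FiniteDimensional ℂ V := by
  have key : ∀ {κ : Type} [Fintype κ] (e : κ → E), Orthonormal ℂ e → (∀ k, e k ∈ V) →
      (Fintype.card κ : ℝ) ≤ ‖r‖ ^ 2 / ‖c‖ ^ 2 := by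
    intro κ _ e he hmem
    rw [le_div_iff₀ (pow_pos (norm_pos_iff.mpr hc) 2)]
    refine le_of_eq_of_le ?_ (sum_norm_rowOp_sq_le he r)
    have : ∀ k, ‖rowOp r (e k)‖ ^ 2 = ‖c‖ ^ 2 := fun k => by
      rw [hV _ (hmem k), norm_smul, J.norm_map, he.1 k, mul_one]
    simp [this]
  by_contra hfin
  obtain ⟨n, hn⟩ := exists_nat_gt (‖r‖ ^ 2 / ‖c‖ ^ 2)
  obtain ⟨v, hv⟩ : ∃ v : Fin n → V, LinearIndependent ℂ v := by
    have hrank : (n : Cardinal) ≤ Module.rank ℂ V := by
      have : Cardinal.aleph0 ≤ Module.rank ℂ V := by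
        by_contra h
        exact hfin (Module.rank_lt_aleph0_iff.mp (not_le.mp h))
      exact le_trans Cardinal.natCast_lt_aleph0.le this
    exact exists_linearIndependent_of_le_rank hrank
  have := key (fun k => ((InnerProductSpace.gramSchmidtNormed ℂ v k : V) : E))
    ((InnerProductSpace.gramSchmidtNormed_orthonormal hv).comp_linearIsometry V.subtypeₗᵢ)
    fun k => Submodule.coe_mem _
  rw [Fintype.card_fin] at this
  linarith

/-- The row family of a family of uniformly bounded point functionals. -/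
theorem exists_rows [CompleteSpace E] [TopologicalSpace.SeparableSpace E]
    (ev : X → E →L[ℂ] ℂ) (hmeas : ∀ e, Measurable fun x => ev x e) {C : X → ℝ}
    (hC : MemLp C 2 μ) (hbound : ∀ᵐ x ∂μ, ‖ev x‖ ≤ C x) :
    ∃ r : Lp E 2 μ, ∀ e, rowOp r e =ᵐ[μ] fun x => ev x e := by
  let f : X → E := fun x => (InnerProductSpace.toDual ℂ E).symm (ev x)
  have hf : ∀ x e, ⟪f x, e⟫_ℂ = ev x e := fun x e => InnerProductSpace.toDual_symm_apply
  obtain ⟨w, b, hw, -⟩ := exists_countable_hilbertBasis E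
  have hsm : StronglyMeasurable f := by
    refine stronglyMeasurable_of_coord b fun i => ?_
    have : (fun x => ⟪b i, f x⟫_ℂ) = fun x => conj (ev x (b i)) := by
      funext x
      rw [← hf x (b i), inner_conj_symm]
    rw [this]
    exact Complex.continuous_conj.measurable.comp (hmeas (b i))
  have hmem : MemLp f 2 μ := by
    refine MemLp.of_le hC hsm.aestronglyMeasurable ?_
    filter_upwards [hbound] with x hx
    rw [LinearIsometryEquiv.norm_map]
    exact hx.trans (le_abs_self _)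
  refine ⟨hmem.toLp f, fun e => ?_⟩
  filter_upwards [coeFn_rowOp (hmem.toLp f) e, hmem.coeFn_toLp] with x hx hy
  rw [hx, hy, hf]

end Fermat.Agent.LT.Spectral
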